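import Fermat.Agent.LTF.StDef
import Fermat.Prelude.Def_GaloisRep_ComplexConjugation

/-!
# LTFREE, Galois side: common definitions

* `ResData S rbar`: the residual representation `W'[2]`, `S` the set of bad primes;
* `Pt S Q rbar red ρ U`: `(ρ, U)` is a deformation of type `(S, Q)` of finite level;
* `UpperBound S Q rbar B`: every finite coefficient ring of characteristic `2`, generated by the
  traces and the signs of a deformation of type `(S, Q)`, has at most `2 ^ B` elements.
-/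

set_option autoImplicit false

noncomputable section

namespace Fermat.Agent.LTF.Gal

open IsLocalRing Matrix
open Fermat.Agent.S53norm (GQ M2)
open Fermat.Agent.LTF (StMat)

/-- The residual data: `rbar` is `W'[2]`, where `W'` is semistable, of negative discriminant,
with multiplicative reduction exactly at the primes of `S` (`2 ∈ S`), all the valuations
`v_r(Δ)`, `r ∈ S`, being odd. -/
structure ResData (S : Finset ℕ) (rbar : GQ →* M2 (ZMod 2)) : Prop where
  primes : ∀ v ∈ S, v.Prime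
  two : 2 ∈ S
  /-- finite level -/
  lev : ∃ L : IntermediateField ℚ (AlgebraicClosure ℚ), FiniteDimensional ℚ L ∧
    ∀ σ : GQ, (∀ x ∈ L, σ x = x) → rbar σ = 1
  /-- the image is `GL₂(𝔽₂)` -/
  surj : ∀ g : M2 (ZMod 2), g.det = 1 → ∃ σ, rbar σ = g
  unr : ∀ q : ℕ, q.Prime → q ∉ S → ∀ A : ValuationSubring (AlgebraicClosure ℚ),
    A.LiesOverPrime q → ∀ σ ∈ A.inertiaSubgroupIn ℚ, rbar σ = 1
  ram : ∀ v ∈ S, ∀ A : ValuationSubring (AlgebraicClosure ℚ), A.LiesOverPrime v →
    ∃ σ ∈ A.inertiaSubgroupIn ℚ, rbar σ ≠ 1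
  /-- the decomposition groups at the bad primes act through groups of order `2` -/
  comm : ∀ v ∈ S, ∀ A : ValuationSubring (AlgebraicClosure ℚ), A.LiesOverPrime v →
    ∀ g ∈ A.decompositionSubgroup ℚ, ∀ h ∈ A.decompositionSubgroup ℚ,
      (rbar g - 1) * (rbar h - 1) = 0
  cc : rbar complexConjugation ≠ 1

/-- `(ρ, U)` is a deformation of `rbar`, of finite level, unramified outside `S ∪ Q`, Steinberg up
to the unramified quadratic twist `U v` at all `v ∈ S ∪ Q`. -/
structure Pt (S Q : Finset ℕ) (rbar : GQ →* M2 (ZMod 2)) {A : Type} [CommRing A]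
    (red : A →+* ZMod 2) (ρ : GQ →* M2 A) (U : ℕ → A) : Prop where
  lev : ∃ L : IntermediateField ℚ (AlgebraicClosure ℚ), FiniteDimensional ℚ L ∧
    ∀ σ : GQ, (∀ x ∈ L, σ x = x) → ρ σ = 1
  red : ∀ σ, (ρ σ).map red = rbar σ
  unr : ∀ q : ℕ, q.Prime → q ∉ S ∪ Q → ∀ B : ValuationSubring (AlgebraicClosure ℚ),
    B.LiesOverPrime q → ∀ σ ∈ B.inertiaSubgroupIn ℚ, ρ σ = 1
  st : ∀ v ∈ S ∪ Q, ∀ B : ValuationSubring (AlgebraicClosure ℚ), B.LiesOverPrime v →
    StMat v B ρ (U v)

/-- The upper bound for the coefficient rings of characteristic `2` of type `(S, Q)`. -/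
def UpperBound (S Q : Finset ℕ) (rbar : GQ →* M2 (ZMod 2)) (b : ℕ) : Prop :=
  ∀ (A : Type) [CommRing A] [Finite A] [IsLocalRing A] [CharP A 2] (red : A →+* ZMod 2)
    (ρ : GQ →* M2 A) (U : ℕ → A), Pt S Q rbar red ρ U → (∀ σ, (ρ σ).det = 1) →
    Subring.closure ({x | ∃ σ, x = (ρ σ).trace} ∪ {x | ∃ v ∈ S ∪ Q, x = U v}) = ⊤ →
    Nat.card A ≤ 2 ^ b

/-- The `2`-part of the class number of a number field. -/
def h2 (K : Type) [Field K] [NumberField K] : ℕ :=
  2 ^ (Nat.card (ClassGroup (NumberField.RingOfIntegers K))).factorization 2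

end Fermat.Agent.LTF.Gal

end
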