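import Fermat.Agent.LTF.Defs

/-!
# LTFREE, Galois side: from unramified Artin reciprocity to the bound of the dihedral part

`ArtGrp K h` is the statement (ART-GRP): every open normal subgroup of `G_K` with abelian quotient
of `2`-power order `2 ^ m`, containing all inertia groups, satisfies `2 ^ m ≤ h`.

If `ρ : G_ℚ → GL₂(A)` (`A` finite local of characteristic `2`) is such that `ρ(G_K)` is
commutative, residually in the cyclic group of order `3`, and everywhere unramified, then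
`Nat.card (ρ (G_K)) ≤ 3 * h`.
-/

set_option autoImplicit false

noncomputable section

namespace Fermat.Agent.LTF.Gal

open IsLocalRing Matrix

/-- (ART-GRP) for the field `K` and the number `h`. -/
def ArtGrp (K : IntermediateField ℚ Qb) (h : ℕ) : Prop :=
  ∀ (H : Subgroup GQ) (m : ℕ), H ≤ K.fixingSubgroup →
    (∃ L : IntermediateField ℚ Qb, FiniteDimensional ℚ L ∧ L.fixingSubgroup ≤ H) →
    (∀ g ∈ K.fixingSubgroup, ∀ x ∈ H, g * x * g⁻¹ ∈ H) →
    (∀ g ∈ K.fixingSubgroup, ∀ g' ∈ K.fixingSubgroup, g * g' * g⁻¹ * g'⁻¹ ∈ H) →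
    (∀ q : ℕ, q.Prime → ∀ B : ValuationSubring Qb, B.LiesOverPrime q →
      B.inertiaSubgroupIn ℚ ⊓ K.fixingSubgroup ≤ H) →
    H.relIndex K.fixingSubgroup = 2 ^ m → 2 ^ m ≤ h

section Two

variable {A : Type} [CommRing A] [CharP A 2]

/-- In characteristic `2`, `(1 + X) ^ (2 ^ k) = 1 + X ^ (2 ^ k)` for matrices. -/
lemma one_add_pow_two_pow (X : M2 A) (k : ℕ) : (1 + X) ^ 2 ^ k = 1 + X ^ 2 ^ k := by
  have h2 : (2 : M2 A) = 0 := by
    have : ((2 : A)) = 0 := CharTwo.two_eq_zero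
    ext i j
    have h3 : (2 : M2 A) = (2 : A) • (1 : M2 A) := by
      rw [ofNat_smul_eq_nsmul, nsmul_eq_mul, mul_one]; rfl
    rw [h3, this, zero_smul]
  induction k with
  | zero => simp
  | succ k ih =>
    rw [pow_succ, pow_mul, pow_mul, ih, sq, sq, add_mul, mul_add, mul_add, one_mul, one_mul,
      mul_one, add_assoc, ← add_assoc (X ^ 2 ^ k) (X ^ 2 ^ k), ← two_mul, h2, zero_mul, zero_add]

/-- A matrix with entries in a nilpotent ideal is nilpotent of `2`-power exponent. -/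
lemma exists_pow_two_pow_eq_zero [IsLocalRing A] [Finite A] (X : M2 A)
    (hX : ∀ i j, X i j ∈ maximalIdeal A) : ∃ k, X ^ 2 ^ k = 0 := by
  haveI : IsArtinianRing A := inferInstance
  obtain ⟨n, hn⟩ := IsArtinianRing.isNilpotent_jacobson_bot (R := A)
  have hmax : maximalIdeal A ^ n = ⊥ := by
    rw [← IsLocalRing.jacobson_eq_maximalIdeal ⊥ bot_ne_top]
    exact hn
  have key : ∀ m : ℕ, ∀ i j, (X ^ m) i j ∈ maximalIdeal A ^ m := by
    intro m
    induction m with
    | zero => intro i j; simp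
    | succ m ih =>
      intro i j
      have e1 : X ^ (m + 1) = X ^ m * X := pow_succ X m
      rw [e1, Matrix.mul_apply, pow_succ]
      exact Ideal.sum_mem _ fun l _ => Ideal.mul_mem_mul (ih i l) (hX l j)
  refine ⟨n, ?_⟩
  ext i j
  have h1 := key (2 ^ n) i j
  have h2 : maximalIdeal A ^ 2 ^ n ≤ maximalIdeal A ^ n :=
    Ideal.pow_le_pow_right (Nat.lt_two_pow_self).le
  have h3 := h2 h1
  rw [hmax] at h3
  simpa using h3

end Two

lemma card_cube_roots : Nat.card {X : M2 (ZMod 2) // X ^ 3 = 1} = 3 := by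
  rw [Nat.card_eq_fintype_card]
  decide

section Main

variable {A : Type} [CommRing A] [CharP A 2] [IsLocalRing A] [Finite A]
  (red : A →+* ZMod 2)

omit [CharP A 2] [Finite A] in
include red in
lemma mem_maximalIdeal_of_red {x : A} (h : red x = 0) : x ∈ maximalIdeal A := by
  by_contra hx
  rw [IsLocalRing.mem_maximalIdeal, mem_nonunits_iff, not_not] at hx
  have := hx.map red
  rw [h] at this
  exact not_isUnit_zero this

include red in
/-- elements congruent to `1` have `2`-power order. -/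
lemma exists_pow_eq_one {X : M2 A} (hX : X.map red = 1) : ∃ k, X ^ 2 ^ k = 1 := by
  have h1 : ∀ i j, (X - 1) i j ∈ maximalIdeal A := by
    intro i j
    apply mem_maximalIdeal_of_red red
    have h2 : (X - 1).map red = 0 := by
      rw [Matrix.map_sub (hf := map_sub red), hX]
      rw [Matrix.map_one _ (map_zero red) (map_one red), sub_self]
    exact congrFun (congrFun h2 i) j
  obtain ⟨k, hk⟩ := exists_pow_two_pow_eq_zero _ h1
  refine ⟨k, ?_⟩
  have h3 : X = 1 + (X - 1) := by abel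
  rw [h3, one_add_pow_two_pow, hk, add_zero]

/-- The bound `#ρ(G_K) ≤ 3 h`. -/
theorem card_image_le {K : IntermediateField ℚ Qb} {h : ℕ} (hart : ArtGrp K h)
    {ρ : GQ →* M2 A} {rbar : GQ →* M2 (ZMod 2)}
    (hlev : ∃ L : IntermediateField ℚ Qb, FiniteDimensional ℚ L ∧
      ∀ σ : GQ, (∀ x ∈ L, σ x = x) → ρ σ = 1)
    (hK : FiniteDimensional ℚ K)
    (hred : ∀ σ, (ρ σ).map red = rbar σ)
    (h3 : ∀ σ ∈ K.fixingSubgroup, rbar σ ^ 3 = 1)
    (hcomm : ∀ σ ∈ K.fixingSubgroup, ∀ τ ∈ K.fixingSubgroup, ρ σ * ρ τ = ρ τ * ρ σ)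
    (hunr : ∀ q : ℕ, q.Prime → ∀ B : ValuationSubring Qb, B.LiesOverPrime q →
      ∀ σ ∈ B.inertiaSubgroupIn ℚ, σ ∈ K.fixingSubgroup → ρ σ = 1) :
    Nat.card (ρ '' (K.fixingSubgroup : Set GQ)) ≤ 3 * h := by
  classical
  set GK := K.fixingSubgroup with hGK
  set u : GQ →* (M2 A)ˣ := ρ.toHomUnits with hu
  have hval : ∀ σ, ((u σ : (M2 A)ˣ) : M2 A) = ρ σ := fun σ => MonoidHom.coe_toHomUnits ρ σ
  have hucomm : ∀ σ ∈ GK, ∀ τ ∈ GK, u σ * u τ = u τ * u σ := by
    intro σ hσ τ hτ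
    apply Units.ext
    rw [Units.val_mul, Units.val_mul, hval, hval, hcomm σ hσ τ hτ]
  -- the image
  set Γ : Subgroup (M2 A)ˣ := GK.map u with hΓ
  have hΓcomm : ∀ x ∈ Γ, ∀ y ∈ Γ, x * y = y * x := by
    rintro _ ⟨σ, hσ, rfl⟩ _ ⟨τ, hτ, rfl⟩
    exact hucomm σ hσ τ hτ
  let _ : CommGroup Γ := { (inferInstance : Group Γ) with
    mul_comm := fun a b => Subtype.ext (hΓcomm a a.2 b b.2) }
  -- the cube
  let c : Γ →* Γ := powMonoidHom 3
  -- the map `G_K → Γ`
  let ψ : GK →* Γ := (u.subgroupMap GK)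
  have hψ : Function.Surjective ψ := MonoidHom.subgroupMap_surjective u GK
  let φ : GK →* Γ := c.comp ψ
  let H : Subgroup GQ := φ.ker.map GK.subtype
  have hHle : H ≤ GK := by
    rintro _ ⟨x, _, rfl⟩
    exact x.2
  have hmemH : ∀ σ, σ ∈ H ↔ ∃ hσ : σ ∈ GK, ρ σ ^ 3 = 1 := by
    intro σ
    constructor
    · rintro ⟨x, hx, rfl⟩
      refine ⟨x.2, ?_⟩
      have h1 : φ x = 1 := hx
      have h2 : ((φ x : Γ) : (M2 A)ˣ) = u x ^ 3 := rfl
      rw [h1] at h2
      have h3 := congrArg (fun w : (M2 A)ˣ => (w : M2 A)) h2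
      simp only [Subgroup.coe_one, Units.val_one, Units.val_pow_eq_pow_val, hval] at h3
      exact h3.symm
    · rintro ⟨hσ, h1⟩
      refine ⟨⟨σ, hσ⟩, ?_, rfl⟩
      show φ ⟨σ, hσ⟩ = 1
      apply Subtype.ext
      apply Units.ext
      show ((u σ ^ 3 : (M2 A)ˣ) : M2 A) = 1
      rw [Units.val_pow_eq_pow_val, hval, h1]
  have hrel : H.relIndex GK = Nat.card φ.range := by
    have h1 : H.relIndex GK = φ.ker.index := by
      rw [Subgroup.relIndex]
      congr 1
      show (φ.ker.map GK.subtype).subgroupOf GK = φ.ker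
      exact Subgroup.comap_map_eq_self_of_injective GK.subtype_injective _
    rw [h1, Subgroup.index_ker]
  have hrange : φ.range = c.range := by
    rw [MonoidHom.range_eq_map, MonoidHom.range_eq_map, ← Subgroup.map_map]
    congr 1
    rw [← MonoidHom.range_eq_map]
    exact MonoidHom.range_eq_top.mpr hψ
  have hpred : ∀ x ∈ Γ, ((x : (M2 A)ˣ) : M2 A).map red ^ 3 = 1 := by
    rintro _ ⟨σ, hσ, rfl⟩
    rw [hval, hred]
    exact h3 σ hσ
  have hmappow : ∀ (X : M2 A) (n : ℕ), (X ^ n).map red = (X.map red) ^ n := by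
    intro X n
    exact map_pow (red.mapMatrix (m := Fin 2)) X n
  -- `c.range` is a `2`-group
  have hpg : IsPGroup 2 c.range := by
    rintro ⟨_, x, rfl⟩
    have h1 : (((c x : Γ) : (M2 A)ˣ) : M2 A) = ((x : (M2 A)ˣ) : M2 A) ^ 3 := by
      show ((x ^ 3 : Γ) : (M2 A)ˣ).val = _
      rw [Subgroup.coe_pow, Units.val_pow_eq_pow_val]
    obtain ⟨k, hk⟩ := exists_pow_eq_one red (X := (((c x : Γ) : (M2 A)ˣ) : M2 A)) (by
      rw [h1, hmappow]
      exact hpred _ x.2)
    refine ⟨k, ?_⟩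
    apply Subtype.ext
    apply Subtype.ext
    apply Units.ext
    simpa using hk
  have : Finite (M2 A) := inferInstance
  have : Finite (M2 A)ˣ := inferInstance
  have : Fact (Nat.Prime 2) := ⟨Nat.prime_two⟩
  obtain ⟨m, hm⟩ := IsPGroup.iff_card.mp hpg
  -- apply (ART)
  have hart' : 2 ^ m ≤ h := by
    refine hart H m hHle ?_ ?_ ?_ ?_ (by rw [hrel, hrange, hm])
    · obtain ⟨L, hL, h1⟩ := hlev
      refine ⟨L ⊔ K, IntermediateField.finiteDimensional_sup L K, fun σ hσ => ?_⟩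
      have hσ' : ∀ x ∈ L ⊔ K, σ x = x := (IntermediateField.mem_fixingSubgroup_iff _ _).mp hσ
      rw [hmemH]
      refine ⟨(IntermediateField.mem_fixingSubgroup_iff _ _).mpr fun x hx =>
        hσ' x (le_sup_right (a := L) hx), ?_⟩
      rw [h1 σ fun x hx => hσ' x (le_sup_left (b := K) hx), one_pow]
    · intro g hg x hx
      rw [hmemH] at hx ⊢
      obtain ⟨hx1, hx2⟩ := hx
      refine ⟨GK.mul_mem (GK.mul_mem hg hx1) (GK.inv_mem hg), ?_⟩
      have h1 : ρ (g * x * g⁻¹) = ρ x := by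
        rw [map_mul, map_mul, hcomm g hg x hx1, mul_assoc, ← map_mul, mul_inv_cancel, map_one,
          mul_one]
      rw [h1, hx2]
    · intro g hg g' hg'
      rw [hmemH]
      refine ⟨GK.mul_mem (GK.mul_mem (GK.mul_mem hg hg') (GK.inv_mem hg)) (GK.inv_mem hg'), ?_⟩
      have h1 : ρ (g * g' * g⁻¹ * g'⁻¹) = 1 := by
        rw [map_mul, map_mul, map_mul, hcomm g hg g' hg', mul_assoc (ρ g') (ρ g), ← map_mul ρ g,
          mul_inv_cancel, map_one, mul_one, ← map_mul, mul_inv_cancel, map_one]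
      rw [h1, one_pow]
    · intro q hq B hB σ hσ
      rw [hmemH]
      refine ⟨hσ.2, ?_⟩
      rw [hunr q hq B hB σ hσ.1 hσ.2, one_pow]
  -- the kernel of the cube has at most `3` elements
  have hker : Nat.card c.ker ≤ 3 := by
    let f : c.ker → {X : M2 (ZMod 2) // X ^ 3 = 1} := fun x =>
      ⟨((((x : Γ) : (M2 A)ˣ) : M2 A)).map red, hpred _ (x : Γ).2⟩
    have hf : Function.Injective f := by
      intro x y hxy
      have h1 : ((((x : Γ) : (M2 A)ˣ) : M2 A)).map red = ((((y : Γ) : (M2 A)ˣ) : M2 A)).map red :=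
        congrArg Subtype.val hxy
      have hx3 : (x : Γ) ^ 3 = 1 := x.2
      have hy3 : (y : Γ) ^ 3 = 1 := y.2
      set z : Γ := (x : Γ) * (y : Γ)⁻¹ with hz
      have hz3 : z ^ 3 = 1 := by
        rw [hz, mul_pow, inv_pow, hx3, hy3, inv_one, mul_one]
      have hzr : (((z : (M2 A)ˣ) : M2 A)).map red = 1 := by
        have h2 : (((z : (M2 A)ˣ) : M2 A)) =
            ((((x : Γ) : (M2 A)ˣ) : M2 A)) * ((((y : Γ)⁻¹ : Γ) : (M2 A)ˣ) : M2 A) := by
          rw [hz, Subgroup.coe_mul, Units.val_mul]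
        have h4 : ((((y : Γ) : (M2 A)ˣ) : M2 A)) * ((((y : Γ)⁻¹ : Γ) : (M2 A)ˣ) : M2 A) = 1 := by
          rw [← Units.val_mul, ← Subgroup.coe_mul, mul_inv_cancel, Subgroup.coe_one, Units.val_one]
        have hmul : ∀ X Y : M2 A, (X * Y).map red = X.map red * Y.map red := fun X Y =>
          map_mul (red.mapMatrix (m := Fin 2)) X Y
        rw [h2, hmul, h1, ← hmul, h4]
        exact map_one (red.mapMatrix (m := Fin 2))
      obtain ⟨k, hk⟩ := exists_pow_eq_one red hzr
      have hzk : z ^ 2 ^ k = 1 := by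
        apply Subtype.ext
        apply Units.ext
        simpa using hk
      have hz1 : z = 1 := by
        have h5 : orderOf z ∣ 3 := orderOf_dvd_of_pow_eq_one hz3
        have h6 : orderOf z ∣ 2 ^ k := orderOf_dvd_of_pow_eq_one hzk
        have h7 : orderOf z ∣ 1 := by
          have h8 : Nat.Coprime 3 (2 ^ k) := Nat.Coprime.pow_right k (by norm_num)
          rw [← h8]
          exact Nat.dvd_gcd h5 h6
        rw [← pow_one z]
        exact orderOf_dvd_iff_pow_eq_one.mp h7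
      have h9 : (x : Γ) = y := by
        rw [hz] at hz1
        exact mul_inv_eq_one.mp hz1
      exact Subtype.ext h9
    rw [← card_cube_roots]
    exact Nat.card_le_card_of_injective f hf
  have hcard : Nat.card Γ = Nat.card c.ker * Nat.card c.range := by
    have h1 := Subgroup.card_mul_index c.ker
    rw [Subgroup.index_ker] at h1
    exact h1.symm
  have himg : Nat.card (ρ '' (GK : Set GQ)) = Nat.card Γ := by
    have h1 : (fun w : (M2 A)ˣ => (w : M2 A)) '' (Γ : Set (M2 A)ˣ) = ρ '' (GK : Set GQ) := by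
      ext X
      constructor
      · rintro ⟨_, ⟨σ, hσ, rfl⟩, rfl⟩
        exact ⟨σ, hσ, (hval σ).symm⟩
      · rintro ⟨σ, hσ, rfl⟩
        exact ⟨u σ, ⟨σ, hσ, rfl⟩, hval σ⟩
    rw [← h1, Nat.card_image_of_injective Units.val_injective]
    rfl
  rw [himg, hcard, hm]
  exact Nat.mul_le_mul hker hart'

end Main

end Fermat.Agent.LTF.Gal
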