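import Fermat.Agent.LTF.Gal.CurvePt
import Fermat.Agent.LTF.BLR2

/-!
# The inputs of `exists_algHom_eigJ` and of the removal of primes for `W[2^k]`
-/

set_option autoImplicit false

noncomputable section

namespace Fermat.Agent.LTF.Gal

open IsLocalRing Matrix
open Fermat.Agent.S53norm (GQ M2 HasMat)
open Fermat.Agent.LTF.TwoDiv Fermat.Agent.ECRed Fermat.Agent.Tate

variable {W : WeierstrassCurve ℤ} {hΔ : (W.map (Int.castRingHom ℚ)).Δ ≠ 0}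
  {r : GQ →* M2 ℤ_[2]}

/-- trace and determinant of Frobenius on `T_2 W` -/
theorem mat_frob (hr : HasMat ((tateRep (W.map (Int.castRingHom ℚ)) hΔ 2).ρ : GQ → _) r) {ℓ : ℕ}
    (hℓ : ℓ.Prime) (hℓ2 : ℓ ≠ 2) (hgood : W.IsGoodPrimeFor ℓ)
    {A : ValuationSubring (AlgebraicClosure ℚ)} (hA : A.LiesOverPrime ℓ) {φ : GQ}
    (hφ : A.IsFrobeniusAt φ ℓ) :
    (r φ).trace = ((W.apOfModel ℓ : ℤ) : ℤ_[2]) ∧ (r φ).det = ((ℓ : ℕ) : ℤ_[2]) := by
  have : Fact ℓ.Prime := ⟨hℓ⟩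
  have h1 := charpoly_tateRep_frobenius 2 hΔ hgood (Ne.symm hℓ2) hA hφ
  rw [Fermat.Agent.RTD.hasMat_charpoly hr, Matrix.charpoly_fin_two] at h1
  have h0 := congrArg (fun p => Polynomial.coeff p 0) h1
  have h2 := congrArg (fun p => Polynomial.coeff p 1) h1
  simp only [Polynomial.coeff_add, Polynomial.coeff_sub, Polynomial.coeff_C_mul,
    Polynomial.coeff_X_pow, Polynomial.coeff_X_zero, Polynomial.coeff_X_one,
    Polynomial.coeff_C_zero, Polynomial.coeff_C_succ] at h0 h2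
  constructor
  · simpa using h2
  · simpa using h0

/-- trace and determinant of Frobenius on `W[2^k]` -/
theorem frob_curve (hr : HasMat ((tateRep (W.map (Int.castRingHom ℚ)) hΔ 2).ρ : GQ → _) r) {ℓ : ℕ}
    (hℓ : ℓ.Prime) (hℓ2 : ℓ ≠ 2) (hgood : W.IsGoodPrimeFor ℓ)
    {A : ValuationSubring (AlgebraicClosure ℚ)} (hA : A.LiesOverPrime ℓ) {φ : GQ}
    (hφ : A.IsFrobeniusAt φ ℓ) (k : ℕ) :
    (redPow k r φ).trace = ((W.apOfModel ℓ : ℤ) : ZMod (2 ^ k)) ∧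
      (redPow k r φ).det = ((ℓ : ℕ) : ZMod (2 ^ k)) := by
  obtain ⟨h1, h2⟩ := mat_frob hr hℓ hℓ2 hgood hA hφ
  rw [trace_redPow, det_redPow, h1, h2, map_intCast, map_natCast]
  exact ⟨rfl, rfl⟩

/-- `hfrob` of `exists_algHom_eigJ`, for `S` containing the bad primes (`2` is bad) -/
theorem hfrob_curve (hne : W.Δ ≠ 0) (h2 : (2 : ℤ) ∣ W.Δ)
    (hr : HasMat ((tateRep (W.map (Int.castRingHom ℚ)) hΔ 2).ρ : GQ → _) r) {S : Set ℕ}
    (hS : ∀ q ∈ W.Δ.natAbs.primeFactors, q ∈ S) (k : ℕ) :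
    ∀ ℓ : ℕ, ℓ.Prime → ℓ ∉ S → ∀ A : ValuationSubring (AlgebraicClosure ℚ),
      A.LiesOverPrime ℓ → ∀ φ : GQ, A.IsFrobeniusAt φ ℓ →
        (redPow k r φ).trace = ((W.apOfModel ℓ : ℤ) : ZMod (2 ^ k)) ∧
          (redPow k r φ).det = ((ℓ : ℕ) : ZMod (2 ^ k)) := by
  intro ℓ hℓ hℓS A hA φ hφ
  have hgood : W.IsGoodPrimeFor ℓ := fun hd => hℓS (hS ℓ ((mem_badPrimes hne).mpr ⟨hℓ, hd⟩))
  refine frob_curve hr hℓ ?_ hgood hA hφ k
  rintro rfl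
  exact hgood h2

/-- reduction modulo `2` of `redPow k` is `redTwo` -/
lemma castHom_redPow {k : ℕ} (hk : k ≠ 0) (r : GQ →* M2 ℤ_[2]) (σ : GQ) :
    (redPow k r σ).map (ZMod.castHom (dvd_pow_self 2 hk) (ZMod 2)) = redTwo r σ := by
  ext i j
  rw [Matrix.map_apply, redPow_apply, Matrix.map_apply, redTwo_apply, Matrix.map_apply]
  have h1 := PadicInt.cast_toZModPow 1 k (Nat.one_le_iff_ne_zero.mpr hk) (r σ i j)
  rw [← h1]
  rfl

/-- The matrices of `W[2^k]` span `M₂(ℤ/2^k)` if `W[2]` has image `GL₂(𝔽₂)`. -/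
theorem span_curve {k : ℕ} (hk : k ≠ 0) {S : Finset ℕ} {r : GQ →* M2 ℤ_[2]}
    (hres : ResData S (redTwo r)) :
    Submodule.span (ZMod (2 ^ k)) (Set.range (redPow k r)) = ⊤ := by
  refine Fermat.Agent.LTF.BLR.span_eq_top_two hk (redPow k r) fun A hA => ?_
  obtain ⟨σ, hσ⟩ := hres.surj A hA
  exact ⟨σ, by rw [castHom_redPow hk, hσ]⟩

lemma exists_offdiag : ∀ M : Matrix (Fin 2) (Fin 2) (ZMod 2), M.det = 1 → M ≠ 1 →
    ∃ i j : Fin 2, i ≠ j ∧ M j i = 1 := by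
  decide

/-- a non trivial residual element has an off-diagonal unit modulo `2 ^ k` -/
theorem exists_isUnit_offdiag {k : ℕ} (hk : k ≠ 0) (r : GQ →* M2 ℤ_[2]) {φ : GQ}
    (h : redTwo r φ ≠ 1) : ∃ i j : Fin 2, i ≠ j ∧ IsUnit (redPow k r φ j i) := by
  obtain ⟨i, j, hij, h1⟩ := exists_offdiag (redTwo r φ) (det_eq_one (redTwo r) φ) h
  refine ⟨i, j, hij, ?_⟩
  have : IsLocalRing (ZMod (2 ^ k)) := isLocalRing_zmod hk
  by_contra hcon
  have h2 : PadicInt.toZModPow (p := 2) k (r φ j i) ∈ maximalIdeal (ZMod (2 ^ k)) := hcon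
  rw [mem_max_iff] at h2
  have h3 : redTwo r φ j i = 0 := h2
  rw [h3] at h1
  exact absurd h1 (by decide)

end Fermat.Agent.LTF.Gal
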