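import Fermat.Agent.LTF.Gal.TwoDivGal
import Fermat.Agent.LTF.WLocMat

/-!
# The point of type `(S, Q)` given by `W[2^n]`
-/

set_option autoImplicit false

noncomputable section

namespace Fermat.Agent.LTF.Gal

open IsLocalRing Matrix
open Fermat.Agent.S53norm (GQ M2 HasMat)
open Fermat.Agent.LTF.TwoDiv Fermat.Agent.ECRed Fermat.Agent.Tate

/-- reduction modulo `2 ^ n` of the matrices of `T_2 W`. -/
def redPow (n : ℕ) (r : GQ →* M2 ℤ_[2]) : GQ →* M2 (ZMod (2 ^ n)) :=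
  ((PadicInt.toZModPow (p := 2) n).mapMatrix : M2 ℤ_[2] →+* M2 (ZMod (2 ^ n))).toMonoidHom.comp r

lemma redPow_apply (n : ℕ) (r : GQ →* M2 ℤ_[2]) (σ : GQ) :
    redPow n r σ = (r σ).map (PadicInt.toZModPow (p := 2) n) := rfl

lemma redTwo_apply (r : GQ →* M2 ℤ_[2]) (σ : GQ) :
    redTwo r σ = (r σ).map (PadicInt.toZModPow (p := 2) 1) := rfl

lemma trace_redPow (n : ℕ) (r : GQ →* M2 ℤ_[2]) (σ : GQ) :
    (redPow n r σ).trace = PadicInt.toZModPow (p := 2) n (r σ).trace := by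
  rw [redPow_apply, Matrix.trace_fin_two, Matrix.trace_fin_two, map_add, Matrix.map_apply,
    Matrix.map_apply]

lemma det_redPow (n : ℕ) (r : GQ →* M2 ℤ_[2]) (σ : GQ) :
    (redPow n r σ).det = PadicInt.toZModPow (p := 2) n (r σ).det :=
  (RingHom.map_det _ _).symm

lemma toZModPow_surj (n : ℕ) : Function.Surjective (PadicInt.toZModPow (p := 2) n) := fun c =>
  ⟨((c.val : ℕ) : ℤ_[2]), by rw [map_natCast, ZMod.natCast_zmod_val]⟩

lemma nontrivial_zmod {n : ℕ} (hn : n ≠ 0) : Nontrivial (ZMod (2 ^ n)) :=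
  ZMod.nontrivial_iff.mpr (Nat.one_lt_pow hn one_lt_two).ne'

lemma isLocalRing_zmod {n : ℕ} (hn : n ≠ 0) : IsLocalRing (ZMod (2 ^ n)) := by
  have := nontrivial_zmod hn
  exact IsLocalRing.of_surjective' (PadicInt.toZModPow (p := 2) n) (toZModPow_surj n)

/-- membership in the maximal ideal of `ℤ/2^n` -/
lemma mem_max_iff {n : ℕ} [IsLocalRing (ZMod (2 ^ n))] (a : ℤ_[2]) :
    PadicInt.toZModPow (p := 2) n a ∈ maximalIdeal (ZMod (2 ^ n)) ↔
      PadicInt.toZModPow (p := 2) 1 a = 0 := by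
  have h1 : PadicInt.toZModPow (p := 2) n a ∈ maximalIdeal (ZMod (2 ^ n)) ↔
      a ∈ maximalIdeal ℤ_[2] := by
    have hloc : IsLocalHom (PadicInt.toZModPow (p := 2) n) :=
      IsLocalHom.of_surjective _ (toZModPow_surj n)
    rw [mem_maximalIdeal, mem_maximalIdeal, mem_nonunits_iff, mem_nonunits_iff,
      isUnit_map_iff]
  rw [h1, toZModPow_eq_zero_iff, PadicInt.maximalIdeal_eq_span_p, pow_one]

/-- `q` is deep modulo `2 ^ n`: Frobenius is conjugate to complex conjugation modulo `2 ^ n`. -/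
def DeepAt (n : ℕ) (r : GQ →* M2 ℤ_[2]) (q : ℕ) : Prop :=
  ∀ A : ValuationSubring (AlgebraicClosure ℚ), A.LiesOverPrime q → ∀ φ : GQ,
    A.IsFrobeniusAt φ q → ∃ u : (M2 (ZMod (2 ^ n)))ˣ, (u : M2 (ZMod (2 ^ n))) * redPow n r φ =
      redPow n r complexConjugation * u

variable {W : WeierstrassCurve ℤ} {hΔ : (W.map (Int.castRingHom ℚ)).Δ ≠ 0}
  {r : GQ →* M2 ℤ_[2]}

lemma mem_badPrimes (hne : W.Δ ≠ 0) {q : ℕ} :
    q ∈ W.Δ.natAbs.primeFactors ↔ q.Prime ∧ (q : ℤ) ∣ W.Δ := by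
  rw [Nat.mem_primeFactors_of_ne_zero (Int.natAbs_ne_zero.mpr hne), Int.natCast_dvd]

/-- The signs of `T_2 W` at the bad primes. -/
theorem exists_signs (hss : W.IsSemistableModel) (hne : W.Δ ≠ 0)
    (hr : HasMat ((tateRep (W.map (Int.castRingHom ℚ)) hΔ 2).ρ : GQ → _) r) :
    ∃ z : ℕ → ℤ_[2], (∀ v, z v = 1 ∨ z v = -1) ∧
      ∀ v ∈ W.Δ.natAbs.primeFactors, ∀ A : ValuationSubring (AlgebraicClosure ℚ),
        A.LiesOverPrime v → StMat v A r (z v) := by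
  classical
  have key : ∀ v : ℕ, ∃ z : ℤ_[2], (z = 1 ∨ z = -1) ∧ (v ∈ W.Δ.natAbs.primeFactors →
      ∀ A : ValuationSubring (AlgebraicClosure ℚ), A.LiesOverPrime v → StMat v A r z) := by
    intro v
    by_cases hv : v ∈ W.Δ.natAbs.primeFactors
    · obtain ⟨h1, h2⟩ := (mem_badPrimes hne).mp hv
      obtain ⟨z, hz, h⟩ := WLoc.exists_stMat hr (⟨h1, h2, hss v h1 h2, hne⟩ : IsMultAt W v)
      exact ⟨z, hz, fun _ => h⟩
    · exact ⟨1, Or.inl rfl, fun h => absurd h hv⟩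
  choose z hz h using key
  exact ⟨z, hz, fun v hv => h v hv⟩

variable {n : ℕ} {Q : Finset ℕ}

/-- The Steinberg conditions for `W[2^n]` at the bad primes and at the deep primes. -/
theorem st_curve (hne : W.Δ ≠ 0) (h2 : (2 : ℤ) ∣ W.Δ)
    (hr : HasMat ((tateRep (W.map (Int.castRingHom ℚ)) hΔ 2).ρ : GQ → _) r)
    {z : ℕ → ℤ_[2]} (hz : ∀ v ∈ W.Δ.natAbs.primeFactors,
      ∀ A : ValuationSubring (AlgebraicClosure ℚ), A.LiesOverPrime v → StMat v A r (z v))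
    (hQ : ∀ q ∈ Q, q.Prime ∧ q ∉ W.Δ.natAbs.primeFactors ∧ DeepAt n r q) {U : ℕ → ZMod (2 ^ n)}
    (hU : ∀ v ∈ W.Δ.natAbs.primeFactors, U v = PadicInt.toZModPow (p := 2) n (z v))
    (hU' : ∀ v ∈ Q, U v * U v = 1) :
    ∀ v ∈ W.Δ.natAbs.primeFactors ∪ Q, ∀ A : ValuationSubring (AlgebraicClosure ℚ),
      A.LiesOverPrime v → StMat v A (redPow n r) (U v) := by
  intro v hv A hA
  by_cases hvS : v ∈ W.Δ.natAbs.primeFactors
  · rw [hU v hvS]
    exact (hz v hvS A hA).map (PadicInt.toZModPow (p := 2) n)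
  · have hvQ : v ∈ Q := (Finset.mem_union.mp hv).resolve_left hvS
    obtain ⟨hvp, -, hdeep⟩ := hQ v hvQ
    obtain ⟨φ, hφ⟩ := Fermat.Agent.Frob.exists_isFrobeniusAt hvp hA
    obtain ⟨u, hu⟩ := hdeep A hA φ hφ
    have hgood : W.IsGoodPrimeFor v := fun hd => hvS ((mem_badPrimes hne).mpr ⟨hvp, hd⟩)
    refine WLoc.stMat_deep hr hvp ?_ hgood n hA hφ u hu (hU' v hvQ) hA
    rintro rfl
    exact hvS ((mem_badPrimes hne).mpr ⟨hvp, h2⟩)

/-- The Steinberg conditions for `W[2^n]` at the bad primes and at the deep primes; the deep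
primes are given by one Frobenius element. -/
theorem st_curve' (hne : W.Δ ≠ 0) (h2 : (2 : ℤ) ∣ W.Δ)
    (hr : HasMat ((tateRep (W.map (Int.castRingHom ℚ)) hΔ 2).ρ : GQ → _) r)
    {z : ℕ → ℤ_[2]} (hz : ∀ v ∈ W.Δ.natAbs.primeFactors,
      ∀ A : ValuationSubring (AlgebraicClosure ℚ), A.LiesOverPrime v → StMat v A r (z v))
    (hQ : ∀ q ∈ Q, q.Prime ∧ q ∉ W.Δ.natAbs.primeFactors ∧
      ∃ A : ValuationSubring (AlgebraicClosure ℚ), A.LiesOverPrime q ∧ ∃ φ : GQ,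
        A.IsFrobeniusAt φ q ∧ (r φ).map (PadicInt.toZModPow (p := 2) n) =
          (r complexConjugation).map (PadicInt.toZModPow (p := 2) n)) {U : ℕ → ZMod (2 ^ n)}
    (hU : ∀ v ∈ W.Δ.natAbs.primeFactors, U v = PadicInt.toZModPow (p := 2) n (z v))
    (hU' : ∀ v ∈ Q, U v * U v = 1) :
    ∀ v ∈ W.Δ.natAbs.primeFactors ∪ Q, ∀ A : ValuationSubring (AlgebraicClosure ℚ),
      A.LiesOverPrime v → StMat v A (redPow n r) (U v) := by
  intro v hv A hA
  by_cases hvS : v ∈ W.Δ.natAbs.primeFactors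
  · rw [hU v hvS]
    exact (hz v hvS A hA).map (PadicInt.toZModPow (p := 2) n)
  · have hvQ : v ∈ Q := (Finset.mem_union.mp hv).resolve_left hvS
    obtain ⟨hvp, -, A', hA', φ, hφ, hu⟩ := hQ v hvQ
    have hgood : W.IsGoodPrimeFor v := fun hd => hvS ((mem_badPrimes hne).mpr ⟨hvp, hd⟩)
    refine WLoc.stMat_deep hr hvp ?_ hgood n hA' hφ 1 ?_ (hU' v hvQ) hA
    · rintro rfl
      exact hvS ((mem_badPrimes hne).mpr ⟨hvp, h2⟩)
    · rw [Units.val_one, one_mul, mul_one, hu]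

/-- `W[2^n]` is unramified outside the bad primes. -/
theorem unr_curve (hne : W.Δ ≠ 0) (h2 : (2 : ℤ) ∣ W.Δ)
    (hr : HasMat ((tateRep (W.map (Int.castRingHom ℚ)) hΔ 2).ρ : GQ → _) r) {q : ℕ} (hq : q.Prime)
    (hqS : q ∉ W.Δ.natAbs.primeFactors) {A : ValuationSubring (AlgebraicClosure ℚ)}
    (hA : A.LiesOverPrime q) {σ : GQ} (hσ : σ ∈ A.inertiaSubgroupIn ℚ) : redPow n r σ = 1 := by
  have hgood : W.IsGoodPrimeFor q := fun hd => hqS ((mem_badPrimes hne).mpr ⟨hq, hd⟩)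
  have h1 : r σ = 1 := by
    refine WLoc.mat_inertia hr hq ?_ hgood hA hσ
    rintro rfl
    exact hqS ((mem_badPrimes hne).mpr ⟨hq, h2⟩)
  change ((PadicInt.toZModPow (p := 2) n).mapMatrix : M2 ℤ_[2] →+* M2 (ZMod (2 ^ n))) (r σ) = 1
  rw [h1, map_one]

/-- finite level -/
theorem lev_curve (hr : HasMat ((tateRep (W.map (Int.castRingHom ℚ)) hΔ 2).ρ : GQ → _) r) (n : ℕ) :
    ∃ L : IntermediateField ℚ (AlgebraicClosure ℚ), FiniteDimensional ℚ L ∧
      ∀ σ : GQ, (∀ x ∈ L, σ x = x) → redPow n r σ = 1 :=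
  WLoc.mat_level hr n

/-- the determinant is cyclotomic -/
theorem det_curve (hr : HasMat ((tateRep (W.map (Int.castRingHom ℚ)) hΔ 2).ρ : GQ → _) r) (n : ℕ)
    (σ : GQ) : (redPow n r σ).det =
      PadicInt.toZModPow (p := 2) n ((Fermat.Agent.S30aux.cyc 2 σ : ℤ_[2]ˣ) : ℤ_[2]) := by
  rw [det_redPow, WLoc.mat_det hr]

/-- the traces are congruent to those of `W[2]` -/
theorem tr_curve {n : ℕ} [IsLocalRing (ZMod (2 ^ n))] (r : GQ →* M2 ℤ_[2]) (σ : GQ) :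
    ((redTwo r σ).trace = 0 → (redPow n r σ).trace ∈ maximalIdeal (ZMod (2 ^ n))) ∧
      ((redTwo r σ).trace = 1 → (redPow n r σ).trace - 1 ∈ maximalIdeal (ZMod (2 ^ n))) := by
  have h1 : (redTwo r σ).trace = PadicInt.toZModPow (p := 2) 1 (r σ).trace := by
    rw [redTwo_apply, Matrix.trace_fin_two, Matrix.trace_fin_two, map_add, Matrix.map_apply,
      Matrix.map_apply]
  rw [h1, trace_redPow]
  refine ⟨fun h => (mem_max_iff _).mpr h, fun h => ?_⟩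
  have h2 : PadicInt.toZModPow (p := 2) n (r σ).trace - 1 =
      PadicInt.toZModPow (p := 2) n ((r σ).trace - 1) := by rw [map_sub, map_one]
  rw [h2, mem_max_iff, map_sub, map_one, h, sub_self]

/-- the signs are residually trivial -/
theorem sign_sub_one_mem {n : ℕ} [IsLocalRing (ZMod (2 ^ n))] {z : ℤ_[2]}
    (hz : z = 1 ∨ z = -1) :
    PadicInt.toZModPow (p := 2) n z - 1 ∈ maximalIdeal (ZMod (2 ^ n)) := by
  have h2 : PadicInt.toZModPow (p := 2) n z - 1 =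
      PadicInt.toZModPow (p := 2) n (z - 1) := by rw [map_sub, map_one]
  rw [h2, mem_max_iff]
  rcases hz with rfl | rfl
  · rw [sub_self, map_zero]
  · rw [map_sub, map_neg, map_one]
    decide

end Fermat.Agent.LTF.Gal
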