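import Fermat.Agent.LTF.Gal.Defs
import Fermat.Agent.LTF.TwoDivRes
import Fermat.Agent.LTF.TwoDivTate

/-!
# The residual data (Galois side form) of a good curve
-/

set_option autoImplicit false

noncomputable section

namespace Fermat.Agent.LTF.Gal

open Fermat.Agent.S53norm (GQ M2 HasMat)
open Fermat.Agent.LTF.TwoDiv Fermat.Agent.ECRed

variable {W : WeierstrassCurve ℤ} {rbar : GQ →* M2 (ZMod 2)}

lemma comm_of_fix (v : Fin 2 → ZMod 2) (hv : v ≠ 0) (M M' : Matrix (Fin 2) (Fin 2) (ZMod 2))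
    (h : M.det = 1) (h' : M'.det = 1) (hM : M.mulVec v = v) (hM' : M'.mulVec v = v) :
    (M - 1) * (M' - 1) = 0 := by
  have key : ∀ (v : Fin 2 → ZMod 2) (_ : v ≠ 0) (M : Matrix (Fin 2) (Fin 2) (ZMod 2))
    (_ : M.det = 1) (_ : M.mulVec v = v),
      M = 1 ∨ M = 1 + !![v 0 * v 1, v 0 * v 0; v 1 * v 1, v 0 * v 1] := by
    decide
  have key2 : ∀ (v : Fin 2 → ZMod 2), !![v 0 * v 1, v 0 * v 0; v 1 * v 1, v 0 * v 1] *
      !![v 0 * v 1, v 0 * v 0; v 1 * v 1, v 0 * v 1] = 0 := by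
    decide
  rcases key v hv M h hM with h1 | h1
  · rw [h1, sub_self, zero_mul]
  rcases key v hv M' h' hM' with h2 | h2
  · rw [h2, sub_self, mul_zero]
  rw [h1, h2, add_sub_cancel_left]
  exact key2 v

/-- **The residual data of a good curve**, `S` = the set of bad primes. -/
theorem resData_of_goodCurve (hW : GoodCurve W) (h : TwoMat W rbar) :
    Gal.ResData W.Δ.natAbs.primeFactors rbar := by
  obtain ⟨x, hx⟩ := exists_roots h
  have hne : W.Δ ≠ 0 := hW.neg.ne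
  have hmem : ∀ {q : ℕ}, q ∈ W.Δ.natAbs.primeFactors ↔ q.Prime ∧ (q : ℤ) ∣ W.Δ := by
    intro q
    rw [Nat.mem_primeFactors_of_ne_zero (Int.natAbs_ne_zero.mpr hne), Int.natCast_dvd]
  have hmult : ∀ {r : ℕ}, r ∈ W.Δ.natAbs.primeFactors → IsMultAt W r := fun hr =>
    ⟨(hmem.mp hr).1, (hmem.mp hr).2, hW.ss _ (hmem.mp hr).1 (hmem.mp hr).2, hne⟩
  refine ⟨fun v hv => (hmem.mp hv).1, hmem.mpr ⟨Nat.prime_two, hW.two⟩, h.cont hne, ?_, ?_, ?_, ?_,
    (hx.conj hW.neg).2⟩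
  · intro g hg
    exact surj_of_involution h hW.irr _ (hx.conj hW.neg) g hg
  · intro q hq hqS A hA σ hσ
    have hq2 : ¬ (q : ℤ) ∣ W.Δ := fun hd => hqS (hmem.mpr ⟨hq, hd⟩)
    refine h.unramified hq ?_ hq2 hA hσ
    rintro rfl
    exact hq2 hW.two
  · intro v hv A hA
    exact hx.exists_inertia (hmem.mp hv).1 hA hne (hW.odd v (hmem.mp hv).1 (hmem.mp hv).2)
  · intro v hv A hA g hg g' hg'
    obtain ⟨u, hu, hfix⟩ := hx.exists_fixed (hmem.mp hv).1 hA (hmult hv)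
    exact comm_of_fix u hu _ _ (det_eq_one rbar g) (det_eq_one rbar g') (hfix g hg) (hfix g' hg')

/-- `σ` fixes `√-N` iff `rbar σ` has order `1` or `3`; `N` = product of the bad primes. -/
theorem fix_sqrt_iff (hW : GoodCurve W) (h : TwoMat W rbar) {s : AlgebraicClosure ℚ}
    (hs : s ^ 2 = -(W.conductorLevel : AlgebraicClosure ℚ)) (σ : GQ) :
    σ s = s ↔ rbar σ ^ 3 = 1 :=
  (TwoDiv.resData_of_goodCurve hW h).quad σ s hs

/-- same statement for a square root of `Δ` -/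
theorem fix_sqrtΔ_iff (h : TwoMat W rbar) {s : AlgebraicClosure ℚ}
    (hs : s ^ 2 = ((W.Δ : ℤ) : AlgebraicClosure ℚ)) (σ : GQ) :
    σ s = s ↔ rbar σ ^ 3 = 1 := by
  obtain ⟨x, hx⟩ := exists_roots h
  exact hx.fix_iff hs σ

/-- The field `K = ℚ(√-N)` corresponds to `{σ | rbar σ ^ 3 = 1}`. -/
theorem fixing_adjoin_iff (hW : GoodCurve W) (h : TwoMat W rbar) {s : AlgebraicClosure ℚ}
    (hs : s ^ 2 = -(W.conductorLevel : AlgebraicClosure ℚ)) (σ : GQ) :
    σ ∈ (IntermediateField.adjoin ℚ {s}).fixingSubgroup ↔ rbar σ ^ 3 = 1 := by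
  rw [← fix_sqrt_iff hW h hs σ, IntermediateField.mem_fixingSubgroup_iff]
  refine ⟨fun h1 => h1 s (IntermediateField.mem_adjoin_simple_self ℚ s), fun h1 x hx => ?_⟩
  have h2 : IntermediateField.adjoin ℚ {s} ≤
      IntermediateField.fixedField (Subgroup.zpowers σ) := by
    rw [IntermediateField.adjoin_simple_le_iff, IntermediateField.mem_fixedField_iff]
    intro f hf
    obtain ⟨n, rfl⟩ := Subgroup.mem_zpowers_iff.mp hf
    have h3 : ∀ τ : GQ, τ s = s → ∀ n : ℤ, (τ ^ n) s = s := by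
      intro τ hτ n
      have h4 : τ ∈ MulAction.stabilizer GQ s := hτ
      exact (MulAction.stabilizer GQ s).zpow_mem h4 n
    exact h3 σ h1 n
  exact (IntermediateField.mem_fixedField_iff _ _).mp (h2 hx) σ (Subgroup.mem_zpowers σ)

/-- The residual data for the matrices of the 2-adic Tate module. -/
theorem resData_redTwo (hW : GoodCurve W) (hΔ : (W.map (Int.castRingHom ℚ)).Δ ≠ 0)
    {r : GQ →* M2 ℤ_[2]}
    (h : HasMat ((Fermat.Agent.Tate.tateRep (W.map (Int.castRingHom ℚ)) hΔ 2).ρ : GQ → _)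
      (r : GQ → _)) : Gal.ResData W.Δ.natAbs.primeFactors (redTwo r) :=
  resData_of_goodCurve hW (twoMat_of_tate hΔ h)

end Fermat.Agent.LTF.Gal

end
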