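import Fermat.Agent.LTF.Gal.UB
import Fermat.Agent.LTF.Gal.TwoDivGal
import Fermat.Agent.LTF.Sel.KillMain
import Fermat.Agent.LTF.DeepCheb
import Fermat.Agent.LTF.WLocMat
import Fermat.Agent.LTF.Gal.CurvePt

/-!
# LTFREE, Galois side: the deep sets of auxiliary primes

`exists_deepSet`: for a good curve `W` there is `R` such that for all `n` and all finite `B` there
is a set `Q` of at most `R` primes, outside `B`, with Frobenius acting as complex conjugation on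
`W[2ⁿ]`, which kills the Selmer group of `W[2]`.
-/

set_option autoImplicit false

noncomputable section

namespace Fermat.Agent.LTF.Gal

open IsLocalRing Matrix
open Fermat.Agent.S53norm (GQ M2 HasMat)
open Fermat.Agent.LTF (StMat unrDeg)
open Fermat.Agent.LTF.TwoDiv Fermat.Agent.ECRed
open scoped Pointwise

theorem red2_redPow {n : ℕ} (hn : n ≠ 0) (r : GQ →* M2 ℤ_[2]) (σ : GQ) :
    Deep.red2 hn (redPow n r σ) = redTwo r σ := by
  ext i j
  rw [Deep.red2_apply]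
  show ZMod.castHom (dvd_pow_self 2 hn) (ZMod 2) (PadicInt.toZModPow (p := 2) n (r σ i j)) =
    PadicInt.toZModPow (p := 2) 1 (r σ i j)
  have h1 := PadicInt.zmod_cast_comp_toZModPow (p := 2) 1 n (Nat.one_le_iff_ne_zero.mpr hn)
  have h2 := RingHom.congr_fun h1 (r σ i j)
  rw [RingHom.comp_apply] at h2
  exact h2

theorem redPow_le {m n : ℕ} (hmn : m ≤ n) {r : GQ →* M2 ℤ_[2]} {σ τ : GQ}
    (h : redPow n r σ = redPow n r τ) : redPow m r σ = redPow m r τ := by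
  ext i j
  have h0 := congrFun (congrFun h i) j
  rw [redPow_apply, redPow_apply, Matrix.map_apply, Matrix.map_apply] at h0 ⊢
  have h1 := PadicInt.zmod_cast_comp_toZModPow (p := 2) m n hmn
  rw [← h1, RingHom.comp_apply, RingHom.comp_apply, h0]

theorem redPow_det {W : WeierstrassCurve ℤ} {hΔ : (W.map (Int.castRingHom ℚ)).Δ ≠ 0}
    {r : GQ →* M2 ℤ_[2]}
    (hr : HasMat ((Tate.tateRep (W.map (Int.castRingHom ℚ)) hΔ 2).ρ : GQ → _) (r : GQ → _))
    (n : ℕ) (σ : GQ) (a : ℕ)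
    (h : ∀ μ : AlgebraicClosure ℚ, μ ^ 2 ^ n = 1 → σ μ = μ ^ a) :
    (redPow n r σ).det = (a : ZMod (2 ^ n)) := by
  obtain ⟨ζ, hζ⟩ := S30aux.exists_primitive 2 n
  rw [redPow_apply, ← RingHom.mapMatrix_apply, ← RingHom.map_det, WLoc.mat_det hr σ,
    ← S30aux.cast_cn]
  exact (S30aux.cn_unique 2 n σ a ζ hζ (h ζ hζ.pow_eq_one)).symm

/-- From one place and one Frobenius to all of them. -/
theorem deepAt_of {W : WeierstrassCurve ℤ} {hΔ : (W.map (Int.castRingHom ℚ)).Δ ≠ 0}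
    {r : GQ →* M2 ℤ_[2]} (hne : W.Δ ≠ 0) (h2 : (2 : ℤ) ∣ W.Δ)
    (hr : HasMat ((Tate.tateRep (W.map (Int.castRingHom ℚ)) hΔ 2).ρ : GQ → _) (r : GQ → _))
    {n q : ℕ} (hq : q.Prime) (hqS : q ∉ W.Δ.natAbs.primeFactors)
    {A : ValuationSubring (AlgebraicClosure ℚ)} (hA : A.LiesOverPrime q) {φ : GQ}
    (hφ : A.IsFrobeniusAt φ q) (h : redPow n r φ = redPow n r complexConjugation) :
    DeepAt n r q := by
  intro B hB ψ hψ
  obtain ⟨g, hg⟩ := Fermat.Agent.Frob.exists_smul_eq hq hA hB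
  have h3 : (g⁻¹ • B).IsFrobeniusAt (g⁻¹ * ψ * g) q := by
    have := FrobDensity.isFrobeniusAt_conj (g := g⁻¹) hψ
    rwa [inv_inv] at this
  rw [← hg, inv_smul_smul] at h3
  have h4 : redPow n r (φ⁻¹ * (g⁻¹ * ψ * g)) = 1 :=
    unr_curve hne h2 hr hq hqS hA (Fermat.Agent.TW.inv_mul_mem_inertia hφ h3)
  have h5 : redPow n r (g⁻¹ * ψ * g) = redPow n r complexConjugation := by
    rw [← h]
    have h6 : redPow n r (g⁻¹ * ψ * g) = redPow n r φ * redPow n r (φ⁻¹ * (g⁻¹ * ψ * g)) := by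
      rw [← map_mul, mul_inv_cancel_left]
    rw [h6, h4, mul_one]
  have hgg : redPow n r g * redPow n r g⁻¹ = 1 := by rw [← map_mul, mul_inv_cancel, map_one]
  have hgg' : redPow n r g⁻¹ * redPow n r g = 1 := by rw [← map_mul, inv_mul_cancel, map_one]
  refine ⟨⟨redPow n r g⁻¹, redPow n r g, hgg', hgg⟩, ?_⟩
  show redPow n r g⁻¹ * redPow n r ψ = redPow n r complexConjugation * redPow n r g⁻¹
  rw [← h5, map_mul, map_mul, mul_assoc (redPow n r g⁻¹ * redPow n r ψ), hgg, mul_one]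

/-- **The deep sets.** -/
theorem exists_deepSet {W : WeierstrassCurve ℤ} (hW : GoodCurve W)
    (hΔ : (W.map (Int.castRingHom ℚ)).Δ ≠ 0) {r : GQ →* M2 ℤ_[2]}
    (hr : HasMat ((Tate.tateRep (W.map (Int.castRingHom ℚ)) hΔ 2).ρ : GQ → _) (r : GQ → _)) :
    ∃ R : ℕ, ∀ (n : ℕ) (B : Finset ℕ), ∃ Q : Finset ℕ, Q.card ≤ R ∧
      (∀ q ∈ Q, q.Prime ∧ q ∉ W.Δ.natAbs.primeFactors ∧ q ∉ B ∧ 2 ^ n ∣ q + 1 ∧
        (∀ A : ValuationSubring (AlgebraicClosure ℚ), A.LiesOverPrime q → ∀ φ : GQ,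
          A.IsFrobeniusAt φ q → redTwo r φ ≠ 1 ∧ redTwo r φ * redTwo r φ = 1) ∧
        ∃ A : ValuationSubring (AlgebraicClosure ℚ), A.LiesOverPrime q ∧ ∃ φ : GQ,
          A.IsFrobeniusAt φ q ∧ (r φ).map (PadicInt.toZModPow (p := 2) n) =
            (r complexConjugation).map (PadicInt.toZModPow (p := 2) n)) ∧
      (∀ q ∈ Q, DeepAt n r q) ∧
      SelZero W.Δ.natAbs.primeFactors Q (redTwo r) ∧
      AuxSet W.Δ.natAbs.primeFactors Q (redTwo r) := by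
  classical
  have hres := resData_redTwo hW hΔ hr
  set S := W.Δ.natAbs.primeFactors with hSdef
  have hne : W.Δ ≠ 0 := hW.neg.ne
  have hmem : ∀ {q : ℕ}, q ∈ S ↔ q.Prime ∧ (q : ℤ) ∣ W.Δ := by
    intro q
    rw [hSdef, Nat.mem_primeFactors_of_ne_zero (Int.natAbs_ne_zero.mpr hne), Int.natCast_dvd]
  -- an element of inertia at an odd bad prime
  obtain ⟨r0, hr0, hr0Δ, hr12⟩ := hW.eleven
  have hr0S : r0 ∈ S := hmem.mpr ⟨hr0, hr0Δ⟩
  have hr02 : r0 ≠ 2 := by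
    rintro rfl
    omega
  obtain ⟨A0, hA0, -⟩ := Fermat.Agent.Frob.exists_frobenius r0 hr0
  obtain ⟨τ, hτI, hτ1⟩ := hres.ram r0 hr0S A0 hA0
  have hτD : τ ∈ A0.decompositionSubgroup ℚ := TW.inertia_le_decomp hτI
  have hdetτ : (r τ).det = 1 := by
    rw [WLoc.mat_det hr τ, S30aux.cyc_inertia hr0 hr02 hA0 hτI, Units.val_one]
  have hτsq : (r τ - 1) * (r τ - 1) = 0 := by
    obtain ⟨z, -, hst⟩ := WLoc.exists_stMat hr (q := r0) ⟨hr0, hr0Δ, hW.ss _ hr0 hr0Δ, hne⟩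
    have h1 := (hst A0 hA0).2 τ hτD τ hτD
    rwa [hdetτ, unrDeg_inertia hr0 hA0 hτI, pow_zero, one_mul, one_smul] at h1
  obtain ⟨R, hR⟩ := Sel.exists_kill_main hres
  refine ⟨R, fun n B => ?_⟩
  -- we work modulo `2 ^ (n + 1)`
  have hn : n + 1 ≠ 0 := Nat.succ_ne_zero n
  have hle : n ≤ n + 1 := Nat.le_succ n
  obtain ⟨Q, hQR, hQ, hkill⟩ := hR (fun q => q ∉ B ∧ 2 ^ (n + 1) ∣ q + 1 ∧
      ∃ A : ValuationSubring (AlgebraicClosure ℚ), A.LiesOverPrime q ∧ ∃ φ : GQ,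
        A.IsFrobeniusAt φ q ∧ redPow (n + 1) r φ = redPow (n + 1) r complexConjugation) (by
    intro T hST hTP e he hnc
    have hrL : ∃ L : IntermediateField ℚ (AlgebraicClosure ℚ), FiniteDimensional ℚ L ∧
        ∀ σ : GQ, Sel.Fixes L σ → redPow (n + 1) r σ = 1 := by
      obtain ⟨L, hL, h1⟩ := WLoc.mat_level hr (n + 1)
      exact ⟨L, hL, fun σ hσ => h1 σ hσ⟩
    have hτn : (redPow (n + 1) r τ - 1) * (redPow (n + 1) r τ - 1) = 0 := by
      have h1 := congrArg ((PadicInt.toZModPow (p := 2) (n + 1) :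
        ℤ_[2] →+* ZMod (2 ^ (n + 1))).mapMatrix (m := Fin 2)) hτsq
      rw [map_mul, map_sub, map_one, map_zero] at h1
      exact h1
    have hdn : (redPow (n + 1) r τ).det = 1 := by
      rw [redPow_apply, ← RingHom.mapMatrix_apply, ← RingHom.map_det, hdetτ, map_one]
    obtain ⟨q, hq, hqT, A, hA, -, φ, hφ, hφc, hφe⟩ :=
      Deep.exists_deep_prime hn (redPow (n + 1) r) hrL
        (fun m hm => by
          obtain ⟨g, hg⟩ := hres.surj m hm
          exact ⟨g, by rw [red2_redPow, hg]⟩)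
        hτn (by rw [red2_redPow]; exact hτ1) hdn (by rw [red2_redPow]; exact hres.cc)
        e he.smooth (fun g h => by rw [red2_redPow]; exact he.coc g h)
        (by
          rw [red2_redPow]
          exact he.loc r0 (hST hr0S) A0 hA0 τ hτD τ hτD)
        (by simpa only [red2_redPow] using hnc) (T ∪ B)
    rw [Finset.mem_union, not_or] at hqT
    have hq2 : q ≠ 2 := by
      rintro rfl
      exact hqT.1 (hST hres.two)
    have hdvd : 2 ^ (n + 1) ∣ q + 1 :=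
      Deep.two_pow_dvd_succ (redPow (n + 1) r) (redPow_det hr (n + 1)) hq hq2 hA hφ hφc
    have hφ2 : redTwo r φ = redTwo r complexConjugation := by
      rw [← red2_redPow hn, ← red2_redPow hn, hφc]
    refine ⟨q, hq, hqT.1, ⟨hqT.2, hdvd, A, hA, φ, hφ, hφc⟩, A, hA, φ, hφ, ?_, ?_, ?_⟩
    · rw [hφ2]
      exact hres.cc
    · rw [hφ2, ← map_mul, complexConjugation_mul_self, map_one]
    · rw [← red2_redPow hn]
      exact hφe)
  refine ⟨Q, hQR, ?_, ?_, ?_, ?_⟩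
  · intro q hqQ
    obtain ⟨hq, hqS, ⟨hqB, hqd, A, hA, φ, hφ, hφc⟩, hall⟩ := hQ q hqQ
    exact ⟨hq, hqS, hqB, (pow_dvd_pow 2 hle).trans hqd, hall, A, hA, φ, hφ, redPow_le hle hφc⟩
  · intro q hqQ
    obtain ⟨hq, hqS, ⟨hqB, hqd, A, hA, φ, hφ, hφc⟩, hall⟩ := hQ q hqQ
    exact deepAt_of hne hW.two hr hq hqS hA hφ (redPow_le hle hφc)
  · intro e hsm hcoc hunr hloc
    refine hkill e ⟨hcoc, ?_, hunr, hloc⟩
    obtain ⟨L, hL, h1⟩ := hsm
    refine ⟨L, hL, fun g u hu => ?_⟩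
    rw [hcoc, h1 u hu, Matrix.mulVec_zero, add_zero]
  · refine ⟨fun q hqQ => (hQ q hqQ).1, fun q hqQ => (hQ q hqQ).2.1, fun q hqQ A hA => ?_⟩
    obtain ⟨φ, hφ⟩ := Fermat.Agent.Frob.exists_isFrobeniusAt (hQ q hqQ).1 hA
    exact ⟨φ, hφ.mem_decompositionSubgroup, ((hQ q hqQ).2.2.2 A hA φ hφ).1⟩

end Fermat.Agent.LTF.Gal

end
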