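import Fermat.Agent.LTF.MultOne
import Fermat.Agent.Cofaith.Weight
import Fermat.Agent.RTE.NewPart

/-!
# Newness at primes with `a_q² = 1`

A normalised eigenform `f` of level `N = q m`, `q ∤ m`, with `a_q(f)² = 1` is new at `q` in the
strongest sense: its eigensystem away from any finite set of primes does not occur in level `m`.
-/

set_option autoImplicit false
set_option linter.style.haveILetI false

noncomputable section

open CongruenceSubgroup ModularFormClass FermatAgent.HeckeEigen Matrix.SpecialLinearGroup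
open Fermat.Agent.HeckePar Fermat.Agent.Oldforms Fermat.Agent.LTF.MultOne
open Fermat.Agent.GalRep
open scoped MatrixGroups ModularForm

namespace Fermat.Agent.LTF.Gal

variable {N M q : ℕ}

/-- The basic computation: if `F` has level `N = q M`, `U_q F = a F`, `a² = 1`, and its coefficients
prime to `q` are those of a `T_q`-eigenform `G` of level `M`, then `a_q(G) = a (q + 1)`. -/
theorem coeff_eq_of_old (D : ALData N M q) [NeZero N] [NeZero M] (hqM : ¬ q ∣ M)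
    (F : CuspForm (Gamma0 N) 2) (G : CuspForm (Gamma0 M) 2)
    (a t : ℂ) (ha : a ^ 2 = 1)
    (hF : heckeOp N 2 D.qp F = a • F) (hG : heckeOp M 2 D.qp G = t • G)
    (hF1 : qCoeff ⇑F 1 = 1) (hG1 : qCoeff ⇑G 1 = 1)
    (hc : ∀ n, ¬ q ∣ n → qCoeff ⇑F n = qCoeff ⇑G n) : t = a * (q + 1) := by
  set G' := restr N D.dvdMN 2 G with hG'
  set VG := V 2 D.hq.ne_zero D.hN G with hVG
  have hU : heckeOp N 2 D.qp (F - G') = (q : ℂ) • D.w 2 (F - G') :=
    heckeOp_eq_w D _ fun n hn => by rw [qCoeff_sub, hG', coe_restr, hc n hn, sub_self]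
  have hUG : heckeOp N 2 D.qp G' = t • G' - (q : ℂ) • VG := by
    apply eq_of_qCoeff_eq
    intro n
    have h := congrArg (fun g : CuspForm (Gamma0 M) 2 => qCoeff ⇑g n) hG
    simp only [qCoeff_heckeOp_two, qCoeff_smul] at h
    rw [if_neg hqM] at h
    rw [qCoeff_heckeOp_two, if_pos D.dvdqN, zero_mul, add_zero, qCoeff_sub, qCoeff_smul,
      qCoeff_smul, hVG, qCoeff_V, hG', coe_restr, ← h]
    ring
  have hwG : D.w 2 G' = (q : ℂ) • VG := by rw [hG', w_restr, Vraw_eq]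
  have hwV : (q : ℂ) • D.w 2 VG = G' := by rw [← map_smul, ← hwG, ALData.w_w]
  -- first relation
  have h1 : (q : ℂ) • D.w 2 F = a • F - t • G' + ((q : ℂ) + (q : ℂ) ^ 2) • VG := by
    rw [map_sub, map_sub, hF, hUG, hwG] at hU
    have h := hU
    rw [smul_sub, eq_sub_iff_add_eq] at h
    rw [← h, smul_smul, add_smul, pow_two]
    abel
  -- second relation
  have h2 : (q : ℂ) • F = a • D.w 2 F - (t * q) • VG + (1 + (q : ℂ)) • G' := by
    have h := congrArg (D.w 2) h1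
    rw [map_smul, ALData.w_w, map_add, map_sub, map_smul, map_smul, map_smul, hwG, smul_smul] at h
    rw [h]
    congr 1
    rw [← hwV, smul_smul]
    congr 1
    ring
  have h3 : ((q : ℂ) ^ 2) • F = a • (a • F - t • G' + ((q : ℂ) + (q : ℂ) ^ 2) • VG) -
      (t * (q : ℂ) ^ 2) • VG + ((q : ℂ) * (1 + (q : ℂ))) • G' := by
    have h := congrArg (fun x => (q : ℂ) • x) h2
    simp only [smul_add, smul_sub, smul_smul] at h
    rw [← h1, smul_smul, pow_two, h, mul_comm (q : ℂ) a,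
      show (q : ℂ) * (t * q) = t * (q * q) by ring]
  have h4 := congrArg (fun x : CuspForm (Gamma0 N) 2 => qCoeff ⇑x 1) h3
  simp only [qCoeff_smul, qCoeff_add, qCoeff_sub, hF1] at h4
  have hV1 : qCoeff ⇑VG 1 = 0 := by
    rw [hVG, qCoeff_V, if_neg]
    exact D.hq.not_dvd_one
  have hG1' : qCoeff ⇑G' 1 = 1 := by rw [hG', coe_restr, hG1]
  rw [hV1, hG1'] at h4
  have h5 : a * t = 1 + q := by linear_combination h4 + ha
  linear_combination a * h5 - t * ha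

/-- Two normalised eigenforms with the same coefficients at the primes of `P`. -/
theorem qCoeff_eq_of_prime' {N N' : ℕ} {f : CuspForm (Gamma0 N) 2} {g : CuspForm (Gamma0 N') 2}
    [NeZero N] [NeZero N'] (hf : f.IsNormalizedEigenform) (hg : g.IsNormalizedEigenform)
    (P : ℕ → Prop) (hNN : ∀ p : ℕ, p.Prime → P p → (p ∣ N ↔ p ∣ N'))
    (h : ∀ p : ℕ, p.Prime → P p → qCoeff ⇑f p = qCoeff ⇑g p) :
    ∀ n : ℕ, (∀ p : ℕ, p.Prime → p ∣ n → P p) → qCoeff ⇑f n = qCoeff ⇑g n := by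
  have hf' := fun p => heckeOp_eq_of_isNormalizedEigenform hf p
  have hg' := fun p => heckeOp_eq_of_isNormalizedEigenform hg p
  intro n
  induction n using Nat.strongRecOn with
  | ind n ih =>
    intro hP
    rcases Nat.lt_or_ge n 2 with hn | hn
    · interval_cases n
      · rw [qCoeff_at_zero, qCoeff_at_zero]
      · rw [hf.qCoeff_one, hg.qCoeff_one]
    · obtain ⟨p, hp, m, rfl⟩ := Nat.exists_prime_and_dvd (show n ≠ 1 by omega)
      have hm : m ≠ 0 := by rintro rfl; omega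
      have hmpos : 0 < m := Nat.pos_of_ne_zero hm
      have hlt : m < p * m := by nlinarith [hp.two_le]
      have hlt2 : m / p < p * m := lt_of_le_of_lt (Nat.div_le_self _ _) hlt
      have h1 := coeff_rec_of_eigen hf' ⟨p, hp⟩ m
      have h2 := coeff_rec_of_eigen hg' ⟨p, hp⟩ m
      simp only at h1 h2
      have hPp : P p := hP p hp (dvd_mul_right _ _)
      have hPm : ∀ r : ℕ, r.Prime → r ∣ m → P r := fun r hr hrm => hP r hr (hrm.mul_left p)
      rw [h1, h2, h p hp hPp, ih m hlt hPm]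
      congr 1
      by_cases hpm : p ∣ m
      · rw [if_pos hpm, if_pos hpm, ih (m / p) hlt2 fun r hr hrm =>
          hPm r hr (hrm.trans (Nat.div_dvd_of_dvd hpm))]
        congr 1
        by_cases hpN : p ∣ N
        · rw [if_pos hpN, if_pos ((hNN p hp hPp).mp hpN)]
        · rw [if_neg hpN, if_neg (fun h' => hpN ((hNN p hp hPp).mpr h'))]
      · rw [if_neg hpm, if_neg hpm, mul_zero, mul_zero]

/-- Removing all Euler factors at the primes of `T`, after raising the level. -/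
theorem exists_deplete (T : Finset Nat.Primes) (N : ℕ) [NeZero N]
    (f : CuspForm (Gamma0 N) 2) (hf : f.IsNormalizedEigenform) :
    ∃ N' : ℕ, N' ≠ 0 ∧ N ∣ N' ∧ (∀ r ∈ T, (r : ℕ) ∣ N') ∧
      (∀ p : ℕ, p.Prime → (∀ r ∈ T, (r : ℕ) ≠ p) → N'.factorization p = N.factorization p) ∧
      ∃ F : CuspForm (Gamma0 N') 2, F.IsNormalizedEigenform ∧
        (∀ r ∈ T, qCoeff ⇑F (r : ℕ) = 0) ∧
        ∀ p : ℕ, p.Prime → (∀ r ∈ T, (r : ℕ) ≠ p) → qCoeff ⇑F p = qCoeff ⇑f p := by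
  classical
  have hP0 : (∏ r ∈ T, (r : ℕ)) ≠ 0 := Finset.prod_ne_zero_iff.mpr fun r _ => r.2.ne_zero
  have hN0 : N ≠ 0 := NeZero.ne N
  haveI : NeZero (N * ∏ r ∈ T, (r : ℕ)) := ⟨mul_ne_zero hN0 hP0⟩
  have hPT : ∀ p : ℕ, p.Prime → (∀ r ∈ T, (r : ℕ) ≠ p) → ¬ p ∣ ∏ r ∈ T, (r : ℕ) := by
    intro p hp hpT hd
    obtain ⟨r, hr, hpr⟩ := (Prime.dvd_finsetProd_iff hp.prime _).mp hd
    exact hpT r hr ((Nat.prime_dvd_prime_iff_eq hp r.2).mp hpr).symm
  obtain ⟨f₁, hf₁, hf₁p⟩ := exists_eigenform_raise (N := N * ∏ r ∈ T, (r : ℕ))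
    (dvd_mul_right N _) f hf
  obtain ⟨N', hN', hfac, hdvd, hex⟩ := exists_remove_finset T (N * ∏ r ∈ T, (r : ℕ))
  obtain ⟨F, hF, hF0, hFp⟩ := hex f₁ hf₁
  refine ⟨N', hN', (dvd_mul_right _ _).trans hdvd, fun r hr => ?_, fun p hp hpT => ?_, F, hF, hF0,
    fun p hp hpT => ?_⟩
  · exact ((Finset.dvd_prod_of_mem (fun r : Nat.Primes => (r : ℕ)) hr).mul_left _).trans hdvd
  · rw [hfac p hp hpT, Nat.factorization_mul hN0 hP0, Finsupp.add_apply,
      Nat.factorization_eq_zero_of_not_dvd (hPT p hp hpT), add_zero]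
  · rw [hFp p hp hpT, hf₁p p hp]
    intro hd
    exact (hp.dvd_mul.mp hd).resolve_right (hPT p hp hpT)

/-- **Newness at `q`.**  The eigensystem of a normalised eigenform `f` of level `N = q m`, `q ∤ m`,
with `a_q(f)² = 1` does not occur in level `m`, even away from a finite set of primes. -/
theorem false_of_level {N m q : ℕ} [NeZero N] [NeZero m] (hq : q.Prime) (hN : N = q * m)
    (hqm : ¬ q ∣ m) (f : CuspForm (Gamma0 N) 2) (hf : f.IsNormalizedEigenform)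
    (hfq : qCoeff ⇑f q ^ 2 = 1) (g : CuspForm (Gamma0 m) 2) (hg : g.IsNormalizedEigenform)
    (S : Finset ℕ) (h : ∀ ℓ : ℕ, ℓ.Prime → ℓ ∉ S → qCoeff ⇑f ℓ = qCoeff ⇑g ℓ) : False := by
  classical
  have hN0 : N ≠ 0 := NeZero.ne N
  have hm0 : m ≠ 0 := NeZero.ne m
  -- the primes whose Euler factors are removed
  set S' : Finset ℕ := ((S ∪ N.primeFactors).filter Nat.Prime).erase q with hS'
  set T : Finset Nat.Primes := S'.attach.image
    (fun x => ⟨x.1, (Finset.mem_filter.mp (Finset.mem_of_mem_erase x.2)).2⟩) with hT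
  have hTq : ∀ r ∈ T, (r : ℕ) ≠ q := by
    intro r hr
    obtain ⟨x, -, rfl⟩ := Finset.mem_image.mp hr
    exact Finset.ne_of_mem_erase x.2
  have hTm : ∀ p : ℕ, p.Prime → p ≠ q → (p ∈ S ∨ p ∣ N) → ∃ r ∈ T, (r : ℕ) = p := by
    intro p hp hpq hpS
    refine ⟨⟨p, hp⟩, Finset.mem_image.mpr ⟨⟨p, Finset.mem_erase.mpr ⟨hpq,
        Finset.mem_filter.mpr ⟨Finset.mem_union.mpr ?_, hp⟩⟩⟩, Finset.mem_attach _ _, rfl⟩, rfl⟩
    rcases hpS with h | h
    · exact Or.inl h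
    · exact Or.inr (Nat.mem_primeFactors.mpr ⟨hp, h, hN0⟩)
  obtain ⟨N₁, hN₁, -, hT₁, hfac₁, F, hF, hF0, hFp⟩ := exists_deplete T N f hf
  obtain ⟨N₂, hN₂, -, hT₂, hfac₂, G, hG, hG0, hGp⟩ := exists_deplete T m g hg
  haveI : NeZero N₁ := ⟨hN₁⟩
  haveI : NeZero N₂ := ⟨hN₂⟩
  have hv₁ : N₁.factorization q = 1 := by
    rw [hfac₁ q hq hTq, hN, Nat.factorization_mul hq.ne_zero hm0, Finsupp.add_apply,
      hq.factorization_self, Nat.factorization_eq_zero_of_not_dvd hqm]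
  have hv₂ : N₂.factorization q = 0 := by
    rw [hfac₂ q hq hTq, Nat.factorization_eq_zero_of_not_dvd hqm]
  have hqN₂ : ¬ q ∣ N₂ := fun hd => by
    have := hq.factorization_pos_of_dvd hN₂ hd
    omega
  have hqN₁ : q ∣ N₁ := by
    rw [hq.dvd_iff_one_le_factorization hN₁, hv₁]
  obtain ⟨K, hK⟩ := hqN₁
  have hK0 : K ≠ 0 := by
    rintro rfl
    exact hN₁ (by rw [hK, mul_zero])
  have hqK : ¬ q ∣ K := fun hd => by
    have h1 := hq.factorization_pos_of_dvd hK0 hd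
    rw [hK, Nat.factorization_mul hq.ne_zero hK0, Finsupp.add_apply, hq.factorization_self] at hv₁
    omega
  have hqL : ¬ q ∣ K * N₂ := fun hd => (hq.dvd_mul.mp hd).elim hqK hqN₂
  haveI : NeZero (K * N₂) := ⟨mul_ne_zero hK0 hN₂⟩
  haveI : NeZero (q * (K * N₂)) := ⟨mul_ne_zero hq.ne_zero (NeZero.ne _)⟩
  obtain ⟨D⟩ := exists_ALData (N := q * (K * N₂)) hq rfl hqL
  have hd₁ : N₁ ∣ q * (K * N₂) := ⟨N₂, by rw [hK]; ring⟩
  have hd₂ : N₂ ∣ K * N₂ := dvd_mul_left _ _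
  have hDq : (D.qp : ℕ) = q := rfl
  -- the common coefficients
  have hmem : ∀ p : ℕ, p.Prime → p ≠ q → ∀ L : ℕ, L ≠ 0 → (L = N ∨ L = m) → ∀ L' : ℕ, L' ≠ 0 →
      (∀ r ∈ T, (r : ℕ) ∣ L') →
      (∀ p : ℕ, p.Prime → (∀ r ∈ T, (r : ℕ) ≠ p) → L'.factorization p = L.factorization p) →
      (p ∣ L' ↔ ∃ r ∈ T, (r : ℕ) = p) := by
    intro p hp hpq L hL0 hL L' hL' hTL hfac
    constructor
    · intro hd
      by_contra hcon
      push Not at hcon
      have h1 := hp.factorization_pos_of_dvd hL' hd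
      rw [hfac p hp hcon] at h1
      have h2 : p ∣ L := Nat.dvd_of_factorization_pos h1.ne'
      have h3 : p ∣ N := by
        rcases hL with rfl | rfl
        · exact h2
        · rw [hN]; exact h2.mul_left _
      obtain ⟨r, hr, hrp⟩ := hTm p hp hpq (Or.inr h3)
      exact hcon r hr hrp
    · rintro ⟨r, hr, rfl⟩
      exact hTL r hr
  have hcoef : ∀ n, ¬ q ∣ n → qCoeff ⇑F n = qCoeff ⇑G n := by
    intro n hn
    refine qCoeff_eq_of_prime' hF hG (fun p => p ≠ q) ?_ ?_ n ?_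
    · intro p hp hpq
      rw [hmem p hp hpq N hN0 (Or.inl rfl) N₁ hN₁ hT₁ hfac₁,
        hmem p hp hpq m hm0 (Or.inr rfl) N₂ hN₂ hT₂ hfac₂]
    · intro p hp hpq
      by_cases hpT : ∃ r ∈ T, (r : ℕ) = p
      · obtain ⟨r, hr, rfl⟩ := hpT
        rw [hF0 r hr, hG0 r hr]
      · have hpT' : ∀ r ∈ T, (r : ℕ) ≠ p := fun r hr hrp => hpT ⟨r, hr, hrp⟩
        rw [hFp p hp hpT', hGp p hp hpT']
        exact h p hp fun hpS => hpT (hTm p hp hpq (Or.inl hpS))
    · rintro p hp hpn rfl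
      exact hn hpn
  -- the eigenvalues at `q`
  have hFq : qCoeff ⇑F q = qCoeff ⇑f q := hFp q hq hTq
  have hGq : qCoeff ⇑G q = qCoeff ⇑g q := hGp q hq hTq
  have hUF : heckeOp (q * (K * N₂)) 2 D.qp (restr (q * (K * N₂)) hd₁ 2 F) =
      qCoeff ⇑f q • restr (q * (K * N₂)) hd₁ 2 F := by
    rw [heckeOp_restr hd₁ D.qp (fun _ => by rw [hDq, hK]; exact dvd_mul_right _ _),
      heckeOp_eq_of_isNormalizedEigenform hF, map_smul, hDq, hFq]
  have hTG : heckeOp (K * N₂) 2 D.qp (restr (K * N₂) hd₂ 2 G) =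
      qCoeff ⇑g q • restr (K * N₂) hd₂ 2 G := by
    rw [heckeOp_restr hd₂ D.qp (fun hd => absurd hd hqL),
      heckeOp_eq_of_isNormalizedEigenform hG, map_smul, hDq, hGq]
  have hmain := coeff_eq_of_old D hqL (restr (q * (K * N₂)) hd₁ 2 F) (restr (K * N₂) hd₂ 2 G)
    (qCoeff ⇑f q) (qCoeff ⇑g q) hfq hUF hTG (by rw [coe_restr, hF.qCoeff_one])
    (by rw [coe_restr, hG.qCoeff_one]) (fun n hn => by rw [coe_restr, coe_restr, hcoef n hn])
  -- contradiction with the Hecke bound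
  have hTg : CuspForm.heckeTLin 2 hq hqm g = qCoeff ⇑g q • g := by
    have h1 := heckeOp_eq_of_isNormalizedEigenform hg ⟨q, hq⟩
    rwa [heckeOp_of_not_dvd hqm] at h1
  have ha : qCoeff ⇑f q = 1 ∨ qCoeff ⇑f q = -1 := by
    have h0 : (qCoeff ⇑f q - 1) * (qCoeff ⇑f q + 1) = 0 := by linear_combination hfq
    rcases mul_eq_zero.mp h0 with h0 | h0
    · left; linear_combination h0
    · right; linear_combination h0
  have hg0 : g = 0 := by
    rcases ha with ha | ha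
    · refine Cofaith.heckeTLin_sub_injective hq hqm (m := (q : ℤ) + 1) (le_abs_self _) g ?_
      rw [hTg, hmain, ha]
      push_cast
      ring_nf
    · refine Cofaith.heckeTLin_sub_injective hq hqm (m := -((q : ℤ) + 1))
        (by rw [abs_neg]; exact le_abs_self _) g ?_
      rw [hTg, hmain, ha]
      push_cast
      ring_nf
  exact hg.ne_zero hg0

/-- **Newness, Hecke algebra form.**  If `a_q(f)² = 1`, some Hecke polynomial kills level `m` but not
the system of `f` in level `N = q m`. -/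
theorem exists_new {N m q : ℕ} [NeZero N] [NeZero m] (hq : q.Prime) (hN : N = q * m)
    (hqm : ¬ q ∣ m) (f : CuspForm (Gamma0 N) 2) (hf : f.IsNormalizedEigenform)
    (hfq : qCoeff ⇑f q ^ 2 = 1) {S : Finset ℕ} (χ : HeckeAlgS (↑S : Set ℕ) →+* ℂ)
    (hχ : ∀ ℓ : {ℓ : Nat.Primes // (ℓ : ℕ) ∉ (↑S : Set ℕ)},
      χ (MvPolynomial.X ℓ) = qCoeff ⇑f (ℓ.1 : ℕ)) :
    ∃ t : HeckeAlgS (↑S : Set ℕ), evS m (↑S : Set ℕ) t = 0 ∧ χ t ≠ 0 := by
  by_contra hcon
  push Not at hcon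
  obtain ⟨g, hg, hgχ⟩ := RTE.exists_eigenform_of_char (N := m) (↑S : Set ℕ) χ hcon
  refine false_of_level hq hN hqm f hf hfq g hg S fun ℓ hℓ hℓS => ?_
  have h1 : ℓ ∉ (↑S : Set ℕ) := fun h => hℓS (Finset.mem_coe.mp h)
  rw [hgχ ⟨⟨ℓ, hℓ⟩, h1⟩, hχ]

/-- **Newness** in the form consumed by `loc_odd` and `loc2_new`: `π` is the system of `f` with
values in `O`. -/
theorem exists_new_pi {N m q : ℕ} [NeZero N] [NeZero m] (hq : q.Prime) (hN : N = q * m)
    (hqm : ¬ q ∣ m) (f : CuspForm (Gamma0 N) 2) (hf : f.IsNormalizedEigenform)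
    (hfq : qCoeff ⇑f q ^ 2 = 1) {S : Finset ℕ} {O : Type*} [CommRing O]
    (π : CuspForm.heckeAlgebra N 2 (↑S : Set ℕ) →+* O)
    (hπ : ∀ t : HeckeAlgS (↑S : Set ℕ), π (evS N (↑S : Set ℕ) t) = 0 →
      MvPolynomial.aeval (fun ℓ : {ℓ : Nat.Primes // (ℓ : ℕ) ∉ (↑S : Set ℕ)} =>
        qCoeff ⇑f (ℓ.1 : ℕ)) t = (0 : ℂ)) :
    ∃ t : HeckeAlgS (↑S : Set ℕ), evS m (↑S : Set ℕ) t = 0 ∧ π (evS N (↑S : Set ℕ) t) ≠ 0 := by
  obtain ⟨t, ht, ht'⟩ := exists_new hq hN hqm f hf hfq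
    ((MvPolynomial.aeval (R := ℤ) (fun ℓ : {ℓ : Nat.Primes // (ℓ : ℕ) ∉ (↑S : Set ℕ)} =>
        qCoeff ⇑f (ℓ.1 : ℕ))).toRingHom) (fun ℓ => by
          simp)
  exact ⟨t, ht, fun h => ht' (hπ t h)⟩

end Fermat.Agent.LTF.Gal

end
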