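import Fermat.Agent.LTF.Gal.FamilyRep
import Fermat.Agent.LTF.AlphaMain
import Fermat.Agent.LTF.AlphaDvr
import Fermat.Agent.LTF.LocOdd
import Fermat.Agent.LTF.MultOne
import Fermat.Agent.S29.Character
import Fermat.Agent.S22
import Fermat.Agent.LTF.Loc2New
import Fermat.Agent.LTF.NewRam
import Fermat.Agent.LTF.NewformOf
import Fermat.Agent.LTF.Gal.FamilyNew

/-!
# The family of points attached to a family of congruent newforms
-/

set_option autoImplicit false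
set_option linter.style.haveILetI false

noncomputable section

namespace Fermat.Agent.LTF.Fam

open IsLocalRing Matrix CuspForm CongruenceSubgroup ModularFormClass FermatAgent.HeckeEigen
open Fermat.Agent.S53norm (GQ M2 HasMat)
open Fermat.Agent.S30aux (cyc padicMap)
open Fermat.Agent.S29aux (eigenChar eigenChar_T intEmb)
open Fermat.Agent.GalRep (HeckeAlgS evS genS HasFrobCharpoly)
open Fermat.Agent.LTF (StMat StEnd)
open Fermat.Agent.LTF.Alpha (PrePt)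

/-- A family of normalised eigenforms of level `∏ v ∈ S ∪ Q, v` whose Hecke eigenvalues at the
primes `ℓ ∉ S ∪ Q` reduce, through the same place `ψ`, to `s ℓ ∈ 𝔽₂`. -/
structure IsFamily (S Q : Finset ℕ) (s : ℕ → ZMod 2) {M : ℕ} {ι : Type}
    (f : ι → CuspForm (Gamma0 M) 2) {k : Type} [Field k] [CharP k 2]
    (ψ : integralClosure ℤ ℂ →+* k) : Prop where
  lev : M = ∏ v ∈ S ∪ Q, v
  prime : ∀ v ∈ S ∪ Q, v.Prime
  eig : ∀ i, (f i).IsNormalizedEigenform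
  inj : Function.Injective f
  sq : ∀ i, ∀ q ∈ Q, qCoeff ⇑(f i) q ^ 2 = 1
  cong : ∀ (i : ι) (ℓ : ℕ), ℓ.Prime → ℓ ∉ S ∪ Q → ∀ b : integralClosure ℤ ℂ,
    (b : ℂ) = qCoeff ⇑(f i) ℓ → ψ b = c2 k (s ℓ)

/-- The system `s` determines `rbar`. -/
def Rigid (rbar : GQ →* M2 (ZMod 2)) (s : ℕ → ZMod 2) (T : Finset ℕ) : Prop :=
  ∀ (k : Type) [Field k] [CharP k 2] (r : GQ →* M2 k),
    (∃ L : IntermediateField ℚ (AlgebraicClosure ℚ), FiniteDimensional ℚ L ∧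
      ∀ σ : GQ, (∀ x ∈ L, σ x = x) → r σ = 1) →
    (∀ σ, (r σ).det = 1) →
    (∀ ℓ : ℕ, ℓ.Prime → ℓ ∉ T → ∀ A : ValuationSubring (AlgebraicClosure ℚ),
      A.LiesOverPrime ℓ → ∀ φ : GQ, A.IsFrobeniusAt φ ℓ → (r φ).trace = c2 k (s ℓ)) →
    ∀ σ, ((rbar σ).trace = 0 → (r σ).trace = 0) ∧ ((rbar σ).trace = 1 → (r σ).trace = 1)

/-- The traces of Frobenius elements determine `rbar`. -/
theorem rigid_of_trace {rbar : GQ →* M2 (ZMod 2)}
    (hlev : ∃ L : IntermediateField ℚ (AlgebraicClosure ℚ), FiniteDimensional ℚ L ∧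
      ∀ σ : GQ, (∀ x ∈ L, σ x = x) → rbar σ = 1) {s : ℕ → ZMod 2} {T : Finset ℕ}
    (hs : ∀ ℓ : ℕ, ℓ.Prime → ℓ ∉ T → ∀ A : ValuationSubring (AlgebraicClosure ℚ),
      A.LiesOverPrime ℓ → ∀ φ : GQ, A.IsFrobeniusAt φ ℓ → (rbar φ).trace = s ℓ) :
    Rigid rbar s T := by
  intro k _ _ r hr hdet htr σ
  let r₂ : GQ →* M2 k := ((c2 k).mapMatrix : M2 (ZMod 2) →+* M2 k).toMonoidHom.comp rbar
  have e₂ : ∀ σ, r₂ σ = (rbar σ).map (c2 k) := fun _ => rfl
  have t₂ : ∀ σ, (r₂ σ).trace = c2 k (rbar σ).trace := fun σ => by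
    rw [e₂, trace_fin_two, trace_fin_two, map_apply, map_apply, map_add]
  have d₂ : ∀ σ, (r₂ σ).det = 1 := fun σ => by
    rw [e₂, ← RingHom.mapMatrix_apply, ← RingHom.map_det, det_rbar, map_one]
  have key := trace_det_eq r r₂ hr (by
      obtain ⟨L, hL, hL1⟩ := hlev
      refine ⟨L, hL, fun σ hσ => ?_⟩
      show ((c2 k).mapMatrix : M2 (ZMod 2) →+* M2 k) (rbar σ) = 1
      rw [hL1 σ hσ, map_one]) (↑T : Set ℕ) T.finite_toSet (fun ℓ hℓ hℓT A hA φ hφ => by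
      rw [htr ℓ hℓ (by simpa using hℓT) A hA φ hφ, t₂, hs ℓ hℓ (by simpa using hℓT) A hA φ hφ,
        hdet, d₂]
      exact ⟨rfl, rfl⟩) σ
  rw [key.1, t₂]
  exact ⟨fun h => by rw [h, map_zero], fun h => by rw [h, map_one]⟩

section Level

variable {S Q : Finset ℕ} {s : ℕ → ZMod 2} {M : ℕ} {ι : Type}
  {f : ι → CuspForm (Gamma0 M) 2} {k : Type} [Field k] [CharP k 2]
  {ψ : integralClosure ℤ ℂ →+* k}

lemma IsFamily.dvd_iff (hf : IsFamily S Q s f ψ) {v : ℕ} (hv : v.Prime) :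
    v ∣ M ↔ v ∈ S ∪ Q := by
  rw [hf.lev, Prime.dvd_finsetProd_iff hv.prime]
  constructor
  · rintro ⟨w, hw, h⟩
    rwa [(Nat.prime_dvd_prime_iff_eq hv (hf.prime w hw)).mp h]
  · intro h; exact ⟨v, h, dvd_rfl⟩

lemma IsFamily.not_sq_dvd (hf : IsFamily S Q s f ψ) {v : ℕ} (hv : v.Prime) :
    ¬ v ^ 2 ∣ M := by
  intro h
  have hvS : v ∈ S ∪ Q := (hf.dvd_iff hv).mp ((dvd_pow_self v two_ne_zero).trans h)
  rw [hf.lev, ← Finset.mul_prod_erase _ _ hvS, pow_two] at h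
  have h1 := Nat.dvd_of_mul_dvd_mul_left hv.pos h
  rw [Prime.dvd_finsetProd_iff hv.prime] at h1
  obtain ⟨w, hw, h2⟩ := h1
  have h3 := (Nat.prime_dvd_prime_iff_eq hv (hf.prime w (Finset.mem_of_mem_erase hw))).mp h2
  exact Finset.ne_of_mem_erase hw h3.symm

end Level

/-! ### Auxiliary statements -/

lemma padicHom_unique {O : Type} [CommRing O] [IsLocalRing O] [IsHausdorff (maximalIdeal O) O]
    (h2 : ((2 : ℕ) : O) ∈ maximalIdeal O) (φ₁ φ₂ : ℤ_[2] →+* O) : φ₁ = φ₂ := by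
  refine RingHom.ext fun x => eq_of_sub_mem' fun n => ?_
  have h1 := PadicInt.appr_spec n x
  rw [Ideal.mem_span_singleton] at h1
  obtain ⟨y, hy⟩ := h1
  have h3 : x = (x.appr n : ℤ_[2]) + (2 : ℤ_[2]) ^ n * y := by
    have h4 : ((2 : ℕ) : ℤ_[2]) ^ n * y = (2 : ℤ_[2]) ^ n * y := by norm_num
    rw [← h4, ← hy]; ring
  have h5 : φ₁ x - φ₂ x = ((2 : ℕ) : O) ^ n * (φ₁ y - φ₂ y) := by
    have e : ∀ φ : ℤ_[2] →+* O, φ x = ((x.appr n : ℕ) : O) + (2 : O) ^ n * φ y := fun φ => by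
      conv_lhs => rw [h3]
      rw [map_add, map_mul, map_pow, map_natCast, map_ofNat]
    rw [e, e]
    push_cast
    ring
  rw [h5]
  exact Ideal.mul_mem_right _ _ (Ideal.pow_mem_pow h2 n)

lemma bigInt_eq_zero_iff {ι T : Type} [CommRing T] [Module.Finite ℤ T] (χ : ι → T →+* ℂ) (i : ι)
    (t : T) : bigInt χ i t = 0 ↔ χ i t = 0 := by
  constructor
  · intro h
    rw [← coe_intEmb_bigInt χ i t, h, map_zero]
    rfl
  · intro h
    apply intEmb_injective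
    apply Subtype.ext
    rw [coe_intEmb_bigInt, h, map_zero]
    rfl

/-- The local input at `2` (a `2`-new character of level `m * 2` whose residual representation is
ramified at `2`). -/
def Loc2Prop : Prop :=
  ∀ {m : ℕ} [NeZero m], ¬ 2 ∣ m → ∀ {S : Finset ℕ}, 2 ∈ S →
    (∀ q : ℕ, q.Prime → q ∣ m * 2 → q ∈ S) →
    ∀ {O : Type} [CommRing O] [IsDomain O] [IsDiscreteValuationRing O] [CharZero O],
      (2 : O) ∈ maximalIdeal O →
      ∀ {π : heckeAlgebra (m * 2) 2 (↑S : Set ℕ) →+* O} {ρ : GaloisRepAdic O},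
        HasFrobCharpoly π ρ → ρ.residual.IsAbsolutelyIrreducible →
        (∃ t₀ : HeckeAlgS (↑S : Set ℕ), evS m (↑S : Set ℕ) t₀ = 0 ∧
          π (evS (m * 2) (↑S : Set ℕ) t₀) ≠ 0) →
        (∃ A : ValuationSubring (AlgebraicClosure ℚ), A.LiesOverPrime 2 ∧
          ∃ τ ∈ A.inertiaSubgroupIn ℚ, ∃ v : ρ.V,
            ρ.ρ τ v - v ∉ maximalIdeal O • (⊤ : Submodule O ρ.V)) →
        ∃ U : O, (U = 1 ∨ U = -1) ∧ ∀ A : ValuationSubring (AlgebraicClosure ℚ),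
          A.LiesOverPrime 2 → StEnd 2 A ρ.ρ U

lemma loc2_apply (hloc2 : Loc2Prop) {M : ℕ} [NeZero M] (h2M : 2 ∣ M) (h4 : ¬ 2 ^ 2 ∣ M)
    {S' : Finset ℕ} (h2S : 2 ∈ S') (hMS : ∀ q : ℕ, q.Prime → q ∣ M → q ∈ S')
    {O : Type} [CommRing O] [IsDomain O] [IsDiscreteValuationRing O] [CharZero O]
    (h2 : (2 : O) ∈ maximalIdeal O)
    {π : heckeAlgebra M 2 (↑S' : Set ℕ) →+* O} {ρ : GaloisRepAdic O}
    (hfrob : HasFrobCharpoly π ρ) (habs : ρ.residual.IsAbsolutelyIrreducible) [NeZero (M / 2)]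
    (hnew : ∃ t₀ : HeckeAlgS (↑S' : Set ℕ), evS (M / 2) (↑S' : Set ℕ) t₀ = 0 ∧
      π (evS M (↑S' : Set ℕ) t₀) ≠ 0)
    (hram : ∃ A : ValuationSubring (AlgebraicClosure ℚ), A.LiesOverPrime 2 ∧
      ∃ τ ∈ A.inertiaSubgroupIn ℚ, ∃ v : ρ.V,
        ρ.ρ τ v - v ∉ maximalIdeal O • (⊤ : Submodule O ρ.V)) :
    ∃ U : O, (U = 1 ∨ U = -1) ∧ ∀ A : ValuationSubring (AlgebraicClosure ℚ),
      A.LiesOverPrime 2 → StEnd 2 A ρ.ρ U := by
  obtain ⟨m, rfl⟩ : ∃ m, M = m * 2 := by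
    obtain ⟨m, hm⟩ := h2M
    exact ⟨m, by rw [hm, mul_comm]⟩
  have hm0 : NeZero m := ⟨fun h => NeZero.ne (m * 2) (by rw [h, zero_mul])⟩
  have hm : ¬ 2 ∣ m := by
    rintro ⟨c, rfl⟩
    exact h4 ⟨c, by ring⟩
  obtain ⟨t₀, h1, h3⟩ := hnew
  have key : ∀ (m' : ℕ) [NeZero m'], m' = m → evS m' (↑S' : Set ℕ) t₀ = 0 →
      evS m (↑S' : Set ℕ) t₀ = 0 := by
    intro m' _ he h
    subst he
    exact h
  exact hloc2 hm h2S hMS h2 hfrob habs
    ⟨t₀, key _ (Nat.mul_div_cancel m two_pos) h1, h3⟩ hram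

/-- The system of Hecke eigenvalues `χ` reduces to `s`. -/
def SysS {M : ℕ} [NeZero M] {S' : Finset ℕ} {O' : Type} [CommRing O'] [IsLocalRing O']
    (χ : heckeAlgebra M 2 (↑S' : Set ℕ) →+* O') (s : ℕ → ZMod 2) : Prop :=
  ∀ (ℓ : ℕ) (hℓ : ℓ.Prime) (hℓM : ¬ ℓ ∣ M) (hℓS : ℓ ∉ (↑S' : Set ℕ)),
    Cong2 (χ (heckeAlgebra.T hℓ hℓM hℓS)) (s ℓ)

namespace RepData

variable {M : ℕ} [NeZero M] {S' : Finset ℕ} {O' : Type} [CommRing O'] [IsLocalRing O']
  {χ : heckeAlgebra M 2 (↑S' : Set ℕ) →+* O'} (D : RepData S' χ)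

/-- all the traces reduce to those of `rbar`, by rigidity -/
theorem cong_of_rigid {rbar : GQ →* M2 (ZMod 2)} {s : ℕ → ZMod 2} (hrig : Rigid rbar s S')
    (hsys : SysS χ s) (h2S : 2 ∈ S') (hMS : ∀ q : ℕ, q.Prime → q ∣ M → q ∈ S') (σ : GQ) :
    Cong2 (D.r σ).trace (rbar σ).trace := by
  haveI := charP_residueField D.two
  let κ := ResidueField D.O
  let r₁ : GQ →* M2 κ := ((residue D.O).mapMatrix : M2 D.O →+* M2 κ).toMonoidHom.comp D.r
  have e₁ : ∀ σ, r₁ σ = (D.r σ).map (residue D.O) := fun _ => rfl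
  have t₁ : ∀ σ, (r₁ σ).trace = residue D.O (D.r σ).trace := fun σ => by
    rw [e₁, trace_fin_two, trace_fin_two, map_apply, map_apply, map_add]
  have d₁ : ∀ σ, (r₁ σ).det = residue D.O (D.r σ).det := fun σ => by
    rw [e₁, RingHom.map_det, RingHom.mapMatrix_apply]
  have hlev : ∃ L : IntermediateField ℚ (AlgebraicClosure ℚ), FiniteDimensional ℚ L ∧
      ∀ σ : GQ, (∀ x ∈ L, σ x = x) → r₁ σ = 1 := by
    obtain ⟨L, hL, hL1⟩ := D.isCont 1
    refine ⟨L, hL, fun σ hσ => ?_⟩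
    rw [e₁]
    ext i j
    have h1 := hL1 σ hσ i j
    rw [pow_one, Matrix.sub_apply, ← residue_eq_zero_iff, map_sub, sub_eq_zero] at h1
    rw [map_apply, h1]
    by_cases hij : i = j
    · subst hij; rw [one_apply_eq, one_apply_eq, map_one]
    · rw [one_apply_ne hij, one_apply_ne hij, map_zero]
  have hdet1 : ∀ σ, (r₁ σ).det = 1 := by
    refine hom_eq_of_frobenius ((Matrix.detMonoidHom : M2 κ →* κ).comp r₁) 1 ?_
      ⟨⊥, inferInstance, fun _ _ => rfl⟩ (↑S' : Set ℕ) S'.finite_toSet ?_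
    · obtain ⟨L, hL, hL1⟩ := hlev
      refine ⟨L, hL, fun σ hσ => ?_⟩
      show (r₁ σ).det = 1
      rw [hL1 σ hσ, det_one]
    · intro ℓ hℓ hℓS A hA φ hφ
      have hℓM : ¬ ℓ ∣ M := fun h => hℓS (hMS ℓ hℓ h)
      have hne : ℓ ≠ 2 := fun h => hℓS (h ▸ h2S)
      show (r₁ φ).det = 1
      rw [d₁, (D.charpoly_frob hℓ hℓM hℓS hA hφ).2, map_natCast]
      obtain ⟨m, rfl⟩ := hℓ.odd_of_ne_two hne
      rw [Nat.cast_add, Nat.cast_mul, Nat.cast_ofNat, CharTwo.two_eq_zero, zero_mul, zero_add,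
        Nat.cast_one]
  have key := hrig κ r₁ hlev hdet1 (fun ℓ hℓ hℓS A hA φ hφ => by
    have hℓM : ¬ ℓ ∣ M := fun h => hℓS (hMS ℓ hℓ h)
    have hℓS' : ℓ ∉ (↑S' : Set ℕ) := by simpa using hℓS
    rw [t₁, (D.charpoly_frob hℓ hℓM hℓS' hA hφ).1]
    have h3 : Cong2 (D.π (heckeAlgebra.T hℓ hℓM hℓS')) (s ℓ) :=
      (hsys ℓ hℓ hℓM hℓS').map (algebraMap O' D.O)
    exact (cong2_iff (RingHom.id κ) _ _).mp h3) σ
  refine ⟨fun h => ?_, fun h => ?_⟩
  · have h1 := key.1 h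
    rwa [t₁, residue_eq_zero_iff] at h1
  · have h1 := key.2 h
    rw [t₁, ← sub_eq_zero, ← map_one (residue D.O), ← map_sub, residue_eq_zero_iff] at h1
    exact h1

lemma traceRed {rbar : GQ →* M2 (ZMod 2)} (h : ∀ σ, Cong2 (D.r σ).trace (rbar σ).trace) :
    LTF.TraceRed D.ρ rbar := by
  refine TraceRed.of_cases (fun σ hσ => ?_) (fun σ hσ => ?_)
  · rw [hasMat_trace D.mat σ]; exact (h σ).1 hσ
  · rw [hasMat_trace D.mat σ]; exact (h σ).2 hσ

lemma exists_vec {σ : GQ} (h : (D.r σ).map (residue D.O) ≠ 1) :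
    ∃ v : D.ρ.V, D.ρ.ρ σ v - v ∉ maximalIdeal D.O • (⊤ : Submodule D.O D.ρ.V) := by
  by_contra hcon
  push Not at hcon
  apply h
  obtain ⟨e, he⟩ := D.mat
  ext i j
  have h2 := hcon (e.symm (Pi.single j 1))
  rw [S53norm.mem_smul_top_equiv e, S53norm.mem_smul_top_iff, map_sub, he,
    LinearEquiv.apply_symm_apply] at h2
  have h3 := h2 i
  rw [Pi.sub_apply, Matrix.mulVec_single_one, Matrix.col_apply, Pi.single_apply,
    ← residue_eq_zero_iff, map_sub, sub_eq_zero] at h3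
  rw [map_apply, h3, one_apply]
  split_ifs <;> simp

end RepData

/-! ### The points -/

/-- The points of characteristic zero attached to a family of characters of the Hecke algebra. -/
structure Points (S Q : Finset ℕ) (rbar : GQ →* M2 (ZMod 2)) {M : ℕ} [NeZero M] {ι : Type}
    (χC : ι → heckeAlgebra M 2 (↑(S ∪ Q) : Set ℕ) →+* ℂ) : Type 1 where
  /-- the coefficient rings -/
  O : ι → Type
  [cr : ∀ i, CommRing (O i)]
  [dom : ∀ i, IsDomain (O i)]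
  [loc : ∀ i, IsLocalRing (O i)]
  [cz : ∀ i, CharZero (O i)]
  [alg : ∀ i, Algebra ℤ_[2] (O i)]
  [fin : ∀ i, Module.Finite ℤ_[2] (O i)]
  /-- a common field -/
  Ω : Type
  [fld : Field Ω]
  [czΩ : CharZero Ω]
  [algΩ : Algebra ℤ_[2] Ω]
  /-- the embeddings -/
  j : ∀ i, O i →ₐ[ℤ_[2]] Ω
  j_inj : ∀ i, Function.Injective (j i)
  /-- a ring containing all the eigenvalues -/
  R : Type
  [crR : CommRing R]
  /-- complex embedding -/
  inclR : R →+* ℂ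
  inclR_inj : Function.Injective inclR
  /-- `2`-adic embedding -/
  ε : R →+* Ω
  ε_inj : Function.Injective ε
  /-- the eigenvalues -/
  val : ι → heckeAlgebra M 2 (↑(S ∪ Q) : Set ℕ) →+* R
  val_spec : ∀ i t, inclR (val i t) = χC i t
  /-- the `2`-adic characters -/
  χ : ∀ i, heckeAlgebra M 2 (↑(S ∪ Q) : Set ℕ) →+* O i
  χ_spec : ∀ i t, j i (χ i t) = ε (val i t)
  /-- the representations -/
  ρ : ∀ i, GQ →* M2 (O i)
  /-- the signs -/
  U : ∀ i, ℕ → O i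
  trace_frob : ∀ (i : ι) {ℓ : ℕ} (hℓ : ℓ.Prime) (hℓM : ¬ ℓ ∣ M)
    (hℓS : ℓ ∉ (↑(S ∪ Q) : Set ℕ)) {A : ValuationSubring (AlgebraicClosure ℚ)},
    A.LiesOverPrime ℓ → ∀ {σ : GQ}, A.IsFrobeniusAt σ ℓ →
      (ρ i σ).trace = χ i (heckeAlgebra.T hℓ hℓM hℓS)
  pt : ∀ i, PrePt S Q rbar (ρ i) (U i)

attribute [instance] Points.cr Points.dom Points.loc Points.cz Points.alg Points.fin Points.fld
  Points.czΩ Points.algΩ Points.crR

section Exists

variable {S Q : Finset ℕ} {rbar : GQ →* M2 (ZMod 2)} {s : ℕ → ZMod 2} {M : ℕ} [NeZero M]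
  {ι : Type} [Finite ι] {f : ι → CuspForm (Gamma0 M) 2} {k : Type} [Field k] [CharP k 2]
  {ψ : integralClosure ℤ ℂ →+* k}

/-- **Existence of the points.** `D` is the discriminant of the quadratic subfield of `rbar`. -/
theorem exists_points (hres : Gal.ResData S rbar) (hf : IsFamily S Q s f ψ)
    (hrig : Rigid rbar s (S ∪ Q))
    {D₀ : ℤ} (hodd : Odd (padicValInt 2 D₀))
    (hfix : ∀ (s : AlgebraicClosure ℚ), s ^ 2 = ((D₀ : ℤ) : AlgebraicClosure ℚ) → ∀ σ : GQ,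
      (σ s = s ↔ rbar σ ^ 3 = 1)) (hloc2 : Loc2Prop) :
    (∀ i, (f i).IsNewform) ∧
      Nonempty (Points S Q rbar fun i => eigenChar (hf.eig i) (↑(S ∪ Q) : Set ℕ)) := by
  classical
  have h2S : 2 ∈ S ∪ Q := Finset.mem_union_left _ hres.two
  have hMS : ∀ q : ℕ, q.Prime → q ∣ M → q ∈ S ∪ Q := fun q hq h => (hf.dvd_iff hq).mp h
  haveI : Module.Finite ℤ (heckeAlgebra M 2 (↑(S ∪ Q) : Set ℕ)) := Fermat.Agent.S22.result M 2 _
  let χC : ι → heckeAlgebra M 2 (↑(S ∪ Q) : Set ℕ) →+* ℂ :=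
    fun i => eigenChar (hf.eig i) (↑(S ∪ Q) : Set ℕ)
  obtain ⟨O', i1, i2, i3, i4, i5, i6, j', e, h2O, hj', he⟩ :=
    exists_commonDVR χC Nat.prime_two ψ
  let χ' : ι → heckeAlgebra M 2 (↑(S ∪ Q) : Set ℕ) →+* O' := fun i => j'.comp (bigInt χC i)
  have hsys : ∀ i, SysS (χ' i) s := by
    intro i ℓ hℓ hℓM hℓS
    rw [cong2_iff e]
    show e (residue O' (j' (bigInt χC i (heckeAlgebra.T hℓ hℓM hℓS)))) = _
    rw [he]
    refine hf.cong i ℓ hℓ (by simpa using hℓS) _ ?_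
    rw [coe_intEmb_bigInt]
    exact eigenChar_T (hf.eig i) _ hℓ hℓM hℓS
  let D : ∀ i, RepData (S ∪ Q) (χ' i) := fun i => (exists_repData h2S hMS h2O (χ' i)).some
  have hcong : ∀ i σ, Cong2 ((D i).r σ).trace (rbar σ).trace := fun i =>
    (D i).cong_of_rigid hrig (hsys i) h2S hMS
  have habs : ∀ i, (D i).ρ.residual.IsAbsolutelyIrreducible := fun i =>
    RepData.absIrr hres.surj (hcong i)
  have htr : ∀ i, LTF.TraceRed (D i).ρ rbar := fun i => (D i).traceRed (hcong i)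
  have hdvd : ∀ v ∈ S ∪ Q, v ∣ M := fun v hv => (hf.dvd_iff (hf.prime v hv)).mpr hv
  -- the kernel of the `2`-adic character
  have hker : ∀ i (x : heckeAlgebra M 2 (↑(S ∪ Q) : Set ℕ)),
      ((algebraMap O' (D i).O).comp (χ' i)) x = 0 → χC i x = 0 := by
    intro i x h
    have h1 : χ' i x = 0 := (D i).inj (by rw [map_zero]; exact h)
    have h3 : bigInt χC i x = 0 := hj' (by rw [map_zero]; exact h1)
    exact (bigInt_eq_zero_iff χC i _).mp h3
  -- newness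
  have hnewπ : ∀ i, ∀ v ∈ S ∪ Q, ∀ [NeZero (M / v)], ∃ t : HeckeAlgS (↑(S ∪ Q) : Set ℕ),
      evS (M / v) (↑(S ∪ Q) : Set ℕ) t = 0 ∧
        ((algebraMap O' (D i).O).comp (χ' i)) (evS M (↑(S ∪ Q) : Set ℕ) t) ≠ 0 := by
    intro i v hv _
    have hvp := hf.prime v hv
    have hMv : M = v * (M / v) := (Nat.mul_div_cancel' (hdvd v hv)).symm
    have hvm : ¬ v ∣ M / v := by
      rintro ⟨c, hc⟩
      exact hf.not_sq_dvd hvp ⟨c, by rw [hMv, hc]; ring⟩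
    have hmS : ∀ q : ℕ, q.Prime → q ∣ M / v → q ∈ S ∪ Q := fun q hq h =>
      hMS q hq (h.trans (Nat.div_dvd_of_dvd (hdvd v hv)))
    by_cases hvS : v ∈ S
    · by_cases hv2 : v = 2
      · subst hv2
        exact LTF.hnew_two hvm h2S hMS hmS (D i).two (D i).frob (habs i) hres (htr i) hodd hfix
      · exact LTF.hnew_ram h2S hMS hmS (D i).two (D i).frob (habs i) hres (htr i) hvS hv2 hvm
    · have hvQ : v ∈ Q := (Finset.mem_union.mp hv).resolve_left hvS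
      refine Gal.exists_new_pi hvp hMv hvm (f i) (hf.eig i) (hf.sq i v hvQ) _ (fun t ht => ?_)
      have h1 := hker i _ ht
      have h2 := NewformOf.evS_apply (S ∪ Q) (hf.eig i) t
      have h3 : χC i (evS M (↑(S ∪ Q) : Set ℕ) t) = NewformOf.chr (↑(S ∪ Q) : Set ℕ) (f i) t := by
        show qCoeff ⇑(((evS M (↑(S ∪ Q) : Set ℕ) t : heckeAlgebra M 2 (↑(S ∪ Q) : Set ℕ)) :
          Module.End ℂ (CuspForm (Gamma0 M) 2)) (f i)) 1 = _
        rw [h2, qCoeff_smul, (hf.eig i).qCoeff_one, mul_one]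
      rw [h3] at h1
      exact h1
  have hnf : ∀ i, (f i).IsNewform := by
    intro i
    refine NewformOf.isNewform_of_hnew (S ∪ Q) hMS (hf.eig i) (fun v hv hvM _ => ?_)
    obtain ⟨t, ht, ht'⟩ := hnewπ i v (hMS v hv hvM)
    refine ⟨t, ht, fun h => ht' ?_⟩
    have h1 : χC i (evS M (↑(S ∪ Q) : Set ℕ) t) = 0 := by
      show qCoeff ⇑(((evS M (↑(S ∪ Q) : Set ℕ) t : heckeAlgebra M 2 (↑(S ∪ Q) : Set ℕ)) :
          Module.End ℂ (CuspForm (Gamma0 M) 2)) (f i)) 1 = 0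
      rw [h, qCoeff_zero]
    show algebraMap O' (D i).O (j' (bigInt χC i (evS M (↑(S ∪ Q) : Set ℕ) t))) = 0
    rw [(bigInt_eq_zero_iff χC i _).mpr h1, map_zero, map_zero]
  refine ⟨hnf, ?_⟩
  have hU : ∀ i, ∀ v ∈ S ∪ Q, ∃ U : (D i).O, (U = 1 ∨ U = -1) ∧
      ∀ A : ValuationSubring (AlgebraicClosure ℚ), A.LiesOverPrime v →
        StMat v A ((D i).r : GQ → M2 (D i).O) U := by
    intro i v hv
    have hvp := hf.prime v hv
    have hM0 : 0 < M := Nat.pos_of_ne_zero (NeZero.ne M)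
    haveI hne : NeZero (M / v) :=
      ⟨(Nat.div_pos (Nat.le_of_dvd hM0 (hdvd v hv)) hvp.pos).ne'⟩
    have hnew := hnewπ i v hv
    have hst : ∃ U : (D i).O, (U = 1 ∨ U = -1) ∧
        ∀ A : ValuationSubring (AlgebraicClosure ℚ), A.LiesOverPrime v →
          StEnd v A (D i).ρ.ρ U := by
      by_cases hv2 : v = 2
      · subst hv2
        obtain ⟨A, hA⟩ := Frob.exists_liesOverPrime 2 Nat.prime_two
        obtain ⟨τ, hτ, hτ1⟩ := hres.ram 2 hres.two A hA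
        exact loc2_apply hloc2 (hdvd 2 hv) (hf.not_sq_dvd Nat.prime_two) h2S hMS
          (by exact_mod_cast (D i).two) (D i).frob (habs i) hnew
          ⟨A, hA, τ, hτ, (D i).exists_vec (RepData.not_map_eq_one hres.surj (hcong i) hτ1)⟩
      · exact LTF.loc_odd Nat.prime_two (D i).two h2S hMS (D i).frob (habs i) hvp hv2
          (hdvd v hv) (hf.not_sq_dvd hvp) hnew
    obtain ⟨U, hU1, hU2⟩ := hst
    exact ⟨U, hU1, fun A hA => (stEnd_iff_stMat (D i).mat).mp (hU2 A hA)⟩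
  choose! U hU1 hU2 using hU
  -- the algebra structures
  letI algO : ∀ i, Algebra ℤ_[2] (D i).O := fun i => (padicMap 2 (D i).O (D i).two).toAlgebra
  letI algΩ : Algebra ℤ_[2] (AlgebraicClosure (FractionRing O')) :=
    ((algebraMap O' (AlgebraicClosure (FractionRing O'))).comp (padicMap 2 O' h2O)).toAlgebra
  haveI hfaith : FaithfulSMul O' (AlgebraicClosure (FractionRing O')) := by
    rw [faithfulSMul_iff_algebraMap_injective,
      IsScalarTower.algebraMap_eq O' (FractionRing O') (AlgebraicClosure (FractionRing O'))]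
    exact (algebraMap (FractionRing O') _).injective.comp (IsFractionRing.injective O' _)
  haveI hfaith' : ∀ i, FaithfulSMul O' (D i).O := fun i => by
    rw [faithfulSMul_iff_algebraMap_injective]
    exact (D i).inj
  let lift : ∀ i, (D i).O →ₐ[O'] AlgebraicClosure (FractionRing O') := fun i => IsAlgClosed.lift
  have hpadic : ∀ i x, algebraMap O' (D i).O (padicMap 2 O' h2O x) =
      padicMap 2 (D i).O (D i).two x := fun i x =>
    RingHom.congr_fun (padicHom_unique (D i).two ((algebraMap O' (D i).O).comp (padicMap 2 O' h2O))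
      (padicMap 2 (D i).O (D i).two)) x
  let j : ∀ i, (D i).O →ₐ[ℤ_[2]] AlgebraicClosure (FractionRing O') := fun i =>
    { (lift i : (D i).O →+* _) with
      commutes' := fun x => by
        show lift i (padicMap 2 (D i).O (D i).two x) =
          algebraMap O' (AlgebraicClosure (FractionRing O')) (padicMap 2 O' h2O x)
        rw [← hpadic, AlgHom.commutes] }
  have hj : ∀ i x, j i x = lift i x := fun _ _ => rfl
  haveI hfin : ∀ i, Module.Finite ℤ_[2] (D i).O := fun i =>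
    Alpha.module_finite_padicInt 2 (D i).O (by exact_mod_cast (D i).two)
  haveI : CharZero (AlgebraicClosure (FractionRing O')) :=
    charZero_of_injective_algebraMap (FaithfulSMul.algebraMap_injective O' _)
  have hjinj : ∀ i, Function.Injective (j i) := by
    intro i
    rw [injective_iff_map_eq_zero]
    intro x hx
    by_contra hne
    have halg : IsAlgebraic O' x := (Algebra.IsIntegral.isIntegral (R := O') x).isAlgebraic
    obtain ⟨y, hy0, z, hz⟩ := halg.exists_nonzero_dvd (mem_nonZeroDivisors_of_ne_zero hne)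
    have h1 := congrArg (lift i) hz
    rw [map_mul, ← hj i x, hx, zero_mul, AlgHom.commutes] at h1
    exact hy0 ((FaithfulSMul.algebraMap_injective O' _) (h1.trans (map_zero _).symm))
  refine ⟨{
    O := fun i => (D i).O
    Ω := AlgebraicClosure (FractionRing O')
    j := j
    j_inj := hjinj
    R := NumberField.RingOfIntegers (bigField χC)
    inclR := (algebraMap (integralClosure ℤ ℂ) ℂ).comp (intEmb (bigField χC))
    inclR_inj := Subtype.val_injective.comp (intEmb_injective _)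
    ε := (algebraMap O' (AlgebraicClosure (FractionRing O'))).comp j'
    ε_inj := (FaithfulSMul.algebraMap_injective O' _).comp hj'
    val := fun i => bigInt χC i
    val_spec := fun i t => rfl
    χ := fun i => (algebraMap O' (D i).O).comp (χ' i)
    χ_spec := fun i t => (lift i).commutes _
    ρ := fun i => (D i).r
    U := U
    trace_frob := fun i ℓ hℓ hℓM hℓS A hA σ hσ => ((D i).charpoly_frob hℓ hℓM hℓS hA hσ).1
    pt := ?_ }⟩
  intro i
  have h2' : (2 : (D i).O) ∈ maximalIdeal (D i).O := by exact_mod_cast (D i).two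
  exact {
    cont := (D i).cont
    two := h2'
    tr0 := fun σ hσ => (hcong i σ).1 hσ
    tr1 := fun σ hσ => (hcong i σ).2 hσ
    det := fun σ => (D i).det_eq h2S hMS σ
    unr := fun q hq hqS B hB σ hσ =>
      (RTD.hasMat_eq_one_iff (D i).mat σ).mp ((D i).unr q hq
        (fun h => hqS (hMS q hq h)) (fun h => hqS (h ▸ h2S)) B hB σ hσ)
    st := fun v hv B hB => hU2 i v hv B hB
    U1 := fun v hv => by
      rcases hU1 i v hv with h | h
      · rw [h, sub_self]; exact Ideal.zero_mem _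
      · rw [h]
        have h3 : (-1 - 1 : (D i).O) = -2 := by norm_num
        rw [h3]
        exact neg_mem h2' }

end Exists

/-! ### Consequences -/

namespace Points

variable {S Q : Finset ℕ} {rbar : GQ →* M2 (ZMod 2)} {M : ℕ} [NeZero M] {ι : Type}
  {f : ι → CuspForm (Gamma0 M) 2} {hfe : ∀ i, (f i).IsNormalizedEigenform}
  (P : Points S Q rbar fun i => eigenChar (hfe i) (↑(S ∪ Q) : Set ℕ))

/-- the points are distinct -/
theorem hdist (hMS : ∀ q : ℕ, q.Prime → q ∣ M → q ∈ S ∪ Q) (hnf : ∀ i, (f i).IsNewform)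
    (hinj : Function.Injective f) (i i' : ι)
    (h : ∀ σ, P.j i (P.ρ i σ).trace = P.j i' (P.ρ i' σ).trace) : i = i' := by
  apply hinj
  refine MultOne.eq_of_isNewform (hnf i) (hnf i') (S ∪ Q) (fun ℓ hℓ hℓS => ?_)
  have hℓM : ¬ ℓ ∣ M := fun h => hℓS (hMS ℓ hℓ h)
  have hℓS' : ℓ ∉ (↑(S ∪ Q) : Set ℕ) := by simpa using hℓS
  obtain ⟨A, hA, σ, hσ⟩ := Frob.exists_frobenius ℓ hℓ
  have h1 := h σ
  rw [P.trace_frob i hℓ hℓM hℓS' hA hσ, P.trace_frob i' hℓ hℓM hℓS' hA hσ, P.χ_spec,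
    P.χ_spec] at h1
  have h2 := congrArg P.inclR (P.ε_inj h1)
  rw [P.val_spec, P.val_spec, eigenChar_T, eigenChar_T] at h2
  exact h2

/-- the Hecke operator with index `ℓ` -/
abbrev gen (M : ℕ) [NeZero M] (S Q : Finset ℕ)
    (ℓ : {ℓ : Nat.Primes // (ℓ : ℕ) ∉ (↑(S ∪ Q) : Set ℕ)}) :
    heckeAlgebra M 2 (↑(S ∪ Q) : Set ℕ) := genS M (↑(S ∪ Q) : Set ℕ) ℓ

lemma trace_frob_gen (hMS : ∀ q : ℕ, q.Prime → q ∣ M → q ∈ S ∪ Q) (i : ι)
    (ℓ : {ℓ : Nat.Primes // (ℓ : ℕ) ∉ (↑(S ∪ Q) : Set ℕ)})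
    {A : ValuationSubring (AlgebraicClosure ℚ)} (hA : A.LiesOverPrime ℓ.1) {σ : GQ}
    (hσ : A.IsFrobeniusAt σ ℓ.1) : (P.ρ i σ).trace = P.χ i (gen M S Q ℓ) := by
  have hℓM : ¬ (ℓ.1 : ℕ) ∣ M := fun h => ℓ.2 (hMS _ ℓ.1.2 h)
  rw [P.trace_frob i ℓ.1.2 hℓM ℓ.2 hA hσ, gen, genS, dif_neg hℓM]

variable [Fintype ι]

/-- **[THETA_n]**: every relation, with coefficients in `ℤ_[2]`, between the Hecke eigenvalues
`a_ℓ`, `ℓ ∉ S ∪ Q`, of all the members of the family is satisfied by the traces of Frobenius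
elements of any other point of type `(S, Q)`. -/
theorem theta (hres : Gal.ResData S rbar) {b : ℕ} (hUB : Gal.UpperBound S Q rbar b)
    (hcard : b ≤ Fintype.card ι) (hMS : ∀ q : ℕ, q.Prime → q ∣ M → q ∈ S ∪ Q)
    (hnf : ∀ i, (f i).IsNewform) (hinj : Function.Injective f)
    {A₀ : Type} [CommRing A₀] [IsLocalRing A₀] [Algebra ℤ_[2] A₀] [Module.Finite ℤ_[2] A₀]
    {ρ₀ : GQ →* M2 A₀} {U₀ : ℕ → A₀} (h₀ : PrePt S Q rbar ρ₀ U₀) {a : ℕ → A₀}
    (ha : ∀ ℓ : ℕ, ℓ.Prime → ℓ ∉ S ∪ Q → ∀ A : ValuationSubring (AlgebraicClosure ℚ),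
      A.LiesOverPrime ℓ → ∀ σ : GQ, A.IsFrobeniusAt σ ℓ → (ρ₀ σ).trace = a ℓ)
    (F : MvPolynomial {ℓ : Nat.Primes // (ℓ : ℕ) ∉ (↑(S ∪ Q) : Set ℕ)} ℤ_[2])
    (hF : ∀ i, MvPolynomial.aeval (fun ℓ => P.χ i (gen M S Q ℓ)) F = 0) :
    MvPolynomial.aeval (fun ℓ : {ℓ : Nat.Primes // (ℓ : ℕ) ∉ (↑(S ∪ Q) : Set ℕ)} =>
      a (ℓ.1 : ℕ)) F = 0 := by
  classical
  choose A hA σ hσ using fun ℓ : {ℓ : Nat.Primes // (ℓ : ℕ) ∉ (↑(S ∪ Q) : Set ℕ)} =>
    Frob.exists_frobenius (ℓ.1 : ℕ) ℓ.1.2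
  have key := Alpha.alpha hres hUB hcard (fun i => P.j i) P.pt
    (fun i i' h _ => P.hdist hMS hnf hinj i i' h) h₀
    (MvPolynomial.rename (fun ℓ => (Sum.inl (σ ℓ) : GQ ⊕ ℕ)) F) (fun i => by
      rw [MvPolynomial.aeval_rename]
      have h1 : (Alpha.vars S Q (P.ρ i) (P.U i) ∘ fun ℓ => (Sum.inl (σ ℓ) : GQ ⊕ ℕ)) =
          fun ℓ => P.χ i (gen M S Q ℓ) := by
        funext ℓ
        exact P.trace_frob_gen hMS i ℓ (hA ℓ) (hσ ℓ)
      rw [h1, hF i, map_zero])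
  rw [MvPolynomial.aeval_rename] at key
  have h1 : (Alpha.vars S Q ρ₀ U₀ ∘ fun ℓ => (Sum.inl (σ ℓ) : GQ ⊕ ℕ)) =
      fun ℓ : {ℓ : Nat.Primes // (ℓ : ℕ) ∉ (↑(S ∪ Q) : Set ℕ)} => a (ℓ.1 : ℕ) := by
    funext ℓ
    exact ha ℓ.1 ℓ.1.2 (by simpa using ℓ.2) (A ℓ) (hA ℓ) (σ ℓ) (hσ ℓ)
  rw [h1] at key
  exact key

end Points

end Fermat.Agent.LTF.Fam

end
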