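import Fermat.Agent.S29.Lift

/-!
# A common complete discrete valuation ring for finitely many characters
-/

set_option autoImplicit false

noncomputable section

namespace Fermat.Agent.LTF.Fam

open IsLocalRing Fermat.Agent.S29aux

section

variable {ι : Type} {T : Type} [CommRing T] (χ : ι → T →+* ℂ)

/-- The field generated by all the values. -/
def bigField : IntermediateField ℚ ℂ := ⨆ i, heckeField (χ i)

lemma mem_bigField (i : ι) (t : T) : χ i t ∈ bigField χ :=
  (le_iSup (fun i => heckeField (χ i)) i) (IntermediateField.subset_adjoin ℚ _ ⟨t, rfl⟩)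

variable [Module.Finite ℤ T]

instance bigField_numberField [Finite ι] : NumberField (bigField χ) where
  to_finiteDimensional := by
    unfold bigField
    exact IntermediateField.finiteDimensional_iSup_of_finite

/-- The characters, with values in the ring of integers. -/
def bigInt (i : ι) : T →+* NumberField.RingOfIntegers (bigField χ) :=
  ((χ i).codRestrict (bigField χ).toSubfield
    (fun t => mem_bigField χ i t) : T →+* bigField χ).codRestrict
    (integralClosure ℤ (bigField χ)) (fun t => by
      have h : IsIntegral ℤ ((algebraMap (bigField χ) ℂ)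
          (((χ i).codRestrict (bigField χ).toSubfield
            (fun t => mem_bigField χ i t) : T →+* bigField χ) t)) :=
        isIntegral_apply (χ i) t
      exact (isIntegral_algebraMap_iff (algebraMap (bigField χ) ℂ).injective).mp h)

lemma coe_intEmb_bigInt (i : ι) (t : T) :
    ((intEmb (bigField χ) (bigInt χ i t) : integralClosure ℤ ℂ) : ℂ) = χ i t := rfl

lemma intEmb_injective (E : IntermediateField ℚ ℂ) : Function.Injective (intEmb E) := by
  intro x y h
  have h1 : ((intEmb E x : integralClosure ℤ ℂ) : ℂ) = ((intEmb E y : integralClosure ℤ ℂ) : ℂ) := by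
    rw [h]
  rw [coe_intEmb, coe_intEmb] at h1
  exact NumberField.RingOfIntegers.coe_injective (Subtype.ext h1)

/-- A ring homomorphism from the ring of integers of a number field to a domain of characteristic
zero is injective. -/
lemma ringOfIntegers_injective {E : Type} [Field E] [NumberField E] {O : Type} [CommRing O]
    [IsDomain O] [CharZero O] (j : NumberField.RingOfIntegers E →+* O) : Function.Injective j := by
  rw [injective_iff_map_eq_zero]
  intro x hx
  by_contra hne
  have halg : IsAlgebraic ℤ x :=
    (Algebra.IsIntegral.isIntegral (R := ℤ) x).isAlgebraic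
  obtain ⟨y, hy0, hy⟩ := halg.exists_nonzero_dvd (mem_nonZeroDivisors_of_ne_zero hne)
  obtain ⟨z, hz⟩ := hy
  have h1 := congrArg j hz
  rw [map_mul, hx, zero_mul] at h1
  have h2 : ((y : ℤ) : O) = 0 := by
    have h3 : j (algebraMap ℤ (NumberField.RingOfIntegers E) y) = ((y : ℤ) : O) := by
      rw [eq_intCast, map_intCast]
    rw [← h3, h1]
  exact hy0 (Int.cast_eq_zero.mp h2)

/-- **A common complete discrete valuation ring.** -/
theorem exists_commonDVR [Finite ι] {p : ℕ} (hp : p.Prime) {K : Type} [Field K] [CharP K p]
    (ψ : integralClosure ℤ ℂ →+* K) :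
    ∃ (O : Type) (_ : CommRing O) (_ : IsDomain O) (_ : IsDiscreteValuationRing O)
      (_ : IsAdicComplete (maximalIdeal O) O) (_ : Finite (ResidueField O)) (_ : CharZero O)
      (j : NumberField.RingOfIntegers (bigField χ) →+* O) (e : ResidueField O →+* K),
      (p : O) ∈ maximalIdeal O ∧ Function.Injective j ∧
        ∀ x, e (residue O (j x)) = ψ (intEmb (bigField χ) x) := by
  obtain ⟨O, i1, i2, i3, i4, i5, i6, j, e, hpO, he⟩ :=
    exists_completeDVR (bigField χ) hp (ψ.comp (intEmb (bigField χ)))
  exact ⟨O, i1, i2, i3, i4, i5, i6, j, e, hpO, ringOfIntegers_injective j, he⟩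

end

end Fermat.Agent.LTF.Fam

end
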