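import Fermat.Agent.LTF.Gal.FamilyField
import Fermat.Agent.LTF.Gal.Defs
import Fermat.Agent.S58.Transfer
import Fermat.Agent.Frob.Charpoly
import Fermat.Agent.RTD.CondBasic
import Fermat.Agent.GalRep.Transfer
import Fermat.Agent.S30

/-!
# The Galois representation attached to one member of the family
-/

set_option autoImplicit false
set_option linter.style.haveILetI false

noncomputable section

namespace Fermat.Agent.LTF.Fam

open IsLocalRing Matrix Polynomial CuspForm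
open Fermat.Agent.S53norm (GQ M2 HasMat IsCont exists_hasMat_adic)
open Fermat.Agent.S30aux (cyc padicMap padicMap_sub_mem)
open Fermat.Agent.LTF.Gal (ResData)

/-! ### Density -/

/-- Traces and determinants are determined by Frobenius elements (finite level). -/
theorem trace_det_eq {k : Type} [CommRing k] (r₁ r₂ : GQ →* M2 k)
    (h₁ : ∃ L : IntermediateField ℚ (AlgebraicClosure ℚ), FiniteDimensional ℚ L ∧
      ∀ σ : GQ, (∀ x ∈ L, σ x = x) → r₁ σ = 1)
    (h₂ : ∃ L : IntermediateField ℚ (AlgebraicClosure ℚ), FiniteDimensional ℚ L ∧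
      ∀ σ : GQ, (∀ x ∈ L, σ x = x) → r₂ σ = 1)
    (S : Set ℕ) (hS : S.Finite)
    (hF : ∀ ℓ : ℕ, ℓ.Prime → ℓ ∉ S → ∀ A : ValuationSubring (AlgebraicClosure ℚ),
      A.LiesOverPrime ℓ → ∀ φ : GQ, A.IsFrobeniusAt φ ℓ →
        (r₁ φ).trace = (r₂ φ).trace ∧ (r₁ φ).det = (r₂ φ).det) (σ : GQ) :
    (r₁ σ).trace = (r₂ σ).trace ∧ (r₁ σ).det = (r₂ σ).det := by
  obtain ⟨L, hL, hL1⟩ := h₁
  obtain ⟨L', hL', hL1'⟩ := h₂
  have hfin : FiniteDimensional ℚ (L ⊔ L' : IntermediateField ℚ (AlgebraicClosure ℚ)) :=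
    IntermediateField.finiteDimensional_sup L L'
  have hfac : ∀ (r : GQ →* M2 k) (L₀ : IntermediateField ℚ (AlgebraicClosure ℚ)),
      (∀ σ : GQ, (∀ x ∈ L₀, σ x = x) → r σ = 1) → ∀ σ τ : GQ, (∀ x ∈ L₀, σ x = τ x) →
        r σ = r τ := by
    intro r L₀ h σ τ hστ
    have h1 : r (τ⁻¹ * σ) = 1 := h _ fun x hx => by
      rw [AlgEquiv.mul_apply, hστ x hx, ← AlgEquiv.mul_apply, inv_mul_cancel, AlgEquiv.one_apply]
    calc r σ = r τ * r (τ⁻¹ * σ) := by rw [← map_mul, mul_inv_cancel_left]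
      _ = r τ := by rw [h1, mul_one]
  have key := FrobDensity.eq_of_frobenius (X := k × k)
    (fun σ => ((r₁ σ).trace, (r₁ σ).det)) (fun σ => ((r₂ σ).trace, (r₂ σ).det)) (L ⊔ L')
    (fun σ τ h => by
      rw [hfac r₁ L hL1 σ τ (fun x hx => h x (le_sup_left (a := L) (b := L') hx))])
    (fun σ τ h => by
      rw [hfac r₂ L' hL1' σ τ (fun x hx => h x (le_sup_right (a := L) (b := L') hx))])
    (fun φ m h => by
      rw [Prod.mk.injEq] at h ⊢
      rw [map_pow, map_pow]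
      exact ⟨FrobDensity.matrix_trace_pow_eq h.1 h.2 m, by rw [det_pow, det_pow, h.2]⟩)
    S hS (fun ℓ hℓ hℓS A hA φ hφ => by
      obtain ⟨h1, h2⟩ := hF ℓ hℓ hℓS A hA φ hφ
      exact Prod.ext h1 h2) σ
  exact Prod.mk.inj key

/-- Monoid homomorphisms of finite level are determined by Frobenius elements. -/
theorem hom_eq_of_frobenius {X : Type*} [Monoid X] (r₁ r₂ : GQ →* X)
    (h₁ : ∃ L : IntermediateField ℚ (AlgebraicClosure ℚ), FiniteDimensional ℚ L ∧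
      ∀ σ : GQ, (∀ x ∈ L, σ x = x) → r₁ σ = 1)
    (h₂ : ∃ L : IntermediateField ℚ (AlgebraicClosure ℚ), FiniteDimensional ℚ L ∧
      ∀ σ : GQ, (∀ x ∈ L, σ x = x) → r₂ σ = 1)
    (S : Set ℕ) (hS : S.Finite)
    (hF : ∀ ℓ : ℕ, ℓ.Prime → ℓ ∉ S → ∀ A : ValuationSubring (AlgebraicClosure ℚ),
      A.LiesOverPrime ℓ → ∀ φ : GQ, A.IsFrobeniusAt φ ℓ → r₁ φ = r₂ φ) (σ : GQ) :
    r₁ σ = r₂ σ := by
  obtain ⟨L, hL, hL1⟩ := h₁
  obtain ⟨L', hL', hL1'⟩ := h₂
  have hfin : FiniteDimensional ℚ (L ⊔ L' : IntermediateField ℚ (AlgebraicClosure ℚ)) :=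
    IntermediateField.finiteDimensional_sup L L'
  have hfac : ∀ (r : GQ →* X) (L₀ : IntermediateField ℚ (AlgebraicClosure ℚ)),
      (∀ σ : GQ, (∀ x ∈ L₀, σ x = x) → r σ = 1) → ∀ σ τ : GQ, (∀ x ∈ L₀, σ x = τ x) →
        r σ = r τ := by
    intro r L₀ h σ τ hστ
    have h1 : r (τ⁻¹ * σ) = 1 := h _ fun x hx => by
      rw [AlgEquiv.mul_apply, hστ x hx, ← AlgEquiv.mul_apply, inv_mul_cancel, AlgEquiv.one_apply]
    calc r σ = r τ * r (τ⁻¹ * σ) := by rw [← map_mul, mul_inv_cancel_left]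
      _ = r τ := by rw [h1, mul_one]
  refine FrobDensity.eq_of_frobenius r₁ r₂ (L ⊔ L')
    (fun σ τ h => hfac r₁ L hL1 σ τ (fun x hx => h x (le_sup_left (a := L) (b := L') hx)))
    (fun σ τ h => hfac r₂ L' hL1' σ τ (fun x hx => h x (le_sup_right (a := L) (b := L') hx)))
    (fun φ m h => by rw [map_pow, map_pow, h]) S hS hF σ

/-! ### Residue fields -/

lemma charP_residueField {O : Type} [CommRing O] [IsLocalRing O]
    (h : ((2 : ℕ) : O) ∈ maximalIdeal O) : CharP (ResidueField O) 2 := by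
  have h1 : ((2 : ℕ) : ResidueField O) = 0 := by
    rw [← map_natCast (residue O), residue_eq_zero_iff]
    exact h
  exact CharTwo.of_one_ne_zero_of_two_eq_zero one_ne_zero (by exact_mod_cast h1)

/-- the prime field -/
abbrev c2 (k : Type*) [Field k] [CharP k 2] : ZMod 2 →+* k := ZMod.castHom (dvd_refl 2) k

lemma map_c2 {k k' : Type*} [Field k] [CharP k 2] [Field k'] [CharP k' 2] (f : k →+* k')
    (x : ZMod 2) : f (c2 k x) = c2 k' x :=
  RingHom.congr_fun (Subsingleton.elim (f.comp (c2 k)) (c2 k')) x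

lemma zmod2_unit : ∀ a b : ZMod 2, a * b = 1 → a = 1 := by decide

lemma det_rbar (rbar : GQ →* M2 (ZMod 2)) (σ : GQ) : (rbar σ).det = 1 := by
  refine zmod2_unit _ (rbar σ⁻¹).det ?_
  rw [← det_mul, ← map_mul, mul_inv_cancel, map_one, det_one]

/-- a matrix in `SL₂(𝔽₂)` is detected by traces -/
lemma exists_trace_ne' : ∀ a b c d : ZMod 2, a * d - b * c = 1 →
    ¬ (a = 1 ∧ b = 0 ∧ c = 0 ∧ d = 1) → a + d ≠ 0 ∨ b + c + d ≠ 1 := by
  decide

lemma exists_trace_ne {x : M2 (ZMod 2)} (hx : x ≠ 1) (hd : x.det = 1) :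
    ∃ g : M2 (ZMod 2), g.det = 1 ∧ (x * g).trace ≠ g.trace := by
  have h1 := exists_trace_ne' (x 0 0) (x 0 1) (x 1 0) (x 1 1)
    (by rw [← det_fin_two, hd]) (by
      rintro ⟨h1, h2, h3, h4⟩
      apply hx
      ext i j
      fin_cases i <;> fin_cases j <;> simp [h1, h2, h3, h4])
  rcases h1 with h1 | h1
  · refine ⟨1, det_one, ?_⟩
    rw [mul_one, trace_fin_two, trace_one, Fintype.card_fin]
    exact h1
  · refine ⟨!![0, 1; 1, 1], by decide, ?_⟩
    intro h2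
    apply h1
    rw [trace_fin_two, trace_fin_two, mul_apply, mul_apply, Fin.sum_univ_two,
      Fin.sum_univ_two] at h2
    simp only [of_apply, cons_val', cons_val_zero, cons_val_one, cons_val_fin_one, mul_zero,
      mul_one, zero_add] at h2
    rw [← h2]
    ring

/-- two non-commuting elements: the commutator has trace one -/
lemma exists_comm_trace : ∃ g h : M2 (ZMod 2), g.det = 1 ∧ h.det = 1 ∧ g * g = 1 ∧ h * h = 1 ∧
    (g * h * g * h).trace = 1 :=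
  ⟨!![1, 1; 0, 1], !![1, 0; 1, 1], by decide, by decide, by decide, by decide, by decide⟩

/-! ### Absolute irreducibility -/

/-- A two-dimensional representation in characteristic two for which some commutator has trace one
is absolutely irreducible. -/
theorem absIrr_of_comm {k : Type} [Field k] [CharP k 2] (ρ : ResidualGaloisRep k) (g h : GQ)
    (ht : LinearMap.trace k ρ.V (ρ.ρ (g * h * g⁻¹ * h⁻¹)) = 1) :
    ρ.IsAbsolutelyIrreducible := by
  classical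
  intro W hW
  by_contra hcon
  push Not at hcon
  obtain ⟨h0, h1⟩ := hcon
  set K := AlgebraicClosure k with hK
  set ρK := ρ.baseChange K with hρ
  obtain ⟨b, hb⟩ := S58aux.exists_basis_of_line ρK.finrank_eq h0 h1
  set M : GQ → Matrix (Fin 2) (Fin 2) K :=
    fun σ => LinearMap.toMatrix b b (ρK.ρ σ) with hM
  have hM10 : ∀ σ, M σ 1 0 = 0 := by
    intro σ
    rw [hM]
    simp only [LinearMap.toMatrix_apply]
    exact (hb _).mp (hW σ _ ((hb _).mpr (by simp)))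
  have hMmul : ∀ σ τ, M (σ * τ) = M σ * M τ := by
    intro σ τ
    simp only [hM]
    rw [map_mul, LinearMap.toMatrix_mul]
  have hM1' : M 1 = 1 := by
    simp only [hM]
    rw [map_one, LinearMap.toMatrix_one]
  have hM0 : ∀ σ τ, M (σ * τ) 0 0 = M σ 0 0 * M τ 0 0 := by
    intro σ τ
    rw [hMmul, Matrix.mul_apply, Fin.sum_univ_two, hM10 τ, mul_zero, add_zero]
  have hM1 : ∀ σ τ, M (σ * τ) 1 1 = M σ 1 1 * M τ 1 1 := by
    intro σ τ
    rw [hMmul, Matrix.mul_apply, Fin.sum_univ_two, hM10 σ, zero_mul, zero_add]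
  have hinv0 : ∀ σ, M σ 0 0 * M σ⁻¹ 0 0 = 1 := fun σ => by
    rw [← hM0, mul_inv_cancel, hM1', one_apply_eq]
  have hinv1 : ∀ σ, M σ 1 1 * M σ⁻¹ 1 1 = 1 := fun σ => by
    rw [← hM1, mul_inv_cancel, hM1', one_apply_eq]
  have h3 : algebraMap k K (LinearMap.trace k ρ.V (ρ.ρ (g * h * g⁻¹ * h⁻¹))) =
      (M (g * h * g⁻¹ * h⁻¹)).trace := by
    have h3 := LinearMap.trace_baseChange (ρ.ρ (g * h * g⁻¹ * h⁻¹)) K
    rw [← h3]
    exact LinearMap.trace_eq_matrix_trace K b (ρK.ρ _)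
  have h4 : (M (g * h * g⁻¹ * h⁻¹)).trace = 1 + 1 := by
    rw [trace_fin_two]
    congr 1
    · rw [hM0, hM0, hM0]
      calc M g 0 0 * M h 0 0 * M g⁻¹ 0 0 * M h⁻¹ 0 0 =
          (M g 0 0 * M g⁻¹ 0 0) * (M h 0 0 * M h⁻¹ 0 0) := by ring
        _ = 1 := by rw [hinv0, hinv0, one_mul]
    · rw [hM1, hM1, hM1]
      calc M g 1 1 * M h 1 1 * M g⁻¹ 1 1 * M h⁻¹ 1 1 =
          (M g 1 1 * M g⁻¹ 1 1) * (M h 1 1 * M h⁻¹ 1 1) := by ring
        _ = 1 := by rw [hinv1, hinv1, one_mul]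
  haveI : CharP K 2 := charP_of_injective_algebraMap (algebraMap k K).injective 2
  rw [ht, map_one, h4, one_add_one_eq_two, CharTwo.two_eq_zero] at h3
  exact one_ne_zero h3

/-! ### Congruences -/

/-- `x` reduces to `a ∈ 𝔽₂`. -/
def Cong2 {O : Type} [CommRing O] [IsLocalRing O] (x : O) (a : ZMod 2) : Prop :=
  (a = 0 → x ∈ maximalIdeal O) ∧ (a = 1 → x - 1 ∈ maximalIdeal O)

lemma zmod2_cases : ∀ a : ZMod 2, a = 0 ∨ a = 1 := by decide

lemma cong2_iff {O : Type} [CommRing O] [IsLocalRing O] {k : Type*} [Field k] [CharP k 2]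
    (e : ResidueField O →+* k) (x : O) (a : ZMod 2) :
    Cong2 x a ↔ e (residue O x) = c2 k a := by
  unfold Cong2
  rcases zmod2_cases a with rfl | rfl
  · rw [map_zero, map_eq_zero, residue_eq_zero_iff]
    exact ⟨fun h => h.1 rfl, fun h => ⟨fun _ => h, fun h' => absurd h' (by decide)⟩⟩
  · have h1 : e (residue O x) = c2 k 1 ↔ x - 1 ∈ maximalIdeal O := by
      rw [map_one, ← map_one e, e.injective.eq_iff, ← map_one (residue O), ← residue_eq_zero_iff,
        map_sub, sub_eq_zero]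
    rw [h1]
    exact ⟨fun h => h.2 rfl, fun h => ⟨fun h' => absurd h' (by decide), fun _ => h⟩⟩

lemma Cong2.map {O O₁ : Type} [CommRing O] [IsLocalRing O] [CommRing O₁] [IsLocalRing O₁]
    (φ : O →+* O₁) [IsLocalHom φ] {x : O} {a : ZMod 2} (h : Cong2 x a) : Cong2 (φ x) a := by
  have key : ∀ y ∈ maximalIdeal O, φ y ∈ maximalIdeal O₁ := fun y hy =>
    (mem_maximalIdeal _).mpr fun hu => (mem_maximalIdeal y).mp hy (isUnit_of_map_unit φ y hu)
  refine ⟨fun ha => key _ (h.1 ha), fun ha => ?_⟩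
  have := key _ (h.2 ha)
  rwa [map_sub, map_one] at this

/-! ### The representation of a character of the Hecke algebra -/

/-- A Galois representation attached to a character of the Hecke algebra with values in a
complete discrete valuation ring. -/
structure RepData {M : ℕ} [NeZero M] (S' : Finset ℕ) {O' : Type} [CommRing O'] [IsLocalRing O']
    (χ : heckeAlgebra M 2 (↑S' : Set ℕ) →+* O') : Type 1 where
  /-- the coefficient ring -/
  O : Type
  [cr : CommRing O]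
  [dom : IsDomain O]
  [dvr : IsDiscreteValuationRing O]
  [cpl : IsAdicComplete (maximalIdeal O) O]
  [fin : Finite (ResidueField O)]
  [cz : CharZero O]
  /-- the structure map -/
  [alg : Algebra O' O]
  [mfin : Module.Finite O' O]
  [loc : IsLocalHom (algebraMap O' O)]
  two : ((2 : ℕ) : O) ∈ maximalIdeal O
  inj : Function.Injective (algebraMap O' O)
  /-- the representation -/
  ρ : GaloisRepAdic O
  /-- its matrix -/
  r : GQ →* M2 O
  mat : HasMat (ρ.ρ : GQ → _) r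
  frob : GalRep.HasFrobCharpoly ((algebraMap O' O).comp χ) ρ
  unr : ∀ q : ℕ, q.Prime → ¬ q ∣ M → q ≠ 2 → ρ.IsUnramifiedAt q

attribute [instance] RepData.cr RepData.dom RepData.dvr RepData.cpl RepData.fin RepData.cz
  RepData.alg RepData.mfin RepData.loc

/-- Multiplicative matrices. -/
theorem exists_monoidHom_hasMat {A : Type} [CommRing A] [IsLocalRing A] (ρ : GaloisRepAdic A) :
    ∃ r : GQ →* M2 A, HasMat (ρ.ρ : GQ → _) r := by
  obtain ⟨r, hr⟩ := exists_hasMat_adic ρ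
  exact ⟨{ toFun := r, map_one' := hr.map_one, map_mul' := hr.map_mul }, hr⟩

theorem exists_repData {M : ℕ} [NeZero M] {S' : Finset ℕ} (h2S : 2 ∈ S')
    (hMS : ∀ q : ℕ, q.Prime → q ∣ M → q ∈ S') {O' : Type} [CommRing O'] [IsDomain O']
    [IsDiscreteValuationRing O'] [IsAdicComplete (maximalIdeal O') O']
    [Finite (ResidueField O')] [CharZero O'] (h2O : ((2 : ℕ) : O') ∈ maximalIdeal O')
    (χ : heckeAlgebra M 2 (↑S' : Set ℕ) →+* O') : Nonempty (RepData S' χ) := by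
  haveI : Fact (Nat.Prime 2) := ⟨Nat.prime_two⟩
  obtain ⟨O, i1, i2, i3, i4, i5, i6, i7, i8, i9, hinj, ρ, hfrob, hunr⟩ :=
    Fermat.Agent.S30.result 2 M S' h2S hMS O' h2O χ
  obtain ⟨r, hr⟩ := exists_monoidHom_hasMat ρ
  refine ⟨{ O := O, two := ?_, inj := hinj, ρ := ρ, r := r, mat := hr, frob := hfrob,
            unr := hunr }⟩
  have h1 : algebraMap O' O ((2 : ℕ) : O') ∈ maximalIdeal O :=
    (mem_maximalIdeal _).mpr fun hu =>
      (mem_maximalIdeal _).mp h2O (isUnit_of_map_unit (algebraMap O' O) _ hu)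
  rwa [map_natCast] at h1

lemma trace_det_of_charpoly {A : Type} [CommRing A] [Nontrivial A] {X : M2 A} {t d : A}
    (h : X.charpoly = Polynomial.X ^ 2 - Polynomial.C t * Polynomial.X + Polynomial.C d) :
    X.trace = t ∧ X.det = d := by
  rw [Matrix.charpoly_fin_two] at h
  have h0 := congrArg (fun p => Polynomial.coeff p 0) h
  have h1 := congrArg (fun p => Polynomial.coeff p 1) h
  simp only [Polynomial.coeff_add, Polynomial.coeff_sub, Polynomial.coeff_C_mul,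
    Polynomial.coeff_X_pow, Polynomial.coeff_X_zero, Polynomial.coeff_X_one,
    Polynomial.coeff_C_zero, Polynomial.coeff_C_succ] at h0 h1
  norm_num at h0 h1
  exact ⟨h1, h0⟩

namespace RepData

variable {M : ℕ} [NeZero M] {S' : Finset ℕ} {O' : Type} [CommRing O'] [IsLocalRing O']
  {χ : heckeAlgebra M 2 (↑S' : Set ℕ) →+* O'} (D : RepData S' χ)

/-- the Hecke character with values in the coefficient ring -/
def π : heckeAlgebra M 2 (↑S' : Set ℕ) →+* D.O := (algebraMap O' D.O).comp χ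

lemma isCont : IsCont (D.r : GQ → M2 D.O) := D.mat.isCont

lemma charpoly_frob {ℓ : ℕ} (hℓ : ℓ.Prime) (hℓM : ¬ ℓ ∣ M) (hℓS : ℓ ∉ (↑S' : Set ℕ))
    {A : ValuationSubring (AlgebraicClosure ℚ)} (hA : A.LiesOverPrime ℓ) {σ : GQ}
    (hσ : A.IsFrobeniusAt σ ℓ) : (D.r σ).trace = D.π (heckeAlgebra.T hℓ hℓM hℓS) ∧
      (D.r σ).det = (ℓ : D.O) := by
  have h1 := D.frob ℓ hℓ hℓM hℓS A hA σ hσ
  rw [RTD.hasMat_charpoly D.mat σ] at h1
  exact trace_det_of_charpoly h1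

end RepData

/-- The system of Hecke eigenvalues `χ` reduces to the traces of `rbar`. -/
def Sys {M : ℕ} [NeZero M] {S' : Finset ℕ} {O' : Type} [CommRing O'] [IsLocalRing O']
    (χ : heckeAlgebra M 2 (↑S' : Set ℕ) →+* O') (rbar : GQ →* M2 (ZMod 2)) : Prop :=
  ∀ (ℓ : ℕ) (hℓ : ℓ.Prime) (hℓM : ¬ ℓ ∣ M) (hℓS : ℓ ∉ (↑S' : Set ℕ)),
    ∀ A : ValuationSubring (AlgebraicClosure ℚ), A.LiesOverPrime ℓ → ∀ σ : GQ,
      A.IsFrobeniusAt σ ℓ → Cong2 (χ (heckeAlgebra.T hℓ hℓM hℓS)) (rbar σ).trace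

lemma eq_of_sub_mem' {O : Type} [CommRing O] [IsLocalRing O] [IsHausdorff (maximalIdeal O) O]
    {a b : O} (h : ∀ n, a - b ∈ maximalIdeal O ^ n) : a = b := by
  rw [← sub_eq_zero]
  refine IsHausdorff.haus ‹_› _ fun n => ?_
  rw [SModEq.zero, smul_eq_mul, Ideal.mul_top]
  exact h n

lemma hasMat_trace {G : Type} {A : Type} [CommRing A] {V : Type} [AddCommGroup V] [Module A V]
    {ρ : G → Module.End A V} {r : G → M2 A} (h : HasMat ρ r) (σ : G) :
    LinearMap.trace A V (ρ σ) = (r σ).trace := by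
  obtain ⟨e, he⟩ := h
  rw [← LinearMap.trace_conj' (ρ σ) e, RTD.conj_eq_toLin' e he, Matrix.trace_toLin'_eq]

lemma mem_pow_of_dvd_pow {O : Type} [CommRing O] [IsDomain O] [IsDiscreteValuationRing O] {x : O}
    (hx : x ≠ 0) : ∃ e : ℕ, ∀ n : ℕ, ∀ y ∈ maximalIdeal O ^ (e * n), x ^ n ∣ y := by
  obtain ⟨ϖ, hϖ⟩ := IsDiscreteValuationRing.exists_irreducible O
  obtain ⟨e, he⟩ := IsDiscreteValuationRing.associated_pow_irreducible hx hϖ
  refine ⟨e, fun n y hy => ?_⟩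
  rw [hϖ.maximalIdeal_eq, Ideal.span_singleton_pow, Ideal.mem_span_singleton, pow_mul] at hy
  exact ((he.pow_pow (n := n)).dvd).trans hy

namespace RepData

variable {M : ℕ} [NeZero M] {S' : Finset ℕ} {O' : Type} [CommRing O'] [IsLocalRing O']
  {χ : heckeAlgebra M 2 (↑S' : Set ℕ) →+* O'} (D : RepData S' χ)

lemma two_ne_zero' : (2 : D.O) ≠ 0 := two_ne_zero

/-- continuity -/
theorem cont (m : ℕ) : ∃ L : IntermediateField ℚ (AlgebraicClosure ℚ), FiniteDimensional ℚ L ∧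
    ∀ σ : GQ, (∀ x ∈ L, σ x = x) → ∀ i j, (2 : D.O) ^ m ∣ (D.r σ - 1) i j := by
  obtain ⟨e, he⟩ := mem_pow_of_dvd_pow D.two_ne_zero'
  obtain ⟨L, hL, h⟩ := D.isCont (e * m)
  exact ⟨L, hL, fun σ hσ i j => he m _ (h σ hσ i j)⟩

lemma map_eq_one {n : ℕ} {σ : GQ} (h : S53norm.MemI (maximalIdeal D.O ^ n) (D.r σ - 1)) :
    (D.r σ).map (Ideal.Quotient.mk (maximalIdeal D.O ^ n)) = 1 := by
  ext i j
  have h1 := h i j
  rw [Matrix.sub_apply, ← Ideal.Quotient.eq_zero_iff_mem, map_sub, sub_eq_zero] at h1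
  rw [map_apply, h1]
  by_cases hij : i = j
  · subst hij; rw [one_apply_eq, one_apply_eq, map_one]
  · rw [one_apply_ne hij, one_apply_ne hij, map_zero]

/-- the determinant is the cyclotomic character -/
theorem det_eq (h2S : 2 ∈ S') (hMS : ∀ q : ℕ, q.Prime → q ∣ M → q ∈ S') (σ : GQ) :
    (D.r σ).det = padicMap 2 D.O D.two ((cyc 2 σ : ℤ_[2]ˣ) : ℤ_[2]) := by
  refine eq_of_sub_mem' fun n => ?_
  let I := maximalIdeal D.O ^ n
  let r₁ : GQ →* (D.O ⧸ I) :=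
    ((Ideal.Quotient.mk I : D.O →+* D.O ⧸ I) : D.O →* D.O ⧸ I).comp
      ((Matrix.detMonoidHom : M2 D.O →* D.O).comp D.r)
  let r₂ : GQ →* (D.O ⧸ I) :=
    ((Ideal.Quotient.mk I : D.O →+* D.O ⧸ I) : D.O →* D.O ⧸ I).comp
      ((Units.coeHom D.O).comp (S30aux.cycO D.two))
  have h := hom_eq_of_frobenius r₁ r₂ ?_ ?_ (↑S' : Set ℕ) S'.finite_toSet ?_ σ
  · have h1 : Ideal.Quotient.mk I (D.r σ).det = Ideal.Quotient.mk I
        ((S30aux.cycO D.two σ : D.Oˣ) : D.O) := h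
    exact Ideal.Quotient.eq.mp h1
  · obtain ⟨L, hL, hL1⟩ := D.isCont n
    refine ⟨L, hL, fun σ hσ => ?_⟩
    show Ideal.Quotient.mk I (D.r σ).det = 1
    rw [RingHom.map_det, RingHom.mapMatrix_apply, D.map_eq_one (hL1 σ hσ), det_one]
  · obtain ⟨ζ, hζ⟩ := S30aux.exists_primitive 2 n
    have hint : IsIntegral ℚ ζ := Algebra.IsIntegral.isIntegral ζ
    refine ⟨IntermediateField.adjoin ℚ {ζ}, IntermediateField.adjoin.finiteDimensional hint,
      fun σ hσ => ?_⟩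
    have h2 := S30aux.cycO_sub_one_mem D.two n hζ σ
      (hσ ζ (IntermediateField.mem_adjoin_simple_self ℚ ζ))
    show Ideal.Quotient.mk I ((S30aux.cycO D.two σ : D.Oˣ) : D.O) = 1
    rw [← map_one (Ideal.Quotient.mk I)]
    exact Ideal.Quotient.eq.mpr h2
  · intro ℓ hℓ hℓS A hA φ hφ
    have hℓM : ¬ ℓ ∣ M := fun h => hℓS (hMS ℓ hℓ h)
    have hne : ℓ ≠ 2 := fun h => hℓS (h ▸ h2S)
    show Ideal.Quotient.mk I (D.r φ).det =
      Ideal.Quotient.mk I ((S30aux.cycO D.two φ : D.Oˣ) : D.O)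
    rw [(D.charpoly_frob hℓ hℓM hℓS hA hφ).2, S30aux.cycO_frobenius D.two hℓ hne hA hφ]

/-- all the traces reduce to those of `rbar` -/
theorem cong {rbar : GQ →* M2 (ZMod 2)}
    (hlev : ∃ L : IntermediateField ℚ (AlgebraicClosure ℚ), FiniteDimensional ℚ L ∧
      ∀ σ : GQ, (∀ x ∈ L, σ x = x) → rbar σ = 1) (hsys : Sys χ rbar)
    (h2S : 2 ∈ S') (hMS : ∀ q : ℕ, q.Prime → q ∣ M → q ∈ S') (σ : GQ) :
    Cong2 (D.r σ).trace (rbar σ).trace := by
  haveI := charP_residueField D.two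
  let κ := ResidueField D.O
  let r₁ : GQ →* M2 κ := ((residue D.O).mapMatrix : M2 D.O →+* M2 κ).toMonoidHom.comp D.r
  let r₂ : GQ →* M2 κ := ((c2 κ).mapMatrix : M2 (ZMod 2) →+* M2 κ).toMonoidHom.comp rbar
  have e₁ : ∀ σ, r₁ σ = (D.r σ).map (residue D.O) := fun _ => rfl
  have e₂ : ∀ σ, r₂ σ = (rbar σ).map (c2 κ) := fun _ => rfl
  have t₁ : ∀ σ, (r₁ σ).trace = residue D.O (D.r σ).trace := fun σ => by
    rw [e₁, trace_fin_two, trace_fin_two, map_apply, map_apply, map_add]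
  have t₂ : ∀ σ, (r₂ σ).trace = c2 κ (rbar σ).trace := fun σ => by
    rw [e₂, trace_fin_two, trace_fin_two, map_apply, map_apply, map_add]
  have d₁ : ∀ σ, (r₁ σ).det = residue D.O (D.r σ).det := fun σ => by
    rw [e₁, RingHom.map_det, RingHom.mapMatrix_apply]
  have d₂ : ∀ σ, (r₂ σ).det = 1 := fun σ => by
    rw [e₂, ← RingHom.mapMatrix_apply, ← RingHom.map_det, det_rbar, map_one]
  have key := trace_det_eq r₁ r₂ ?_ ?_ (↑S' : Set ℕ) S'.finite_toSet ?_ σ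
  · rw [cong2_iff (RingHom.id κ), RingHom.id_apply, ← t₁, ← t₂]
    exact key.1
  · obtain ⟨L, hL, hL1⟩ := D.isCont 1
    refine ⟨L, hL, fun σ hσ => ?_⟩
    rw [e₁]
    ext i j
    have h1 := hL1 σ hσ i j
    rw [pow_one, Matrix.sub_apply, ← residue_eq_zero_iff, map_sub, sub_eq_zero] at h1
    rw [map_apply, h1]
    by_cases hij : i = j
    · subst hij; rw [one_apply_eq, one_apply_eq, map_one]
    · rw [one_apply_ne hij, one_apply_ne hij, map_zero]
  · obtain ⟨L, hL, hL1⟩ := hlev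
    refine ⟨L, hL, fun σ hσ => ?_⟩
    show ((c2 κ).mapMatrix : M2 (ZMod 2) →+* M2 κ) (rbar σ) = 1
    rw [hL1 σ hσ, map_one]
  · intro ℓ hℓ hℓS A hA φ hφ
    have hℓM : ¬ ℓ ∣ M := fun h => hℓS (hMS ℓ hℓ h)
    have hne : ℓ ≠ 2 := fun h => hℓS (h ▸ h2S)
    obtain ⟨h1, h2⟩ := D.charpoly_frob hℓ hℓM hℓS hA hφ
    refine ⟨?_, ?_⟩
    · rw [t₁, t₂, h1]
      have h3 : Cong2 (D.π (heckeAlgebra.T hℓ hℓM hℓS)) (rbar φ).trace :=
        (hsys ℓ hℓ hℓM hℓS A hA φ hφ).map (algebraMap O' D.O)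
      exact (cong2_iff (RingHom.id κ) _ _).mp h3
    · rw [d₁, d₂, h2, map_natCast]
      obtain ⟨m, rfl⟩ := hℓ.odd_of_ne_two hne
      rw [Nat.cast_add, Nat.cast_mul, Nat.cast_ofNat, CharTwo.two_eq_zero, zero_mul, zero_add,
        Nat.cast_one]

variable {D}

/-- the residual representation is absolutely irreducible -/
theorem absIrr {rbar : GQ →* M2 (ZMod 2)}
    (hsurj : ∀ g : M2 (ZMod 2), g.det = 1 → ∃ σ, rbar σ = g)
    (hcong : ∀ σ, Cong2 (D.r σ).trace (rbar σ).trace) : D.ρ.residual.IsAbsolutelyIrreducible := by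
  haveI := charP_residueField D.two
  obtain ⟨g, h, hg, hh, hgg, hhh, ht⟩ := exists_comm_trace
  obtain ⟨σ, hσ⟩ := hsurj g hg
  obtain ⟨τ, hτ⟩ := hsurj h hh
  refine absIrr_of_comm _ σ τ ?_
  have hi1 : rbar σ⁻¹ = g := by
    have h1 : rbar σ * rbar σ⁻¹ = 1 := by rw [← map_mul, mul_inv_cancel, map_one]
    calc rbar σ⁻¹ = (g * g) * rbar σ⁻¹ := by rw [hgg, one_mul]
      _ = g * (rbar σ * rbar σ⁻¹) := by rw [hσ, mul_assoc]
      _ = g := by rw [h1, mul_one]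
  have hi2 : rbar τ⁻¹ = h := by
    have h1 : rbar τ * rbar τ⁻¹ = 1 := by rw [← map_mul, mul_inv_cancel, map_one]
    calc rbar τ⁻¹ = (h * h) * rbar τ⁻¹ := by rw [hhh, one_mul]
      _ = h * (rbar τ * rbar τ⁻¹) := by rw [hτ, mul_assoc]
      _ = h := by rw [h1, mul_one]
  have h1 : (rbar (σ * τ * σ⁻¹ * τ⁻¹)).trace = 1 := by
    rw [map_mul, map_mul, map_mul, hσ, hτ, hi1, hi2, ht]
  have h2 := (cong2_iff (RingHom.id _) _ _).mp (hcong (σ * τ * σ⁻¹ * τ⁻¹))
  rw [h1, map_one, RingHom.id_apply] at h2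
  have h3 := hasMat_trace D.mat.residual (σ * τ * σ⁻¹ * τ⁻¹)
  rw [h3, trace_fin_two, map_apply, map_apply, ← map_add, ← trace_fin_two, h2]

/-- a residually nontrivial element is residually nontrivial for `r` -/
theorem not_map_eq_one {rbar : GQ →* M2 (ZMod 2)}
    (hsurj : ∀ g : M2 (ZMod 2), g.det = 1 → ∃ σ, rbar σ = g)
    (hcong : ∀ σ, Cong2 (D.r σ).trace (rbar σ).trace) {σ : GQ} (hσ : rbar σ ≠ 1) :
    (D.r σ).map (residue D.O) ≠ 1 := by
  haveI := charP_residueField D.two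
  intro h1
  obtain ⟨g, hg, hne⟩ := exists_trace_ne hσ (det_rbar rbar σ)
  obtain ⟨τ, rfl⟩ := hsurj g hg
  apply hne
  have h2 := (cong2_iff (RingHom.id _) _ _).mp (hcong (σ * τ))
  have h3 := (cong2_iff (RingHom.id _) _ _).mp (hcong τ)
  rw [RingHom.id_apply] at h2 h3
  have h4 : residue D.O (D.r (σ * τ)).trace = residue D.O (D.r τ).trace := by
    have e : ∀ X : M2 D.O, residue D.O X.trace = (X.map (residue D.O)).trace := fun X => by
      rw [trace_fin_two, trace_fin_two, map_apply, map_apply, map_add]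
    rw [e, e, map_mul, Matrix.map_mul, h1, one_mul]
  rw [h2, h3, map_mul] at h4
  exact (c2 _).injective h4

theorem rho_ne_one {rbar : GQ →* M2 (ZMod 2)}
    (hsurj : ∀ g : M2 (ZMod 2), g.det = 1 → ∃ σ, rbar σ = g)
    (hcong : ∀ σ, Cong2 (D.r σ).trace (rbar σ).trace) {σ : GQ} (hσ : rbar σ ≠ 1) :
    D.ρ.ρ σ ≠ 1 := by
  intro h
  refine D.not_map_eq_one hsurj hcong hσ ?_
  rw [(RTD.hasMat_eq_one_iff D.mat σ).mp h, Matrix.map_one _ (map_zero _) (map_one _)]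

end RepData

end Fermat.Agent.LTF.Fam

end
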