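import Fermat.Agent.LTF.Gal.CurvePt
import Fermat.Agent.LTF.AlphaMain

/-!
# `W[2^n]` is a point of type `(S, Q)` (the input of ALPHA)
-/

set_option autoImplicit false
set_option linter.style.haveILetI false

noncomputable section

namespace Fermat.Agent.LTF.Gal

open IsLocalRing Matrix
open Fermat.Agent.S53norm (GQ M2 HasMat)
open Fermat.Agent.LTF.TwoDiv Fermat.Agent.ECRed Fermat.Agent.Tate

/-- `ℤ/2^n` as an algebra over the `2`-adic integers. -/
@[reducible] def algZMod (n : ℕ) : Algebra ℤ_[2] (ZMod (2 ^ n)) :=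
  (PadicInt.toZModPow (p := 2) n).toAlgebra

lemma finite_algZMod (n : ℕ) : letI := algZMod n; Module.Finite ℤ_[2] (ZMod (2 ^ n)) := by
  letI := algZMod n
  exact Module.Finite.of_surjective (Algebra.linearMap ℤ_[2] (ZMod (2 ^ n))) (toZModPow_surj n)

variable {W : WeierstrassCurve ℤ} {hΔ : (W.map (Int.castRingHom ℚ)).Δ ≠ 0}
  {r : GQ →* M2 ℤ_[2]} {n : ℕ} {Q : Finset ℕ}

/-- The signs used for `W[2^n]`. -/
def curveU (W : WeierstrassCurve ℤ) (n : ℕ) (z : ℕ → ℤ_[2]) : ℕ → ZMod (2 ^ n) := fun v =>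
  open Classical in if v ∈ W.Δ.natAbs.primeFactors then PadicInt.toZModPow (p := 2) n (z v) else 1

/-- **`W[2^n]` is a point of type `(S, Q)`**, `S` the bad primes, `Q` a set of deep primes. -/
theorem prePt_curve (hne : W.Δ ≠ 0) (h2 : (2 : ℤ) ∣ W.Δ)
    (hr : HasMat ((tateRep (W.map (Int.castRingHom ℚ)) hΔ 2).ρ : GQ → _) r)
    {z : ℕ → ℤ_[2]} (hz1 : ∀ v, z v = 1 ∨ z v = -1) (hz : ∀ v ∈ W.Δ.natAbs.primeFactors,
      ∀ A : ValuationSubring (AlgebraicClosure ℚ), A.LiesOverPrime v → StMat v A r (z v))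
    (hQ : ∀ q ∈ Q, q.Prime ∧ q ∉ W.Δ.natAbs.primeFactors ∧
      ∃ A : ValuationSubring (AlgebraicClosure ℚ), A.LiesOverPrime q ∧ ∃ φ : GQ,
        A.IsFrobeniusAt φ q ∧ (r φ).map (PadicInt.toZModPow (p := 2) n) =
          (r complexConjugation).map (PadicInt.toZModPow (p := 2) n))
    [IsLocalRing (ZMod (2 ^ n))] :
    letI := algZMod n
    Alpha.PrePt W.Δ.natAbs.primeFactors Q (redTwo r) (redPow n r) (curveU W n z) := by
  letI := algZMod n
  have hU : ∀ v ∈ W.Δ.natAbs.primeFactors, curveU W n z v = PadicInt.toZModPow (p := 2) n (z v) :=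
    fun v hv => if_pos hv
  have hU' : ∀ v ∈ Q, curveU W n z v = 1 := fun v hv => if_neg (hQ v hv).2.1
  refine ⟨fun m => ?_, ?_, fun σ h => (tr_curve r σ).1 h, fun σ h => (tr_curve r σ).2 h,
    fun σ => det_curve hr n σ, ?_, ?_, ?_⟩
  · obtain ⟨L, hL, h⟩ := lev_curve hr n
    refine ⟨L, hL, fun σ hσ i j => ?_⟩
    rw [h σ hσ, sub_self]
    exact dvd_zero _
  · have h := (mem_max_iff (n := n) (2 : ℤ_[2])).mpr (by rw [map_ofNat]; decide)
    rwa [map_ofNat] at h
  · intro q hq hqS B hB σ hσ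
    exact unr_curve hne h2 hr hq (fun h => hqS (Finset.mem_union_left _ h)) hB hσ
  · exact st_curve' hne h2 hr hz hQ hU (fun v hv => by rw [hU' v hv, one_mul])
  · intro v hv
    by_cases hvS : v ∈ W.Δ.natAbs.primeFactors
    · rw [hU v hvS]
      exact sign_sub_one_mem (hz1 v)
    · rw [hU' v ((Finset.mem_union.mp hv).resolve_left hvS), sub_self]
      exact Ideal.zero_mem _

/-- Packaged form for a good curve: signs `z v = ±1` at the bad primes such that for all `n` and all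
sets `Q` of deep primes modulo `2 ^ n`, `W[2^n]` is a point of type `(S, Q)`. -/
theorem exists_prePt_curve (hW : GoodCurve W)
    (hr : HasMat ((tateRep (W.map (Int.castRingHom ℚ)) hΔ 2).ρ : GQ → _) r) :
    ∃ z : ℕ → ℤ_[2], (∀ v, z v = 1 ∨ z v = -1) ∧ ∀ (n : ℕ) (Q : Finset ℕ),
      (∀ q ∈ Q, q.Prime ∧ q ∉ W.Δ.natAbs.primeFactors ∧
        ∃ A : ValuationSubring (AlgebraicClosure ℚ), A.LiesOverPrime q ∧ ∃ φ : GQ,
          A.IsFrobeniusAt φ q ∧ (r φ).map (PadicInt.toZModPow (p := 2) n) =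
            (r complexConjugation).map (PadicInt.toZModPow (p := 2) n)) →
      ∀ [IsLocalRing (ZMod (2 ^ n))], letI := algZMod n
        Alpha.PrePt W.Δ.natAbs.primeFactors Q (redTwo r) (redPow n r) (curveU W n z) := by
  obtain ⟨z, hz1, hz⟩ := exists_signs hW.ss hW.neg.ne hr
  refine ⟨z, hz1, fun n Q hQ => ?_⟩
  intro _
  exact prePt_curve hW.neg.ne hW.two hr hz1 hz hQ

end Fermat.Agent.LTF.Gal
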