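import Fermat.Agent.LTF.Gal.Family
import Fermat.Agent.LTF.Gal.PrePtCurve
import Fermat.Agent.LTF.AlphaOut
import Fermat.Agent.LTF.Beta5
import Fermat.Agent.LTF.Loc2T

/-!
# Family + [ALPHA] + [BETA]: the start element
-/

set_option autoImplicit false
set_option linter.style.haveILetI false

noncomputable section

namespace Fermat.Agent.LTF.Fam

open IsLocalRing Matrix CuspForm CongruenceSubgroup ModularFormClass FermatAgent.HeckeEigen
open ModularCurve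
open Fermat.Agent.S53norm (GQ M2 HasMat)
open Fermat.Agent.S29aux (eigenChar eigenChar_apply heckeAlgebra_apply_eq)
open Fermat.Agent.GalRep (HeckeAlgS evS genS HasFrobCharpoly)
open Fermat.Agent.LTF.Alpha (PrePt)

/-- The local input at `2`. -/
theorem loc2Prop : Loc2Prop := by
  intro m _ hm S h2S hNS O _ _ _ _ h2 π ρ hfrob habs hnew hram
  exact Loc2T.loc2_new hm h2S hNS h2 hfrob habs hnew hram

lemma evS_X' (M : ℕ) [NeZero M] (S : Set ℕ) (ℓ : {ℓ : Nat.Primes // (ℓ : ℕ) ∉ S}) :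
    evS M S (MvPolynomial.X ℓ) = genS M S ℓ := by
  rw [evS, MvPolynomial.aeval_X]

namespace Points

variable {S Q : Finset ℕ} {rbar : GQ →* M2 (ZMod 2)} {M : ℕ} [NeZero M] {ι : Type}
  {f : ι → CuspForm (Gamma0 M) 2} {hfe : ∀ i, (f i).IsNormalizedEigenform}
  (P : Points S Q rbar fun i => eigenChar (hfe i) (↑(S ∪ Q) : Set ℕ))

/-- the kernel of the `2`-adic character -/
lemma χ_eq_zero_iff (i : ι) (t : heckeAlgebra M 2 (↑(S ∪ Q) : Set ℕ)) :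
    P.χ i t = 0 ↔ (t : Module.End ℂ (CuspForm (Gamma0 M) 2)) (f i) = 0 := by
  have h1 : P.χ i t = 0 ↔ eigenChar (hfe i) (↑(S ∪ Q) : Set ℕ) t = 0 := by
    rw [← map_eq_zero_iff (P.j i) (P.j_inj i), P.χ_spec, map_eq_zero_iff P.ε P.ε_inj,
      ← map_eq_zero_iff P.inclR P.inclR_inj, P.val_spec]
  rw [h1, eigenChar_apply]
  constructor
  · intro h
    rw [heckeAlgebra_apply_eq (hfe i) _ t.2, h, zero_smul]
  · intro h
    rw [h, qCoeff_zero]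

variable [Fintype ι]

/-- **The rank bound.** -/
theorem finrank_range_le (hres : Gal.ResData S rbar) {b : ℕ} (hUB : Gal.UpperBound S Q rbar b)
    (hMS : ∀ q : ℕ, q.Prime → q ∣ M → q ∈ S ∪ Q) :
    Module.finrank ℤ_[2] (MvPolynomial.aeval
      (fun (ℓ : {ℓ : Nat.Primes // (ℓ : ℕ) ∉ (↑(S ∪ Q) : Set ℕ)}) (i : ι) =>
        P.χ i (evS M (↑(S ∪ Q) : Set ℕ) (MvPolynomial.X ℓ))) :
      MvPolynomial {ℓ : Nat.Primes // (ℓ : ℕ) ∉ (↑(S ∪ Q) : Set ℕ)} ℤ_[2] →ₐ[ℤ_[2]]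
        (∀ i, P.O i)).range ≤ b := by
  refine Alpha.finrank_le_of_le hres hUB P.pt _ ?_
  rw [← Algebra.adjoin_range_eq_range_aeval]
  refine Algebra.adjoin_le ?_
  rintro _ ⟨ℓ, rfl⟩
  obtain ⟨A, hA, σ, hσ⟩ := Frob.exists_frobenius (ℓ.1 : ℕ) ℓ.1.2
  refine Algebra.subset_adjoin (Or.inl ⟨σ, ?_⟩)
  funext i
  show P.χ i (evS M (↑(S ∪ Q) : Set ℕ) (MvPolynomial.X ℓ)) = (P.ρ i σ).trace
  rw [evS_X']
  exact (P.trace_frob_gen hMS i ℓ hA hσ).symm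

include P in
/-- the number of members of the family -/
theorem card_le (hres : Gal.ResData S rbar) {b : ℕ} (hUB : Gal.UpperBound S Q rbar b)
    (hMS : ∀ q : ℕ, q.Prime → q ∣ M → q ∈ S ∪ Q) (hnf : ∀ i, (f i).IsNewform)
    (hinj : Function.Injective f) : Fintype.card ι ≤ b :=
  Alpha.card_family_le hres hUB P.pt (fun i => P.j i)
    (fun i i' h _ => P.hdist hMS hnf hinj i i' h)

end Points

variable {S Q : Finset ℕ} {rbar : GQ →* M2 (ZMod 2)} {s : ℕ → ZMod 2} {M : ℕ} [NeZero M]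
  {ι : Type} [Fintype ι] {f : ι → CuspForm (Gamma0 M) 2} {k : Type} [Field k] [CharP k 2]
  {ψ : integralClosure ℤ ℂ →+* k}

/-- **The start element of type `(S, Q)`.** -/
theorem exists_start (hres : Gal.ResData S rbar) (hf : IsFamily S Q s f ψ)
    (hrig : Rigid rbar s (S ∪ Q)) {D₀ : ℤ} (hodd : Odd (padicValInt 2 D₀))
    (hfix : ∀ (s : AlgebraicClosure ℚ), s ^ 2 = ((D₀ : ℤ) : AlgebraicClosure ℚ) → ∀ σ : GQ,
      (σ s = s ↔ rbar σ ^ 3 = 1)) {b : ℕ} (hUB : Gal.UpperBound S Q rbar b)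
    (hcard : b ≤ Fintype.card ι) {n : ℕ} (hn : n ≠ 0) [IsLocalRing (ZMod (2 ^ n))]
    {ρ₀ : GQ →* M2 (ZMod (2 ^ n))} {U₀ : ℕ → ZMod (2 ^ n)}
    (h₀ : letI := Gal.algZMod n; PrePt S Q rbar ρ₀ U₀) {a : ℕ → ℤ}
    (ha : ∀ ℓ : ℕ, ℓ.Prime → ℓ ∉ S ∪ Q → ∀ A : ValuationSubring (AlgebraicClosure ℚ),
      A.LiesOverPrime ℓ → ∀ σ : GQ, A.IsFrobeniusAt σ ℓ →
        (ρ₀ σ).trace = ((a ℓ : ℤ) : ZMod (2 ^ n))) :
    ∃ (m : ℕ) (x : JZero M), n ≤ m * (b * b) ∧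
      x ∈ BLR.eigJ M (↑(S ∪ Q) : Set ℕ) a (2 ^ m) ∧ 2 ^ (m - 1) • x ≠ 0 := by
  obtain ⟨hnf, ⟨P⟩⟩ := exists_points hres hf hrig hodd hfix loc2Prop
  have hMS : ∀ q : ℕ, q.Prime → q ∣ M → q ∈ S ∪ Q := fun q hq h => (hf.dvd_iff hq).mp h
  have hle := P.card_le hres hUB hMS hnf hf.inj
  obtain ⟨m, x, hm, hx, hx'⟩ := Beta.exists_start_element (p := 2) (S := (↑(S ∪ Q) : Set ℕ))
    (fun ℓ hℓ hℓM => hMS ℓ hℓ hℓM) (g := f) (fun i => (hf.eig i).ne_zero)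
    (fun i t => ⟨_, heckeAlgebra_apply_eq (hf.eig i) _ t.2⟩) P.χ P.χ_eq_zero_iff (a := a) hn
    (fun F hF => by
      letI := Gal.algZMod n
      haveI := Gal.finite_algZMod n
      have h1 := P.theta hres hUB hcard hMS hnf hf.inj h₀ (a := fun ℓ => ((a ℓ : ℤ) : ZMod (2 ^ n)))
        ha F (fun i => by
          have h2 := hF i
          simp only [evS_X'] at h2
          exact h2)
      exact h1)
    (P.finrank_range_le hres hUB hMS)
  refine ⟨m, x, hm.trans (Nat.mul_le_mul_left m (Nat.mul_le_mul_right b hle)), hx, hx'⟩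

end Fermat.Agent.LTF.Fam

end
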