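import Fermat.Agent.LTF.Gal.Defs
import Fermat.Agent.LTF.QuadInt

/-!
# The imaginary quadratic field `K = ℚ(√-N)` inside `ℚ̄`

`N` is even and squarefree, `s ∈ ℚ̄`, `s² = -N`, `K = ℚ(s)`.
-/

set_option autoImplicit false

noncomputable section

namespace Fermat.Agent.LTF.Gal.KField

open IsLocalRing Matrix NumberField Polynomial
open Fermat.Agent.S53norm (GQ M2)
open Fermat.Agent.LTF.QuadInt (IsQF)

section units

variable {K : Type*} [Field K] [NumberField K] {N : ℕ} {s : 𝓞 K}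

/-- the units of `ℤ[√-N]` are `±1` -/
theorem unit_eq (h : IsQF N s) (u : (𝓞 K)ˣ) : u = 1 ∨ u = -1 := by
  obtain ⟨a, b, hab⟩ := h.exists_coords (u : 𝓞 K)
  obtain ⟨c, d, hcd⟩ := h.exists_coords ((u⁻¹ : (𝓞 K)ˣ) : 𝓞 K)
  have h1 : (u : 𝓞 K) * ((u⁻¹ : (𝓞 K)ˣ) : 𝓞 K) = 1 := u.mul_inv
  rw [hab, hcd] at h1
  have h2 : ((a * c - N * b * d : ℤ) : 𝓞 K) + ((a * d + b * c : ℤ) : 𝓞 K) * s =
      ((1 : ℤ) : 𝓞 K) + ((0 : ℤ) : 𝓞 K) * s := by
    push_cast
    linear_combination h1 - (b : 𝓞 K) * d * h.sq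
  obtain ⟨h3, h4⟩ := h.int_ext _ _ _ _ h2
  have hN2 : (2 : ℤ) ≤ N := by
    obtain ⟨m, hm⟩ := h.even
    have := h.pos
    omega
  have h5 : (a ^ 2 + N * b ^ 2) * (c ^ 2 + N * d ^ 2) = 1 := by
    have : (a ^ 2 + N * b ^ 2) * (c ^ 2 + N * d ^ 2) =
        (a * c - N * b * d) ^ 2 + N * (a * d + b * c) ^ 2 := by ring
    rw [this, h3, h4]
    ring
  have h6 : a ^ 2 + N * b ^ 2 = 1 := by
    have h7 : 0 ≤ a ^ 2 + N * b ^ 2 := by positivity
    exact Int.eq_one_or_neg_one_of_mul_eq_one h5 |>.resolve_right (by omega)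
  have hb : b = 0 := by
    by_contra hb
    have : 1 ≤ b ^ 2 := by
      have := sq_pos_of_ne_zero hb
      omega
    nlinarith [sq_nonneg a]
  subst hb
  have ha : (a - 1) * (a + 1) = 0 := by linarith
  have ha' : a = 1 ∨ a = -1 := by
    rcases mul_eq_zero.mp ha with h8 | h8
    · left; linarith
    · right; linarith
  rcases ha' with rfl | rfl
  · left
    apply Units.ext
    rw [hab]
    simp
  · right
    apply Units.ext
    rw [hab]
    simp

end units

section field

/-- `ℚ̄` -/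
abbrev Qb := AlgebraicClosure ℚ

variable {N : ℕ} {s : Qb}

/-- `ℚ(s)` -/
abbrev KK (s : Qb) : IntermediateField ℚ Qb := IntermediateField.adjoin ℚ {s}

lemma isIntegral_root (hs : s ^ 2 = -(N : Qb)) : IsIntegral ℤ s := by
  refine ⟨X ^ 2 + C (N : ℤ), ?_, ?_⟩
  · monicity!
  · rw [eval₂_add, eval₂_pow, eval₂_X, eval₂_C, hs]
    simp

lemma isIntegral_rat (s : Qb) : IsIntegral ℚ s :=
  ((AlgebraicClosure.isAlgebraic ℚ).isAlgebraic s).isIntegral

instance finiteDimensional_KK (s : Qb) : FiniteDimensional ℚ (KK s) :=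
  IntermediateField.adjoin.finiteDimensional (isIntegral_rat s)

instance numberField_KK (s : Qb) : NumberField (KK s) where
  to_charZero := inferInstance
  to_finiteDimensional := inferInstance

lemma minpoly_root (hN : 0 < N) (hs : s ^ 2 = -(N : Qb)) :
    minpoly ℚ s = X ^ 2 + C (N : ℚ) := by
  have hdeg : (X ^ 2 + C (N : ℚ)).natDegree = 2 := by compute_degree!
  symm
  apply minpoly.eq_of_irreducible_of_monic
  · apply (Polynomial.irreducible_iff_roots_eq_zero_of_degree_le_three hdeg.ge (by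
      rw [hdeg]; norm_num)).mpr
    rw [Multiset.eq_zero_iff_forall_notMem]
    intro r hr
    have h1 := (Polynomial.mem_roots'.mp hr).2
    simp only [IsRoot.def, eval_add, eval_pow, eval_X, eval_C] at h1
    have h2 : (0 : ℚ) < N := by exact_mod_cast hN
    nlinarith [sq_nonneg r]
  · simp [hs]
  · monicity!

theorem finrank_KK (hN : 0 < N) (hs : s ^ 2 = -(N : Qb)) : Module.finrank ℚ (KK s) = 2 := by
  rw [IntermediateField.adjoin.finrank (isIntegral_rat s), minpoly_root hN hs]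
  compute_degree!

/-- `s` as an algebraic integer of `K` -/
def sO (hs : s ^ 2 = -(N : Qb)) : 𝓞 (KK s) :=
  ⟨⟨s, IntermediateField.mem_adjoin_simple_self ℚ s⟩, by
    rw [mem_integralClosure_iff]
    have h : IsIntegral ℤ (algebraMap (KK s) Qb
        ⟨s, IntermediateField.mem_adjoin_simple_self ℚ s⟩) := isIntegral_root hs
    exact (isIntegral_algebraMap_iff (algebraMap (KK s) Qb).injective).mp h⟩

lemma coe_sO (hs : s ^ 2 = -(N : Qb)) : (((sO hs : 𝓞 (KK s)) : KK s) : Qb) = s := rfl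

theorem isQF (hN : Squarefree N) (hN2 : 2 ∣ N) (hs : s ^ 2 = -(N : Qb)) : IsQF N (sO hs) where
  sq := by
    apply RingOfIntegers.coe_injective
    apply Subtype.ext
    push_cast
    exact hs
  deg := finrank_KK (Nat.pos_of_ne_zero hN.ne_zero) hs
  sqf := hN
  even := hN2

theorem isTotallyComplex (hN : 0 < N) (hs : s ^ 2 = -(N : Qb)) : IsTotallyComplex (KK s) := by
  refine ⟨fun v => ?_⟩
  rw [← InfinitePlace.not_isReal_iff_isComplex]
  rintro ⟨φ, hφ, -⟩
  have h1 := RingHom.congr_fun hφ (⟨s, IntermediateField.mem_adjoin_simple_self ℚ s⟩ : KK s)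
  rw [ComplexEmbedding.conjugate_coe_eq] at h1
  obtain ⟨r, hr⟩ := Complex.conj_eq_iff_real.mp h1
  have h2 : (φ ⟨s, IntermediateField.mem_adjoin_simple_self ℚ s⟩) ^ 2 = -(N : ℂ) := by
    rw [← map_pow]
    have : (⟨s, IntermediateField.mem_adjoin_simple_self ℚ s⟩ : KK s) ^ 2 = -(N : KK s) :=
      Subtype.ext hs
    rw [this, map_neg, map_natCast]
  rw [hr] at h2
  have h3 : r ^ 2 = -(N : ℝ) := by exact_mod_cast h2
  have h4 : (0 : ℝ) < N := by exact_mod_cast hN
  nlinarith [sq_nonneg r]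

/-- the units of `𝓞 (ℚ(√-N))` are `±1` -/
theorem unit_eq_KK (hN : Squarefree N) (hN2 : 2 ∣ N) (hs : s ^ 2 = -(N : Qb))
    (u : (𝓞 (KK s))ˣ) : u = 1 ∨ u = -1 := unit_eq (isQF hN hN2 hs) u

lemma mem_fixing_iff (s : Qb) (σ : GQ) : σ ∈ (KK s).fixingSubgroup ↔ σ s = s := by
  rw [IntermediateField.mem_fixingSubgroup_iff]
  refine ⟨fun h1 => h1 s (IntermediateField.mem_adjoin_simple_self ℚ s), fun h1 x hx => ?_⟩
  have h2 : KK s ≤ IntermediateField.fixedField (Subgroup.zpowers σ) := by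
    rw [IntermediateField.adjoin_simple_le_iff, IntermediateField.mem_fixedField_iff]
    intro f hf
    obtain ⟨n, rfl⟩ := Subgroup.mem_zpowers_iff.mp hf
    have h4 : σ ∈ MulAction.stabilizer GQ s := h1
    exact (MulAction.stabilizer GQ s).zpow_mem h4 n
  exact (IntermediateField.mem_fixedField_iff _ _).mp (h2 hx) σ (Subgroup.mem_zpowers σ)

/-- `σ s = ± s` -/
lemma apply_root (hs : s ^ 2 = -(N : Qb)) (σ : GQ) : σ s = s ∨ σ s = -s := by
  have h : (σ s) ^ 2 = s ^ 2 := by rw [← map_pow, hs, map_neg, map_natCast]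
  exact sq_eq_sq_iff_eq_or_eq_neg.mp h

lemma root_mem {A : ValuationSubring Qb} (hs : s ^ 2 = -(N : Qb)) : s ∈ A := by
  have h : s ^ 2 ∈ A := by rw [hs]; exact neg_mem (natCast_mem A N)
  exact (A.valuation_le_one_iff s).mp (by
    have h1 := (A.valuation_le_one_iff _).mpr h
    rw [map_pow] at h1
    exact (pow_le_one_iff two_ne_zero).mp h1)

/-- **(K3)** a Frobenius element at `q ∤ 2N` fixes `√-N` iff `-N` is a square modulo `q`. -/
theorem frob_iff_isSquare (hs : s ^ 2 = -(N : Qb)) {q : ℕ} (hq : q.Prime) (hq2 : q ≠ 2)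
    (hqN : ¬ q ∣ N) {A : ValuationSubring Qb} (hA : A.LiesOverPrime q) {φ : GQ}
    (hφ : A.IsFrobeniusAt φ q) : φ s = s ↔ IsSquare (-(N : ZMod q)) := by
  have hfact : Fact q.Prime := ⟨hq⟩
  have hchar : CharP (ResidueField A) q := FlatP.charP_residueField hq hA
  have hsA : s ∈ A := root_mem hs
  have hNA : (N : Qb) ∈ A := natCast_mem A N
  have h1 : FlatP.rs A s ^ 2 = -(N : ResidueField A) := by
    have h2 : s ^ 2 = 0 - (N : Qb) := by rw [hs, zero_sub]
    rw [← FlatP.rs_pow hsA, h2, FlatP.rs_sub (zero_mem A) hNA, FlatP.rs_zero, FlatP.rs_natCast,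
      zero_sub]
  have h2 : FlatP.rs A (φ s) = FlatP.rs A s ^ q := FlatP.rs_frob hφ hsA
  have hcast : ∀ z : ZMod q, ZMod.castHom (dvd_refl q) (ResidueField A) z = 0 → z = 0 :=
    fun z hz => (injective_iff_map_eq_zero _).mp
      (ZMod.castHom (dvd_refl q) (ResidueField A)).injective z hz
  constructor
  · intro h
    rw [h] at h2
    obtain ⟨n, hn⟩ := Fermat.Agent.LTF.exists_natCast_of_pow_eq hq h2.symm
    refine ⟨(n : ZMod q), ?_⟩
    rw [← sub_eq_zero]
    apply hcast
    rw [map_sub, map_neg, map_mul, map_natCast, map_natCast, ← h1, hn]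
    ring
  · rintro ⟨a, ha⟩
    rcases apply_root hs φ with h | h
    · exact h
    · exfalso
      set b := ZMod.castHom (dvd_refl q) (ResidueField A) a with hb
      have h3 : -(N : ResidueField A) = b * b := by
        have h4 := congrArg (ZMod.castHom (dvd_refl q) (ResidueField A)) ha
        rwa [map_neg, map_natCast, map_mul] at h4
      have hbq : b ^ q = b := by
        rw [hb, ← map_pow, ZMod.pow_card]
      have h5 : FlatP.rs A s = b ∨ FlatP.rs A s = -b := by
        rw [h3, ← sq] at h1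
        exact sq_eq_sq_iff_eq_or_eq_neg.mp h1
      have h6 : FlatP.rs A s ^ q = FlatP.rs A s := by
        rcases h5 with h5 | h5
        · rw [h5, hbq]
        · rw [h5, Odd.neg_pow (hq.odd_of_ne_two hq2), hbq]
      have h7 : FlatP.rs A (φ s) = -FlatP.rs A s := by
        rw [h]
        have h8 : -s = 0 - s := by ring
        rw [h8, FlatP.rs_sub (zero_mem A) hsA, FlatP.rs_zero, zero_sub]
      rw [h7, h6] at h2
      have h9 : (2 : ResidueField A) * FlatP.rs A s = 0 := by linear_combination -h2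
      have h2ne : (2 : ResidueField A) ≠ 0 := by
        intro h0
        have h10 : ((2 : ℕ) : ResidueField A) = 0 := by exact_mod_cast h0
        rw [CharP.cast_eq_zero_iff (ResidueField A) q] at h10
        exact hq2 ((Nat.prime_dvd_prime_iff_eq hq Nat.prime_two).mp h10)
      have h11 := (mul_eq_zero.mp h9).resolve_left h2ne
      rw [h11] at h1
      have h12 : ((N : ℕ) : ResidueField A) = 0 := by
        have : (0 : ResidueField A) = -(N : ResidueField A) := by
          rw [← h1]; ring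
        exact neg_eq_zero.mp this.symm
      rw [CharP.cast_eq_zero_iff (ResidueField A) q] at h12
      exact hqN h12

end field

section res

variable {S : Finset ℕ} {rbar : GQ →* M2 (ZMod 2)}

lemma det_rbar (rbar : GQ →* M2 (ZMod 2)) (σ : GQ) : (rbar σ).det = 1 := by
  have h : (rbar σ).det * (rbar σ⁻¹).det = 1 := by
    rw [← Matrix.det_mul, ← map_mul, mul_inv_cancel, map_one, Matrix.det_one]
  generalize (rbar σ).det = a at h ⊢
  generalize (rbar σ⁻¹).det = b at h
  revert a b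
  decide

lemma cube_iff (M : M2 (ZMod 2)) (h : M.det = 1) : M ^ 3 = 1 ↔ ¬ (M * M = 1 ∧ M ≠ 1) := by
  revert M
  decide

lemma trace_zero_iff (M : M2 (ZMod 2)) (h : M.det = 1) : M.trace = 0 ↔ M * M = 1 := by
  revert M
  decide

lemma trace_of_not_cube (M : M2 (ZMod 2)) (h : M.det = 1) (h3 : M ^ 3 ≠ 1) : M.trace = 0 := by
  revert M
  decide

lemma involution_eq (M M' : M2 (ZMod 2)) (h : M.det = 1) (h' : M'.det = 1) (hM : M ≠ 1)
    (hM' : M' ≠ 1) (hc : (M - 1) * (M' - 1) = 0) : M = M' := by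
  revert M M'
  decide

lemma mul_self_of_comm (M : M2 (ZMod 2)) (hc : (M - 1) * (M - 1) = 0) : M * M = 1 := by
  revert M
  decide

/-- **(K4)** at a bad prime the decomposition group contains an element of `G_K` of unramified
degree one. -/
theorem exists_deg_one (h : ResData S rbar) {v : ℕ} (hv : v ∈ S)
    {A : ValuationSubring (AlgebraicClosure ℚ)} (hA : A.LiesOverPrime v) :
    ∃ g ∈ A.decompositionSubgroup ℚ, rbar g = 1 ∧ unrDeg v g = 1 := by
  obtain ⟨φ, hφ⟩ := Fermat.Agent.Frob.exists_isFrobeniusAt (h.primes v hv) hA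
  by_cases h1 : rbar φ = 1
  · exact ⟨φ, hφ.1, h1, unrDeg_frob (h.primes v hv) hA hφ⟩
  · obtain ⟨τ, hτ, hτ1⟩ := h.ram v hv A hA
    have hτD := Fermat.Agent.TW.inertia_le_decomp hτ
    refine ⟨φ * τ, mul_mem hφ.1 hτD, ?_, ?_⟩
    · have h2 := involution_eq _ _ (det_rbar rbar φ) (det_rbar rbar τ) h1 hτ1
        (h.comm v hv A hA φ hφ.1 τ hτD)
      rw [map_mul, h2]
      exact mul_self_of_comm _ (h.comm v hv A hA τ hτD τ hτD)
    · have h3 := pow_unrDeg_mul (R := ℤ) (U := -1) (by norm_num) (h.primes v hv) hA hφ.1 hτD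
      rw [unrDeg_inertia (h.primes v hv) hA hτ, unrDeg_frob (h.primes v hv) hA hφ] at h3
      rcases unrDeg_eq_zero_or_one v (φ * τ) with h4 | h4
      · rw [h4] at h3; norm_num at h3
      · exact h4

end res

end Fermat.Agent.LTF.Gal.KField

end
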