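import Fermat.Agent.LTF.Gal.KField
import Fermat.Agent.LTF.Gal.TwoDivGal

/-!
# The field `K = ℚ(√-N)` of a good curve and `W[2]`
-/

set_option autoImplicit false

noncomputable section

namespace Fermat.Agent.LTF.Gal.KField

open Fermat.Agent.S53norm (GQ M2 HasMat)
open Fermat.Agent.LTF.TwoDiv NumberField

variable {W : WeierstrassCurve ℤ} {rbar : GQ →* M2 (ZMod 2)}

lemma exists_root (N : ℕ) : ∃ s : Qb, s ^ 2 = -(N : Qb) := IsAlgClosed.exists_pow_nat_eq _ two_pos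

lemma two_dvd_level (hW : GoodCurve W) : 2 ∣ W.conductorLevel :=
  (W.prime_dvd_conductorLevel_iff hW.neg.ne Nat.prime_two).mpr hW.two

/-- `𝓞 (ℚ(√-N)) = ℤ[√-N]`, `N` = conductor of a good curve. -/
theorem isQF_of_goodCurve (hW : GoodCurve W) {s : Qb}
    (hs : s ^ 2 = -(W.conductorLevel : Qb)) : QuadInt.IsQF W.conductorLevel (sO hs) :=
  isQF W.squarefree_conductorLevel (two_dvd_level hW) hs

theorem frob_cube_iff_isSquare (hW : GoodCurve W) (h : TwoMat W rbar) {q : ℕ} (hq : q.Prime)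
    (hq2 : q ≠ 2) (hqN : ¬ q ∣ W.conductorLevel) {A : ValuationSubring Qb}
    (hA : A.LiesOverPrime q) {φ : GQ} (hφ : A.IsFrobeniusAt φ q) :
    rbar φ ^ 3 = 1 ↔ IsSquare (-(W.conductorLevel : ZMod q)) := by
  obtain ⟨s, hs⟩ := exists_root W.conductorLevel
  rw [← fix_sqrt_iff hW h hs φ]
  exact frob_iff_isSquare hs hq hq2 hqN hA hφ

/-- the primes whose Frobenius is an involution in `W[2]` are inert in `K`. -/
theorem not_isSquare_of_involution (hW : GoodCurve W) (h : TwoMat W rbar) {q : ℕ} (hq : q.Prime)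
    (hq2 : q ≠ 2) (hqN : ¬ q ∣ W.conductorLevel) {A : ValuationSubring Qb}
    (hA : A.LiesOverPrime q) {φ : GQ} (hφ : A.IsFrobeniusAt φ q) (h1 : rbar φ ≠ 1)
    (h2 : rbar φ * rbar φ = 1) : ¬ IsSquare (-(W.conductorLevel : ZMod q)) := by
  rw [← frob_cube_iff_isSquare hW h hq hq2 hqN hA hφ, cube_iff _ (det_rbar rbar φ)]
  exact not_not_intro ⟨h2, h1⟩

/-- version at all places: a prime `q` not dividing `2N` is inert in `K` iff the Frobenius
elements are involutions in `W[2]`. -/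
theorem not_isSquare_iff (hW : GoodCurve W) (h : TwoMat W rbar) {q : ℕ} (hq : q.Prime)
    (hq2 : q ≠ 2) (hqN : ¬ q ∣ W.conductorLevel) {A : ValuationSubring Qb}
    (hA : A.LiesOverPrime q) {φ : GQ} (hφ : A.IsFrobeniusAt φ q) :
    ¬ IsSquare (-(W.conductorLevel : ZMod q)) ↔ rbar φ * rbar φ = 1 ∧ rbar φ ≠ 1 := by
  rw [← frob_cube_iff_isSquare hW h hq hq2 hqN hA hφ, cube_iff _ (det_rbar rbar φ), not_not]

/-- inert primes have Frobenius trace zero -/
theorem trace_eq_zero_of_inert (hW : GoodCurve W) (h : TwoMat W rbar) {q : ℕ} (hq : q.Prime)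
    (hq2 : q ≠ 2) (hqN : ¬ q ∣ W.conductorLevel)
    (hns : ¬ IsSquare (-(W.conductorLevel : ZMod q))) {A : ValuationSubring Qb}
    (hA : A.LiesOverPrime q) {φ : GQ} (hφ : A.IsFrobeniusAt φ q) : (rbar φ).trace = 0 := by
  have h1 := (not_isSquare_iff hW h hq hq2 hqN hA hφ).mp hns
  exact (trace_zero_iff _ (det_rbar rbar φ)).mpr h1.1

end Fermat.Agent.LTF.Gal.KField

end
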