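import Mathlib
import Fermat.Prelude.Def_WeierstrassCurve_ConductorLevel

/-!
# LTFREE: bookkeeping for the level `N * ∏ q ∈ Q, q` and the sets of primes `S`, `Q`
-/

set_option autoImplicit false

namespace Fermat.Agent.LTF.LevelSet

open Finset

/-- the auxiliary part of the level -/
def aux (Q : Finset ℕ) : ℕ := ∏ q ∈ Q, q

lemma aux_empty : aux ∅ = 1 := prod_empty

lemma aux_insert {Q : Finset ℕ} {q : ℕ} (hq : q ∉ Q) : aux (insert q Q) = q * aux Q :=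
  prod_insert hq

lemma aux_ne_zero {Q : Finset ℕ} (hQ : ∀ q ∈ Q, q.Prime) : aux Q ≠ 0 :=
  prod_ne_zero_iff.mpr fun q hq => (hQ q hq).ne_zero

lemma aux_pos {Q : Finset ℕ} (hQ : ∀ q ∈ Q, q.Prime) : 0 < aux Q :=
  Nat.pos_of_ne_zero (aux_ne_zero hQ)

lemma prime_dvd_aux_iff {Q : Finset ℕ} (hQ : ∀ q ∈ Q, q.Prime) {v : ℕ} (hv : v.Prime) :
    v ∣ aux Q ↔ v ∈ Q := by
  constructor
  · intro h
    obtain ⟨q, hq, hvq⟩ := (Nat.Prime.prime hv).exists_mem_finset_dvd h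
    rwa [(Nat.prime_dvd_prime_iff_eq hv (hQ q hq)).mp hvq]
  · intro h
    exact dvd_prod_of_mem _ h

lemma primeFactors_aux {Q : Finset ℕ} (hQ : ∀ q ∈ Q, q.Prime) : (aux Q).primeFactors = Q := by
  ext v
  rw [Nat.mem_primeFactors_of_ne_zero (aux_ne_zero hQ)]
  constructor
  · rintro ⟨hv, h⟩
    exact (prime_dvd_aux_iff hQ hv).mp h
  · intro h
    exact ⟨hQ v h, (prime_dvd_aux_iff hQ (hQ v h)).mpr h⟩

lemma coprime_aux {Q : Finset ℕ} {N : ℕ} (hQ : ∀ q ∈ Q, q.Prime) (hN : ∀ q ∈ Q, ¬ q ∣ N) :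
    Nat.Coprime N (aux Q) :=
  Nat.Coprime.prod_right fun q hq =>
    ((Nat.Prime.coprime_iff_not_dvd (hQ q hq)).mpr (hN q hq)).symm

lemma squarefree_aux {Q : Finset ℕ} (hQ : ∀ q ∈ Q, q.Prime) : Squarefree (aux Q) := by
  classical
  induction Q using Finset.induction_on with
  | empty => rw [aux_empty]; exact squarefree_one
  | insert q Q hq ih =>
    rw [aux_insert hq]
    have h1 : ∀ r ∈ Q, r.Prime := fun r hr => hQ r (mem_insert_of_mem hr)
    have hqp := hQ q (mem_insert_self q Q)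
    refine (Nat.squarefree_mul ?_).mpr ⟨hqp.squarefree, ih h1⟩
    rw [Nat.Prime.coprime_iff_not_dvd hqp, prime_dvd_aux_iff h1 hqp]
    exact hq

lemma squarefree_mul_aux {Q : Finset ℕ} {N : ℕ} (hN0 : Squarefree N) (hQ : ∀ q ∈ Q, q.Prime)
    (hN : ∀ q ∈ Q, ¬ q ∣ N) : Squarefree (N * aux Q) :=
  (Nat.squarefree_mul (coprime_aux hQ hN)).mpr ⟨hN0, squarefree_aux hQ⟩

lemma primeFactors_mul_aux {Q : Finset ℕ} {N : ℕ} (hN0 : N ≠ 0) (hQ : ∀ q ∈ Q, q.Prime) :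
    (N * aux Q).primeFactors = N.primeFactors ∪ Q := by
  rw [Nat.primeFactors_mul hN0 (aux_ne_zero hQ), primeFactors_aux hQ]

lemma prime_dvd_mul_aux_iff {Q : Finset ℕ} {N : ℕ} (hN0 : N ≠ 0) (hQ : ∀ q ∈ Q, q.Prime) {v : ℕ}
    (hv : v.Prime) : v ∣ N * aux Q ↔ v ∈ N.primeFactors ∪ Q := by
  rw [← primeFactors_mul_aux hN0 hQ,
    Nat.mem_primeFactors_of_ne_zero (mul_ne_zero hN0 (aux_ne_zero hQ))]
  exact ⟨fun h => ⟨hv, h⟩, fun h => h.2⟩

/-- The order of the factors is the one of `JZero (M * q)`. -/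
lemma mul_aux_insert {Q : Finset ℕ} {N q : ℕ} (hq : q ∉ Q) :
    N * aux (insert q Q) = N * aux Q * q := by
  rw [aux_insert hq]; ring

section Curve

variable {W : WeierstrassCurve ℤ}

lemma primeFactors_conductorLevel (hΔ : W.Δ ≠ 0) :
    W.conductorLevel.primeFactors = W.Δ.natAbs.primeFactors := by
  ext v
  rw [Nat.mem_primeFactors_of_ne_zero W.conductorLevel_pos.ne',
    Nat.mem_primeFactors_of_ne_zero (Int.natAbs_ne_zero.mpr hΔ)]
  constructor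
  · rintro ⟨hv, h⟩
    exact ⟨hv, Int.natCast_dvd.mp ((W.prime_dvd_conductorLevel_iff hΔ hv).mp h)⟩
  · rintro ⟨hv, h⟩
    exact ⟨hv, (W.prime_dvd_conductorLevel_iff hΔ hv).mpr (Int.natCast_dvd.mpr h)⟩

/-- The primes of the level `N * ∏ Q` are `S ∪ Q`, `S` the set of bad primes. -/
lemma primeFactors_level (hΔ : W.Δ ≠ 0) {Q : Finset ℕ} (hQ : ∀ q ∈ Q, q.Prime) :
    (W.conductorLevel * aux Q).primeFactors = W.Δ.natAbs.primeFactors ∪ Q := by
  rw [primeFactors_mul_aux W.conductorLevel_pos.ne' hQ, primeFactors_conductorLevel hΔ]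

lemma not_dvd_conductorLevel (hΔ : W.Δ ≠ 0) {q : ℕ} (hq : q.Prime)
    (h : q ∉ W.Δ.natAbs.primeFactors) : ¬ q ∣ W.conductorLevel := fun hd =>
  h (by
    rw [← primeFactors_conductorLevel hΔ, Nat.mem_primeFactors_of_ne_zero
      W.conductorLevel_pos.ne']
    exact ⟨hq, hd⟩)

lemma squarefree_level (hΔ : W.Δ ≠ 0) {Q : Finset ℕ} (hQ : ∀ q ∈ Q, q.Prime)
    (hQS : ∀ q ∈ Q, q ∉ W.Δ.natAbs.primeFactors) : Squarefree (W.conductorLevel * aux Q) :=
  squarefree_mul_aux W.squarefree_conductorLevel hQ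
    fun q hq => not_dvd_conductorLevel hΔ (hQ q hq) (hQS q hq)

end Curve

end Fermat.Agent.LTF.LevelSet
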