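import Fermat.Agent.LTF.Gal.Defs
import Fermat.Agent.LTF.Gal.ArtUse
import Fermat.Agent.LTF.DihFinal
import Fermat.Agent.Frob.Exists
import Fermat.Agent.TW.InertiaField

/-!
# LTFREE, Galois side: the upper bound for the deformations of type `(S, Q)`

`SelZero S Q rbar` (no Selmer class with values in `V`) and `ArtGrp K h` (unramified Artin
reciprocity, `2`-part) give `UpperBound S Q rbar (h * 2 ^ |Q|)`.
-/

set_option autoImplicit false

noncomputable section

namespace Fermat.Agent.LTF.Gal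

open IsLocalRing Matrix
open Fermat.Agent.S53norm (GQ M2)
open Fermat.Agent.LTF (StMat unrDeg)

/-- The vanishing of the Selmer group of `V = 𝔽₂²` for `(S, Q)`: every smooth cocycle, unramified
outside `S ∪ Q`, and with `e(D) ⊆ V^D` at all places above `S ∪ Q`, is a coboundary. -/
def SelZero (S Q : Finset ℕ) (rbar : GQ →* M2 (ZMod 2)) : Prop :=
  ∀ e : GQ → (Fin 2 → ZMod 2),
    (∃ L : IntermediateField ℚ (AlgebraicClosure ℚ), FiniteDimensional ℚ L ∧
      ∀ σ : GQ, (∀ x ∈ L, σ x = x) → e σ = 0) →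
    (∀ g h, e (g * h) = e g + rbar g *ᵥ e h) →
    (∀ q : ℕ, q.Prime → q ∉ S ∪ Q → ∀ A : ValuationSubring (AlgebraicClosure ℚ),
      A.LiesOverPrime q → ∀ σ ∈ A.inertiaSubgroupIn ℚ, e σ = 0) →
    (∀ v ∈ S ∪ Q, ∀ A : ValuationSubring (AlgebraicClosure ℚ), A.LiesOverPrime v →
      ∀ g ∈ A.decompositionSubgroup ℚ, ∀ h ∈ A.decompositionSubgroup ℚ,
        rbar h *ᵥ e g = e g) →
    ∃ x, ∀ g, e g = rbar g *ᵥ x - x

/-- `Q` is a set of auxiliary primes. -/
structure AuxSet (S Q : Finset ℕ) (rbar : GQ →* M2 (ZMod 2)) : Prop where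
  prime : ∀ q ∈ Q, q.Prime
  notMem : ∀ q ∈ Q, q ∉ S
  /-- the decomposition groups act non-trivially -/
  ne_one : ∀ q ∈ Q, ∀ A : ValuationSubring (AlgebraicClosure ℚ), A.LiesOverPrime q →
    ∃ g ∈ A.decompositionSubgroup ℚ, rbar g ≠ 1

lemma eq_of_steinberg_residual : ∀ a b : M2 (ZMod 2), (a - 1) * (a - 1) = 0 →
    (b - 1) * (b - 1) = 0 → (a - 1) * (b - 1) = 0 → (b - 1) * (a - 1) = 0 → a ≠ 1 → b ≠ 1 →
    a * b = 1 := by
  decide

lemma eq_zero_of_pow_eq_zero' {x : ZMod 2} {n : ℕ} (h : x ^ n = 0) : x = 0 := by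
  have : Fact (Nat.Prime 2) := ⟨Nat.prime_two⟩
  exact eq_zero_of_pow_eq_zero h

lemma isLocalHom_red {A : Type} [CommRing A] [Finite A] [IsLocalRing A] (red : A →+* ZMod 2) :
    IsLocalHom red := by
  refine ⟨fun a ha => ?_⟩
  by_contra hna
  have h1 : a ∈ maximalIdeal A := hna
  have h2 : IsNilpotent (maximalIdeal A) := by
    have : IsArtinianRing A := inferInstance
    rw [← IsLocalRing.jacobson_eq_maximalIdeal ⊥ bot_ne_top]
    exact IsArtinianRing.isNilpotent_jacobson_bot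
  obtain ⟨n, hn⟩ := h2
  have h3 : a ^ n = 0 := by
    have h4 := Ideal.pow_mem_pow h1 n
    rw [hn] at h4
    exact h4
  have h5 : (red a) ^ n = 0 := by rw [← map_pow, h3, map_zero]
  have h6 : red a = 0 := eq_zero_of_pow_eq_zero' h5
  rw [h6] at ha
  exact not_isUnit_zero ha

theorem upperBound_of {S Q : Finset ℕ} {rbar : GQ →* M2 (ZMod 2)} (hres : ResData S rbar)
    (haux : AuxSet S Q rbar) (hsel : SelZero S Q rbar)
    {K : IntermediateField ℚ (AlgebraicClosure ℚ)}
    (hK : ∀ σ : GQ, σ ∈ K.fixingSubgroup ↔ rbar σ ^ 3 = 1) {h : ℕ} (hart : ArtGrp K h) :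
    UpperBound S Q rbar (h * 2 ^ Q.card) := by
  classical
  intro A _ _ _ _ red ρ U hpt hdet hgen
  have hloc : IsLocalHom red := isLocalHom_red red
  let ι := {p : ℕ × ValuationSubring (AlgebraicClosure ℚ) // p.1 ∈ S ∪ Q ∧ p.2.LiesOverPrime p.1}
  have hprime : ∀ v ∈ S ∪ Q, v.Prime := fun v hv =>
    (Finset.mem_union.mp hv).elim (hres.primes v) (haux.prime v)
  have hplace : ∀ v ∈ S ∪ Q, ∃ A : ValuationSubring (AlgebraicClosure ℚ), A.LiesOverPrime v := by
    intro v hv
    obtain ⟨B, hB, -⟩ := Fermat.Agent.Frob.exists_frobenius v (hprime v hv)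
    exact ⟨B, hB⟩
  have hUU : ∀ v ∈ S ∪ Q, U v * U v = 1 := by
    intro v hv
    obtain ⟨B, hB⟩ := hplace v hv
    exact (hpt.st v hv B hB).1
  have hmap : ∀ g, (ρ g).map red = rbar g := hpt.red
  have key := Dih.card_le (r := red) (G := GQ) ρ hdet (ι := ι) (κ := {q // q ∈ Q})
    (by
      obtain ⟨g, hg⟩ := hres.surj !![0, 1; 1, 1] (by decide)
      refine ⟨g, ?_⟩
      rw [hmap, hg]
      decide)
    (fun i => i.1.2.decompositionSubgroup ℚ) (fun i g => U i.1.1 ^ unrDeg i.1.1 g)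
    (fun i g _ => by rw [← mul_pow, hUU _ i.2.1, one_pow])
    (fun i g hg g' hg' => by
      have h1 := (hpt.st i.1.1 i.2.1 i.1.2 i.2.2).2 g hg g' hg'
      rw [hdet, one_mul] at h1
      rw [← h1, Matrix.smul_one_eq_diagonal, Matrix.smul_one_eq_diagonal]
      rfl)
    (fun i => by
      rcases Finset.mem_union.mp i.2.1 with hv | hv
      · obtain ⟨σ, hσ, h1⟩ := hres.ram _ hv _ i.2.2
        exact ⟨σ, TW.inertia_le_decomp hσ, by rw [hmap]; exact h1⟩
      · obtain ⟨g, hg, h1⟩ := haux.ne_one _ hv _ i.2.2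
        exact ⟨g, hg, by rw [hmap]; exact h1⟩)
    (fun e he he1 he2 => by
      obtain ⟨x, hx⟩ := hsel e
        (by
          obtain ⟨L, hL, h1⟩ := hpt.lev
          exact ⟨L, hL, fun σ hσ => he1 σ (h1 σ hσ)⟩)
        (fun g g' => by rw [he, hmap])
        (fun q hq hqS B hB σ hσ => he1 σ (hpt.unr q hq hqS B hB σ hσ))
        (fun v hv B hB g hg g' hg' => by
          have h1 := he2 ⟨(v, B), hv, hB⟩ g hg g' hg'
          rwa [hmap] at h1)
      exact ⟨x, fun g => by rw [hx g, hmap]⟩)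
    h
    (fun K' N hK' hNK hcomm hpow hker hin => by
      have hKK : K' = K.fixingSubgroup := by
        ext σ
        rw [hK', hK, Dih.K3, Set.mem_ofPred_eq, hmap, pow_succ, pow_two]
      subst hKK
      have hnorm : ∀ g ∈ K.fixingSubgroup, ∀ x ∈ N, g * x * g⁻¹ ∈ N := by
        intro g hg x hx
        have h1 := N.mul_mem (hcomm g hg x (hNK hx)) hx
        rwa [inv_mul_cancel_right] at h1
      -- the quotient is a finite `2`-group
      obtain ⟨L, hL, hL1⟩ := hpt.lev
      have hLN : L.fixingSubgroup ≤ N := by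
        intro σ hσ
        exact hker σ (hL1 σ ((IntermediateField.mem_fixingSubgroup_iff _ _).mp hσ))
      have hfin : Finite (M2 A)ˣ := inferInstance
      have hkf : (ρ.toHomUnits).ker.FiniteIndex := Subgroup.finiteIndex_ker _
      have hle : (ρ.toHomUnits).ker ≤ N := by
        intro σ hσ
        apply hker
        have h1 : ρ.toHomUnits σ = 1 := hσ
        have h2 := congrArg (fun w : (M2 A)ˣ => (w : M2 A)) h1
        simpa [MonoidHom.coe_toHomUnits] using h2
      have hNf : N.FiniteIndex := Subgroup.finiteIndex_of_le hle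
      have hnormal : (N.subgroupOf K.fixingSubgroup).Normal := by
        refine ⟨fun x hx g => ?_⟩
        rw [Subgroup.mem_subgroupOf] at hx ⊢
        exact hnorm g g.2 x hx
      have hpg : IsPGroup 2 (K.fixingSubgroup ⧸ N.subgroupOf K.fixingSubgroup) := by
        obtain ⟨n, hn⟩ := hpow
        intro x
        obtain ⟨g, rfl⟩ := QuotientGroup.mk_surjective x
        refine ⟨n, ?_⟩
        rw [← QuotientGroup.mk_pow, QuotientGroup.eq_one_iff, Subgroup.mem_subgroupOf]
        exact hn g g.2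
      have : Fact (Nat.Prime 2) := ⟨Nat.prime_two⟩
      obtain ⟨m, hm⟩ := IsPGroup.iff_card.mp hpg
      have hrel : N.relIndex K.fixingSubgroup = 2 ^ m := hm
      rw [hrel]
      refine hart N m hNK ⟨L, hL, hLN⟩ hnorm hcomm ?_ hrel
      intro q hq B hB σ hσ
      by_cases hqS : q ∈ S ∪ Q
      · refine hin ⟨(q, B), hqS, hB⟩ σ (TW.inertia_le_decomp hσ.1) hσ.2 ?_
        show U q ^ unrDeg q σ = 1
        rw [unrDeg_inertia hq hB hσ.1, pow_zero]
      · exact hker σ (hpt.unr q hq hqS B hB σ hσ.1))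
    (fun q => U q.1) (fun q => hUU _ (Finset.mem_union_right _ q.2))
    {x | ∃ v ∈ S, x = U v}
    (by
      rintro _ ⟨v, hv, rfl⟩
      have hv' : v ∈ S ∪ Q := Finset.mem_union_left _ hv
      obtain ⟨B, hB, φ, hφ⟩ := Fermat.Agent.Frob.exists_frobenius v (hprime v hv')
      have hφD : φ ∈ B.decompositionSubgroup ℚ := hφ.mem_decompositionSubgroup
      have hφ1 : unrDeg v φ = 1 := unrDeg_frob (hprime v hv') hB hφ
      refine ⟨⟨(v, B), hv', hB⟩, ?_⟩
      by_cases h1 : rbar φ = 1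
      · refine ⟨φ, hφD, ?_, ?_⟩
        · rw [Dih.K3, Set.mem_ofPred_eq, hmap, h1, mul_one, mul_one]
        · show U v = U v ^ unrDeg v φ
          rw [hφ1, pow_one]
      · obtain ⟨τ, hτ, hτ1⟩ := hres.ram v hv B hB
        have hτD : τ ∈ B.decompositionSubgroup ℚ := TW.inertia_le_decomp hτ
        refine ⟨φ * τ, (B.decompositionSubgroup ℚ).mul_mem hφD hτD, ?_, ?_⟩
        · have h2 : rbar (φ * τ) = 1 := by
            rw [map_mul]
            exact eq_of_steinberg_residual _ _ (hres.comm v hv B hB φ hφD φ hφD)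
              (hres.comm v hv B hB τ hτD τ hτD) (hres.comm v hv B hB φ hφD τ hτD)
              (hres.comm v hv B hB τ hτD φ hφD) h1 hτ1
          rw [Dih.K3, Set.mem_ofPred_eq, hmap, h2, mul_one, mul_one]
        · show U v = U v ^ unrDeg v (φ * τ)
          rw [pow_unrDeg_mul (hUU v hv') (hprime v hv') hB hφD hτD, hφ1,
            unrDeg_inertia (hprime v hv') hB hτ, pow_zero, pow_one, mul_one])
    (by
      rw [← top_le_iff, ← hgen, Subring.closure_le]
      rintro x (⟨σ, rfl⟩ | ⟨v, hv, rfl⟩)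
      · exact Subring.subset_closure (Or.inl (Or.inl ⟨σ, rfl⟩))
      · rcases Finset.mem_union.mp hv with h1 | h1
        · exact Subring.subset_closure (Or.inr ⟨v, h1, rfl⟩)
        · exact Subring.subset_closure (Or.inl (Or.inr ⟨⟨v, h1⟩, rfl⟩)))
  rwa [Fintype.card_coe] at key

end Fermat.Agent.LTF.Gal

end
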